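import Fermat.Prelude.Def_ModularCurve_HeckeModule
import Fermat.Agent.Common.FrobExists

/-!
# S37 glue: `SpecializationExists` from one additive "reduction" map

Abstract form of §1 of `NOTES/ESpkg.md`.  Let `J` be a Hecke module with a commuting Galois action
and let `sp₀ : J →+ J''`, `F₀ : J'' →+ J''` satisfy

* (R1a) `sp₀ (σ x) = sp₀ x` for `σ` in the inertia group of `A`;
* (R1b) `sp₀ (φ x) = F₀ (sp₀ x)` for every Frobenius `φ` at `A`;
* (R2)  `sp₀` is injective on `p`-power torsion;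
* (R3)  `F₀ (F₀ (sp₀ x)) - F₀ (sp₀ (T_ℓ x)) + ℓ • sp₀ x = 0`
        (the Eichler–Shimura congruence `sp₀ ∘ T_ℓ = (F₀ + ℓ F₀⁻¹) ∘ sp₀` after applying `F₀`).

Then `J' := J ⧸ K'`, with `K'` the largest Hecke-stable subgroup of `ker sp₀`, is a
specialization of `J` in the sense of the prelude, and Frobenius on `J'` satisfies
`F² - T_ℓ F + ℓ = 0`.  No Hecke-equivariance of `sp₀` is needed.
-/

set_option autoImplicit false

namespace Fermat.Agent.ES.G2

open ModularCurve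

section Abstract

variable {K L : Type*} [Field K] [Field L] [Algebra K L]
variable (p : ℕ) (J : Type) [AddCommGroup J] [Module HeckeAlg J]
  [DistribMulAction (L ≃ₐ[K] L) J] [SMulCommClass (L ≃ₐ[K] L) HeckeAlg J]

/-- The input of the glue: one additive map `sp₀` to an abelian group with an endomorphism `F₀`,
compatible with inertia and Frobenius at `A`, injective on `p`-power torsion, and satisfying the
Eichler–Shimura congruence for the single Hecke operator `T_ℓ`. -/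
structure GlueInput (A : ValuationSubring L) (ℓ : ℕ) (hℓ : ℓ.Prime)
    {J'' : Type*} [AddCommGroup J''] (sp₀ : J →+ J'') (F₀ : J'' →+ J'') : Prop where
  inertia : ∀ σ ∈ A.inertiaSubgroupIn K, ∀ x : J, sp₀ (σ • x) = sp₀ x
  frobenius : ∀ σ : L ≃ₐ[K] L, A.IsFrobeniusAt σ ℓ → ∀ x : J, sp₀ (σ • x) = F₀ (sp₀ x)
  injective_torsion : ∀ x : J, (∃ n : ℕ, p ^ n • x = 0) → sp₀ x = 0 → x = 0
  congruence : ∀ x : J,
    F₀ (F₀ (sp₀ x)) - F₀ (sp₀ (heckeGen ⟨ℓ, hℓ⟩ • x)) + ℓ • sp₀ x = 0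

variable {p J}

/-- The largest Hecke-stable subgroup of `ker sp₀`. -/
def glueKer {J'' : Type*} [AddCommGroup J''] (sp₀ : J →+ J'') : Submodule HeckeAlg J where
  carrier := {x | ∀ T : HeckeAlg, sp₀ (T • x) = 0}
  zero_mem' := fun T => by simp
  add_mem' := fun {x y} hx hy T => by
    have hx' : sp₀ (T • x) = 0 := hx T
    have hy' : sp₀ (T • y) = 0 := hy T
    rw [smul_add, map_add, hx', hy', add_zero]
  smul_mem' := fun c x hx T => by
    rw [smul_smul]
    exact hx (T * c)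

theorem mem_glueKer {J'' : Type*} [AddCommGroup J''] (sp₀ : J →+ J'') (x : J) :
    x ∈ glueKer sp₀ ↔ ∀ T : HeckeAlg, sp₀ (T • x) = 0 := Iff.rfl

theorem glueKer_le_ker {J'' : Type*} [AddCommGroup J''] (sp₀ : J →+ J'') {x : J}
    (hx : x ∈ glueKer sp₀) : sp₀ x = 0 := by
  have := hx 1
  rwa [one_smul] at this

omit [Module HeckeAlg J] [SMulCommClass (L ≃ₐ[K] L) HeckeAlg J] in
/-- The action of a Galois element as an additive endomorphism of `J`. -/
def glueGal (σ : L ≃ₐ[K] L) : J →+ J := DistribSMul.toAddMonoidHom J σ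

omit [Module HeckeAlg J] [SMulCommClass (L ≃ₐ[K] L) HeckeAlg J] in
@[simp] theorem glueGal_apply (σ : L ≃ₐ[K] L) (x : J) : glueGal (K := K) (L := L) σ x = σ • x :=
  rfl

/-- The abstract glue theorem. -/
theorem specialization_of_glueInput (A : ValuationSubring L) (ℓ : ℕ) (hℓ : ℓ.Prime)
    (hfrob : ∃ φ : L ≃ₐ[K] L, A.IsFrobeniusAt φ ℓ)
    {J'' : Type*} [AddCommGroup J''] (sp₀ : J →+ J'') (F₀ : J'' →+ J'')
    (h : GlueInput (K := K) p J A ℓ hℓ sp₀ F₀) :
    ∃ (J' : Type) (_ : AddCommGroup J') (_ : Module HeckeAlg J') (sp : J →+ J')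
      (F : J' →+ J'),
      IsSpecialization (K := K) p J J' A ℓ sp F ∧ SpecialFibreRelation J' ℓ hℓ F := by
  classical
  obtain ⟨φ, hφ⟩ := hfrob
  set K' : Submodule HeckeAlg J := glueKer sp₀ with hK'
  -- Frobenius preserves K'
  have hφK : ∀ x ∈ K', φ • x ∈ K' := by
    intro x hx T
    rw [← smul_comm φ T x, h.frobenius φ hφ, hx T, map_zero]
  -- the induced map on the quotient
  let Fq : (J ⧸ K') →+ (J ⧸ K') :=
    QuotientAddGroup.map K'.toAddSubgroup K'.toAddSubgroup (glueGal (K := K) (L := L) φ)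
      (fun x hx => hφK x hx)
  have hFq : ∀ x : J, Fq (K'.mkQ x) = K'.mkQ (φ • x) := fun x => rfl
  refine ⟨J ⧸ K', inferInstance, inferInstance, K'.mkQ.toAddMonoidHom, Fq, ⟨?_, ?_, ?_, ?_⟩, ?_⟩
  · -- hecke_comm
    intro T x
    rfl
  · -- inertia_comm
    intro σ hσ x
    show K'.mkQ (σ • x) = K'.mkQ x
    rw [← sub_eq_zero, ← map_sub, Submodule.mkQ_apply, Submodule.Quotient.mk_eq_zero]
    intro T
    rw [smul_sub, map_sub, ← smul_comm σ T x, h.inertia σ hσ, sub_self]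
  · -- frobenius_comm
    intro σ hσ x
    show K'.mkQ (σ • x) = Fq (K'.mkQ x)
    rw [hFq, ← sub_eq_zero, ← map_sub, Submodule.mkQ_apply, Submodule.Quotient.mk_eq_zero]
    intro T
    rw [smul_sub, map_sub, ← smul_comm σ T x, ← smul_comm φ T x, h.frobenius σ hσ,
      h.frobenius φ hφ, sub_self]
  · -- injective_torsion
    intro x hx hsp
    have hxK : x ∈ K' := by
      have : K'.mkQ x = 0 := hsp
      rwa [Submodule.mkQ_apply, Submodule.Quotient.mk_eq_zero] at this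
    exact h.injective_torsion x hx (glueKer_le_ker sp₀ hxK)
  · -- SpecialFibreRelation
    intro y
    obtain ⟨x, rfl⟩ := K'.mkQ_surjective y
    rw [hFq, hFq]
    have e1 : heckeGen ⟨ℓ, hℓ⟩ • K'.mkQ (φ • x) = K'.mkQ (heckeGen ⟨ℓ, hℓ⟩ • (φ • x)) := rfl
    have e2 : (ℓ : ℕ) • K'.mkQ x = K'.mkQ (ℓ • x) := (map_nsmul _ _ _).symm
    rw [e1, e2, ← map_sub, ← map_add, Submodule.mkQ_apply, Submodule.Quotient.mk_eq_zero]
    intro T
    -- move `T` inside
    have hT : T • (φ • φ • x - heckeGen ⟨ℓ, hℓ⟩ • (φ • x) + ℓ • x)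
        = φ • φ • (T • x) - φ • (heckeGen ⟨ℓ, hℓ⟩ • (T • x)) + ℓ • (T • x) := by
      rw [smul_add, smul_sub]
      congr 1
      · congr 1
        · rw [← smul_comm φ T (φ • x), ← smul_comm φ T x]
        · rw [smul_comm T (heckeGen ⟨ℓ, hℓ⟩) (φ • x), ← smul_comm φ T x,
            ← smul_comm φ (heckeGen ⟨ℓ, hℓ⟩) (T • x)]
      · rw [smul_comm T ℓ x]
    rw [hT, map_add, map_sub, h.frobenius φ hφ, h.frobenius φ hφ, h.frobenius φ hφ, map_nsmul]
    exact h.congruence (T • x)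

end Abstract

section JZero

variable (N p : ℕ) [NeZero N]

/-- The hypothesis that S37 needs, for all primes `ℓ ∤ N p` and all valuation rings over `ℓ`:
an additive map out of `J₀(N)` with (R1)–(R3). -/
def GlueInputsJZero : Prop :=
  letI := heckeModuleBar N
  ∀ (_ : SMulCommClass (AlgebraicClosure ℚ ≃ₐ[ℚ] AlgebraicClosure ℚ) HeckeAlg (JZero N)),
    ∀ ℓ : ℕ, (hℓ : ℓ.Prime) → ¬ ℓ ∣ N * p →
      ∀ A : ValuationSubring (AlgebraicClosure ℚ), A.LiesOverPrime ℓ →
        ∃ (J'' : Type) (_ : AddCommGroup J'') (sp₀ : JZero N →+ J'') (F₀ : J'' →+ J''),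
          GlueInput (K := ℚ) p (JZero N) A ℓ hℓ sp₀ F₀

/-- S37 from the glue inputs. -/
theorem specializationExists_JZero_of_glueInputs (h : GlueInputsJZero N p) :
    letI := heckeModuleBar N
    ∀ (_ : SMulCommClass (AlgebraicClosure ℚ ≃ₐ[ℚ] AlgebraicClosure ℚ) HeckeAlg (JZero N)),
      SpecializationExists (K := ℚ) (L := AlgebraicClosure ℚ) N p (JZero N) := by
  letI := heckeModuleBar N
  intro hsmul ℓ hℓ hℓN A hA
  obtain ⟨J'', _, sp₀, F₀, hin⟩ := h hsmul ℓ hℓ hℓN A hA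
  exact specialization_of_glueInput A ℓ hℓ
    (Fermat.Agent.Common.exists_isFrobeniusAt_of_liesOverPrime ℓ hℓ A hA) sp₀ F₀ hin

end JZero

end Fermat.Agent.ES.G2
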