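import Fermat.Agent.ES.Kronecker
import Fermat.Agent.ES.Top
import Fermat.Agent.ES.G2.Glue
import Fermat.Prelude.Def_ModularCurve_ArithmeticGalois
import Fermat.Prelude.Def_ModularCurve_HeckeOperator
import Fermat.Prelude.Def_ModularCurve_ReductionModL

/-!
# ES / G2 (item 37): the ONE target statement `(INJ)` and the statements of the consumer pieces

`F_N = modularFunctionFieldBar N = ℚ̄(j(q^d) : d ∣ N) ⊂ ℚ̄((q))`, `A` a valuation subring of `ℚ̄`
over the prime `ℓ`.  Integrality / primitivity / congruence of Laurent series are the predicates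
`KronInt`, `KronPrim`, `KronCongr` of `Fermat/Agent/ES/Kronecker.lean`.

* `ReducesToOne A N u` : `u = y₁ / y₂` with `y₁, y₂ ∈ F_N` `A`-integral and primitive and
  `y₁ ≡ y₂` coefficientwise modulo the maximal ideal of `A`  ("`u ≡ 1` in the Gauss valuation").
  The fraction form is forced: an element of `F_N` of Gauss norm `1` need not have an integral
  `q`-expansion (`1 / (π + j⁻¹)`).
* `StmtInj` : THE target of both (INJ) routes (Čech/idempotents in `Fermat/Agent/INJ`,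
  `π`-adic approximation in `Fermat/Agent/ES/M`).
* `StmtPrim`, `StmtHeckeNorm` : the two modular inputs of the consumers besides `StmtInj`.

Consumers (see `NOTES/ESpkg.md`): `Fermat.Agent.ES.StmtUnram`, `Fermat.Agent.ES.StmtFrob`
(`ES/Top.lean`), S18, and `Fermat.Agent.ES.G2.GlueInputsJZero` (S37).
-/

set_option autoImplicit false

noncomputable section

namespace Fermat.Agent.ES.G2

open ModularCurve AlgebraicCurve Fermat.Agent.ES

/-- `ℚ̄` -/
abbrev Qb : Type := AlgebraicClosure ℚ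

/-- `u ∈ F_N` is congruent to `1` modulo the maximal ideal of `A` (Gauss valuation of the
`q`-expansion), in fraction form. -/
def ReducesToOne (A : ValuationSubring Qb) (N : ℕ) [NeZero N]
    (u : modularFunctionFieldBar N) : Prop :=
  ∃ y₁ y₂ : LaurentSeries Qb,
    y₁ ∈ modularFunctionFieldBar N ∧ y₂ ∈ modularFunctionFieldBar N ∧
      KronPrim A y₁ ∧ KronPrim A y₂ ∧ KronCongr A y₁ y₂ ∧ (u : LaurentSeries Qb) * y₂ = y₁

/-- **(INJ)** — the single target statement.  `ℓ ∤ N`, `ℓ ∤ m`, `u ∈ F_N^×` with `u ≡ 1` at `A`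
and `m ∣ ord_P u` at every place `P` of `F_N / ℚ̄`; then `u` is an `m`-th power in `F_N`. -/
def StmtInj : Prop :=
  ∀ (N : ℕ) [NeZero N] (ℓ : ℕ), ℓ.Prime → ¬ ℓ ∣ N →
    ∀ A : ValuationSubring Qb, A.LiesOverPrime ℓ →
      ∀ m : ℕ, ¬ ℓ ∣ m →
        ∀ u : modularFunctionFieldBar N, u ≠ 0 → ReducesToOne A N u →
          (∀ P : Place Qb (modularFunctionFieldBar N), (m : ℤ) ∣ P.ord u) →
            ∃ h : modularFunctionFieldBar N, h ^ m = u

/-- (INJ) for prime exponents only (what the two routes prove first). -/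
def StmtInjPrime : Prop :=
  ∀ (N : ℕ) [NeZero N] (ℓ : ℕ), ℓ.Prime → ¬ ℓ ∣ N →
    ∀ A : ValuationSubring Qb, A.LiesOverPrime ℓ →
      ∀ p : ℕ, p.Prime → p ≠ ℓ →
        ∀ u : modularFunctionFieldBar N, u ≠ 0 → ReducesToOne A N u →
          (∀ P : Place Qb (modularFunctionFieldBar N), (p : ℤ) ∣ P.ord u) →
            ∃ h : modularFunctionFieldBar N, h ^ p = u

/-- piece `PRIM` (Gauss valuation has value group `v(ℚ̄^×)`): every `u ∈ F_N^×` is
`c · y₁ / y₂` with `c ∈ ℚ̄^×` and `y₁, y₂ ∈ F_N` primitive `A`-integral series. -/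
def StmtPrim : Prop :=
  ∀ (N : ℕ) [NeZero N] (ℓ : ℕ), ℓ.Prime →
    ∀ A : ValuationSubring Qb, A.LiesOverPrime ℓ →
      ∀ u : modularFunctionFieldBar N, u ≠ 0 →
        ∃ (c : Qb) (y₁ y₂ : LaurentSeries Qb), c ≠ 0 ∧
          y₁ ∈ modularFunctionFieldBar N ∧ y₂ ∈ modularFunctionFieldBar N ∧
            KronPrim A y₁ ∧ KronPrim A y₂ ∧
              (u : LaurentSeries Qb) * y₂ = HahnSeries.C c * y₁

/-- piece `HN` (Hecke norm in `q`-expansions): for `v ∈ F_N` and a prime `ℓ ∤ N`, the norm of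
`β^* v = v(q^ℓ)` from `F_{Nℓ}` down to `F_N` (along `α`, the inclusion) has `q`-expansion
`kronHecke ℓ ζ v = v(q^ℓ) · ∏_{b<ℓ} v(ζ^b q^{1/ℓ})`. -/
def StmtHeckeNorm : Prop :=
  ∀ (N : ℕ) [NeZero N] (ℓ : ℕ) [NeZero ℓ], ℓ.Prime → ¬ ℓ ∣ N →
    ∀ ζ : Qbˣ, IsPrimitiveRoot ζ ℓ →
      ∀ v : modularFunctionFieldBar N,
        letI := (heckeAlphaBar Qb N ℓ).toRingHom.toAlgebra
        ((Algebra.norm (modularFunctionFieldBar N) (heckeBetaBar Qb N ℓ v) :
            modularFunctionFieldBar N) : LaurentSeries Qb) =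
          kronHecke ℓ ζ (v : LaurentSeries Qb)

/-- piece `POW`: prime exponents suffice (induction on `m`; by `PRIM` and Gauss' lemma the root
`h` of `u ≡ 1` is `z₁ / z₂` with `z̄₁ ^ p = z̄₂ ^ p` in `k((q))`, so `h / ζ ≡ 1` for a suitable
`p`-th root of unity `ζ`). -/
def StmtInjOfPrime : Prop := StmtPrim → StmtInjPrime → StmtInj

/-- piece `UNRAM`: inertia acts trivially on `J₀(M)[p^∞]` (clause `unram` of the ES package). -/
def StmtUnramOfInj : Prop :=
  StmtInj → StmtPrim → ∀ (M p : ℕ) [NeZero M], Fermat.Agent.ES.StmtUnram M p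

/-- piece `FROB`: the Eichler–Shimura relation on `J₀(M)[p^∞]` (clause `frob`). -/
def StmtFrobOfInj : Prop :=
  StmtInj → StmtPrim → StmtHeckeNorm → ∀ (M p : ℕ) [NeZero M], Fermat.Agent.ES.StmtFrob M p

/-- the statement of S18, as a `Prop` -/
def StmtS18 : Prop :=
  ∀ (N : ℕ) [NeZero N] (ℓ : ℕ) [Fact ℓ.Prime], ¬ ℓ ∣ N →
    ∀ A : ValuationSubring Qb, A.LiesOverPrime ℓ →
      ModularCurve.ReductionInputsModL A N →
        ∀ m : ℕ, ¬ ℓ ∣ m → ∀ z : ModularCurve.JZero N, m • z = 0 →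
          ModularCurve.reductionModL A N z = 0 → z = 0

/-- piece `S18-glue` -/
def StmtS18OfInj : Prop := StmtInj → StmtS18

/-- piece `S37-in`: the inputs (R1)–(R3) of the S37 glue, for all `N`, `p`. -/
def StmtS37Inputs : Prop := ∀ (N p : ℕ) [NeZero N], GlueInputsJZero N p

end Fermat.Agent.ES.G2
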