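/-
ES / G2, piece PRIM (helper32): `stmtPrim : StmtPrim`.

Every `u ∈ F_N^×` is `c · y₁ / y₂` with `c ∈ ℚ̄^×` and `y₁, y₂ ∈ F_N` primitive `A`-integral
Laurent series.  Proof: `u = P(j_d) / Q(j_d)`; the `q`-coefficients of `P(j_d)` lie in the `ℤ`-span
of the finitely many coefficients of `P` (the `j(q^d)` have integer coefficients), so by
`exists_min_of_mem_span` one coefficient divides all the others in `A`.
-/
import Fermat.Agent.ES.G2.Plan
import Fermat.Agent.ES.G2.PrimCore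
import Fermat.Agent.S24.BridgeAlg
import Fermat.Prelude.Thm_ModularCurve_coeffMap_qExpand
import Fermat.Prelude.Def_ModularCurve_X0ModL

set_option autoImplicit false

noncomputable section

namespace Fermat.Agent.ES.G2

open ModularCurve AlgebraicCurve Fermat.Agent.ES

/-- Laurent series over `ℚ̄` with integer coefficients. -/
def primIntSeries : Subring (LaurentSeries Qb) := (coeffMap (Int.castRingHom Qb)).range

theorem prim_jBfam_mem (N : ℕ) [NeZero N] (d : Fermat.Agent.S24.Dv N) :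
    Fermat.Agent.S24.jBfam N d ∈ primIntSeries := by
  obtain ⟨d, hd⟩ := d
  have : NeZero d := ⟨fun h => NeZero.ne N (by subst h; simpa using hd)⟩
  refine ⟨qExpand ℤ d (jqModC ℤ), ?_⟩
  rw [Fermat.Agent.S24.jBfam_eq N d hd, coeffMap_qExpand, coeffMap_jqModC, coeffEmb,
    coeffMap_qExpand, ← jqModC_rat, coeffMap_jqModC]

theorem prim_coeff_mul_mem (c : Qb) {f : LaurentSeries Qb} (hf : f ∈ primIntSeries) (n : ℤ) :
    (algebraMap Qb (LaurentSeries Qb) c * f).coeff n ∈ Submodule.span ℤ ({c} : Set Qb) := by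
  obtain ⟨g, rfl⟩ := hf
  rw [LaurentSeries.algebraMap_apply, HahnSeries.C_mul_eq_smul, HahnSeries.coeff_smul,
    coeffMap_coeff, smul_eq_mul]
  have : c * (Int.castRingHom Qb) (g.coeff n) = (g.coeff n) • c := by
    rw [zsmul_eq_mul, mul_comm]; rfl
  rw [this]
  exact Submodule.smul_mem _ _ (Submodule.subset_span rfl)

/-- the `q`-coefficients of `P(j_d)` lie in the `ℤ`-span of the coefficients of `P` -/
theorem prim_coeff_aeval_mem (N : ℕ) [NeZero N] (P : MvPolynomial (Fermat.Agent.S24.Dv N) Qb)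
    (n : ℤ) :
    (MvPolynomial.aeval (Fermat.Agent.S24.jBfam N) P).coeff n ∈
      Submodule.span ℤ (P.coeffs : Set Qb) := by
  classical
  rw [show MvPolynomial.aeval (Fermat.Agent.S24.jBfam N) P =
      ∑ α ∈ P.support, MvPolynomial.aeval (Fermat.Agent.S24.jBfam N)
        (MvPolynomial.monomial α (MvPolynomial.coeff α P)) by
    conv_lhs => rw [P.as_sum, map_sum]]
  rw [HahnSeries.coeff_sum]
  refine Submodule.sum_mem _ fun α hα => ?_
  rw [MvPolynomial.aeval_monomial]
  have h1 : (α.prod fun i k => Fermat.Agent.S24.jBfam N i ^ k) ∈ primIntSeries :=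
    Subring.prod_mem _ fun i _ => Subring.pow_mem _ (prim_jBfam_mem N i) _
  refine Submodule.span_mono ?_ (prim_coeff_mul_mem _ h1 n)
  rintro x rfl
  exact Finset.mem_coe.2 (MvPolynomial.coeff_mem_coeffs α (MvPolynomial.mem_support_iff.1 hα))

/-- a nonzero element of `ℚ̄[j_d]` is a constant times a primitive integral series -/
theorem prim_exists_primitive (N : ℕ) [NeZero N] (A : ValuationSubring Qb)
    (P : MvPolynomial (Fermat.Agent.S24.Dv N) Qb)
    (hP : MvPolynomial.aeval (Fermat.Agent.S24.jBfam N) P ≠ 0) :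
    ∃ (s : Qb) (y : LaurentSeries Qb), s ≠ 0 ∧ y ∈ modularFunctionFieldBar N ∧ KronPrim A y ∧
      MvPolynomial.aeval (Fermat.Agent.S24.jBfam N) P = HahnSeries.C s * y := by
  set yP := MvPolynomial.aeval (Fermat.Agent.S24.jBfam N) P with hyP
  -- the set of nonzero coefficients
  set S : Set Qb := {x | x ≠ 0 ∧ ∃ n : ℤ, yP.coeff n = x} with hS
  have hne : S.Nonempty := by
    by_contra hcon
    apply hP
    ext n
    by_contra h
    exact hcon ⟨yP.coeff n, h, n, rfl⟩
  obtain ⟨s₀, ⟨hs₀0, n₀, hn₀⟩, hmin⟩ := exists_min_of_mem_span A P.coeffs S hne (fun s hs => hs.1)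
    (by rintro s ⟨-, n, rfl⟩; exact prim_coeff_aeval_mem N P n)
  have hmem : yP ∈ modularFunctionFieldBar N := by
    rw [Fermat.Agent.S24.br_modularFunctionFieldBar_eq_adjoin]
    have : yP ∈ Algebra.adjoin Qb (Set.range (Fermat.Agent.S24.jBfam N)) := by
      rw [Algebra.adjoin_range_eq_range_aeval]; exact ⟨P, rfl⟩
    exact IntermediateField.algebra_adjoin_le_adjoin _ _ this
  refine ⟨s₀, HahnSeries.C s₀⁻¹ * yP, hs₀0, ?_, ⟨?_, n₀, ?_⟩, ?_⟩
  · refine mul_mem ?_ hmem
    rw [← LaurentSeries.algebraMap_apply]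
    exact IntermediateField.algebraMap_mem _ _
  · intro n
    rw [HahnSeries.C_mul_eq_smul, HahnSeries.coeff_smul, smul_eq_mul]
    by_cases h : yP.coeff n = 0
    · rw [h, mul_zero]; exact A.zero_mem
    · have := hmin _ ⟨h, n, rfl⟩
      rwa [div_eq_inv_mul] at this
  · rw [HahnSeries.C_mul_eq_smul, HahnSeries.coeff_smul, smul_eq_mul, hn₀, inv_mul_cancel₀ hs₀0]
    intro h
    rw [ValuationSubring.mem_nonunits_iff, map_one] at h
    exact lt_irrefl _ h
  · rw [← mul_assoc, ← map_mul, mul_inv_cancel₀ hs₀0, map_one, one_mul]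

/-- piece `PRIM` -/
theorem stmtPrim : StmtPrim := by
  intro N _ ℓ _ A _ u hu
  have hu' : (u : LaurentSeries Qb) ∈
      IntermediateField.adjoin Qb (Set.range (Fermat.Agent.S24.jBfam N)) := by
    rw [← Fermat.Agent.S24.br_modularFunctionFieldBar_eq_adjoin]; exact u.2
  obtain ⟨P, Q, hPQ⟩ := (IntermediateField.mem_adjoin_range_iff Qb _ _).1 hu'
  have hu0 : (u : LaurentSeries Qb) ≠ 0 := fun h => hu (Subtype.ext h)
  have hQ0 : MvPolynomial.aeval (Fermat.Agent.S24.jBfam N) Q ≠ 0 := by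
    intro h; rw [h, div_zero] at hPQ; exact hu0 hPQ
  have hP0 : MvPolynomial.aeval (Fermat.Agent.S24.jBfam N) P ≠ 0 := by
    intro h; rw [h, zero_div] at hPQ; exact hu0 hPQ
  obtain ⟨s₁, y₁, hs₁, hy₁m, hy₁, hP⟩ := prim_exists_primitive N A P hP0
  obtain ⟨s₂, y₂, hs₂, hy₂m, hy₂, hQ⟩ := prim_exists_primitive N A Q hQ0
  refine ⟨s₁ * s₂⁻¹, y₁, y₂, mul_ne_zero hs₁ (inv_ne_zero hs₂), hy₁m, hy₂m, hy₁, hy₂, ?_⟩
  have h1 : (u : LaurentSeries Qb) * MvPolynomial.aeval (Fermat.Agent.S24.jBfam N) Q =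
      MvPolynomial.aeval (Fermat.Agent.S24.jBfam N) P := by
    rw [hPQ, div_mul_cancel₀ _ hQ0]
  rw [hP, hQ] at h1
  have hC : (HahnSeries.C s₂ : LaurentSeries Qb) ≠ 0 := by
    intro h
    apply hs₂
    have := congrArg (fun f : LaurentSeries Qb => f.coeff 0) h
    simpa using this
  have h2 : HahnSeries.C s₂ * ((u : LaurentSeries Qb) * y₂) =
      HahnSeries.C s₂ * (HahnSeries.C (s₁ * s₂⁻¹) * y₁) := by
    calc HahnSeries.C s₂ * ((u : LaurentSeries Qb) * y₂)
        = (u : LaurentSeries Qb) * (HahnSeries.C s₂ * y₂) := by ring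
      _ = HahnSeries.C s₁ * y₁ := h1
      _ = HahnSeries.C s₂ * (HahnSeries.C (s₁ * s₂⁻¹) * y₁) := by
        rw [← mul_assoc, ← map_mul]
        congr 2
        field_simp
  exact mul_left_cancel₀ hC h2

end Fermat.Agent.ES.G2
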