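import Fermat.Agent.S28.PrimeHypMain
import Fermat.Prelude.Def_ModularCurve_HeckeOperator
import Fermat.Prelude.Def_ModularCurve_ArithmeticGalois

/-!
# ES / G2, piece HN-DEG: `[F_{Nℓ} : F_N] = ℓ + 1` for a prime `ℓ ∤ N`

`F_N = modularFunctionFieldBar N = ℚ̄(j(q^d) : d ∣ N) ⊂ ℚ̄((q))`, and `F_{Nℓ}` is an `F_N`-algebra
through `heckeAlphaBar` (the inclusion).

* `hdeg_laurentBaseChange_full` : `laurentBaseChange L (modularFunctionFieldFull N) =
  modularFunctionFieldFullC L N` (the two descriptions of `L(j(q^d) : d ∣ N)`).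
* `hdeg_relfinrank` : `relfinrank F_N F_{Nℓ} = ℓ + 1` over any field `L` of characteristic `0`.
* `hdeg_finrank`, `hdeg_finiteDimensional` : the same for the algebra structure
  `(heckeAlphaBar ℚ̄ N ℓ).toRingHom.toAlgebra`.

Source: Igusa's degree theorem `Fermat.Agent.S28.relfinrank_full_eq_dedekindPsi` and the tower law.
-/

set_option autoImplicit false

noncomputable section

namespace Fermat.Agent.ES.G2

open ModularCurve IntermediateField

section BaseChange

variable (L : Type*) [Field L] [Algebra ℚ L]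

/-- `coeffEmb` sends `j(q^d)` to `j(q^d)`. -/
theorem hdeg_coeffEmb_gen (d : ℕ) [NeZero d] :
    coeffEmb L (qExpand ℚ d (jqModC ℚ)) = qExpand L d (jqModC L) := by
  rw [coeffEmb, coeffMap_qExpand, coeffMap_jqModC]

/-- `coeffEmb` of a rational constant. -/
theorem hdeg_coeffEmb_algebraMap (r : ℚ) :
    coeffEmb L (algebraMap ℚ (LaurentSeries ℚ) r) =
      algebraMap L (LaurentSeries L) (algebraMap ℚ L r) := by
  rw [algebraMap_laurentSeries_eq_single, algebraMap_laurentSeries_eq_single, coeffEmb,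
    coeffMap_single]

theorem hdeg_coeffEmb_mem_full (N : ℕ) {x : LaurentSeries ℚ}
    (hx : x ∈ modularFunctionFieldFull N) :
    coeffEmb L x ∈ modularFunctionFieldFullC L N := by
  rw [← modularFunctionFieldFullC_rat] at hx
  unfold modularFunctionFieldFullC at hx
  induction hx using IntermediateField.adjoin_induction with
  | mem x hx =>
    obtain ⟨d, hne, hd, rfl⟩ := hx
    rw [hdeg_coeffEmb_gen]
    exact jqModCd_mem_full L N hd
  | algebraMap r =>
    rw [hdeg_coeffEmb_algebraMap]
    exact IntermediateField.algebraMap_mem _ _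
  | add x y _ _ hx hy =>
    rw [map_add]
    exact add_mem hx hy
  | inv x _ hx =>
    rw [map_inv₀]
    exact inv_mem hx
  | mul x y _ _ hx hy =>
    rw [map_mul]
    exact mul_mem hx hy

/-- The two descriptions of `L(j(q^d) : d ∣ N) ⊂ L((q))` agree. -/
theorem hdeg_laurentBaseChange_full (N : ℕ) :
    laurentBaseChange L (modularFunctionFieldFull N) = modularFunctionFieldFullC L N := by
  apply le_antisymm
  · rw [laurentBaseChange, IntermediateField.adjoin_le_iff]
    rintro _ ⟨x, hx, rfl⟩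
    exact hdeg_coeffEmb_mem_full L N hx
  · rw [modularFunctionFieldFullC, IntermediateField.adjoin_le_iff]
    rintro _ ⟨d, hne, hd, rfl⟩
    rw [← hdeg_coeffEmb_gen]
    refine coeffEmb_mem_laurentBaseChange L ?_
    rw [← modularFunctionFieldFullC_rat]
    exact jqModCd_mem_full ℚ N hd

end BaseChange

section Degree

variable (L : Type*) [Field L] [CharZero L]

/-- Igusa + tower law: `[L(j(q^d) : d ∣ Nℓ) : L(j(q^d) : d ∣ N)] = ℓ + 1` for a prime `ℓ ∤ N`. -/
theorem hdeg_relfinrank_fullC (N ℓ : ℕ) [NeZero N] [NeZero ℓ] (hℓ : ℓ.Prime) (hℓN : ¬ ℓ ∣ N) :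
    (modularFunctionFieldFullC L N).relfinrank (modularFunctionFieldFullC L (N * ℓ)) = ℓ + 1 := by
  have hN : ((N : ℕ) : L) ≠ 0 := Nat.cast_ne_zero.mpr (NeZero.ne N)
  have hNℓ : ((N * ℓ : ℕ) : L) ≠ 0 := Nat.cast_ne_zero.mpr (NeZero.ne (N * ℓ))
  have h1 := Fermat.Agent.S28.relfinrank_full_eq_dedekindPsi L N hN
  have h2 := Fermat.Agent.S28.relfinrank_full_eq_dedekindPsi L (N * ℓ) hNℓ
  have hle1 : adjoin L {jqModC L} ≤ modularFunctionFieldFullC L N :=
    Fermat.Agent.S28.UB.K0_le_full L N
  have hle2 : modularFunctionFieldFullC L N ≤ modularFunctionFieldFullC L (N * ℓ) :=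
    Fermat.Agent.S28.UB.full_mono L (Dvd.intro _ rfl)
  have h3 := relfinrank_mul_relfinrank hle1 hle2
  have hψ : dedekindPsi (N * ℓ) = (ℓ + 1) * dedekindPsi N := by
    rw [Nat.mul_comm]
    exact Fermat.Agent.S28.UB.psi_mul_of_not_dvd hℓ hℓN
  rw [h1, h2, hψ] at h3
  have hpos : dedekindPsi N ≠ 0 := by
    intro h0
    rw [h0] at h1
    have hfin := Fermat.Agent.S28.relrank_full_lt_aleph0_of_ne_zero L N hN
    have hne := Fermat.Agent.S28.UB.relrank_ne_zero (adjoin L {jqModC L})
      (modularFunctionFieldFullC L N)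
    rw [relfinrank_eq_toNat_relrank, Cardinal.toNat_eq_zero] at h1
    rcases h1 with h1 | h1
    · exact hne h1
    · exact absurd hfin (not_lt.mpr h1)
  have h4 : dedekindPsi N * (modularFunctionFieldFullC L N).relfinrank
      (modularFunctionFieldFullC L (N * ℓ)) = dedekindPsi N * (ℓ + 1) := by
    rw [h3, Nat.mul_comm]
  exact Nat.eq_of_mul_eq_mul_left (Nat.pos_of_ne_zero hpos) h4

end Degree

section Inclusion

variable {k E : Type*} [Field k] [Field E] [Algebra k E]

/-- For `A ≤ B` the identity `B → B` is linear from the `A`-module `extendScalars` to `B` with the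
`A`-algebra structure given by the inclusion. -/
def hdegEquiv {A B : IntermediateField k E} (h : A ≤ B) :
    letI := (IntermediateField.inclusion h).toRingHom.toAlgebra
    ↥(extendScalars h) ≃ₗ[A] B :=
  letI := (IntermediateField.inclusion h).toRingHom.toAlgebra
  { toFun := fun x => ⟨x.1, x.2⟩
    invFun := fun x => ⟨x.1, x.2⟩
    left_inv := fun _ => rfl
    right_inv := fun _ => rfl
    map_add' := fun _ _ => rfl
    map_smul' := fun _ _ => rfl }

/-- `finrank` for the inclusion algebra structure is `relfinrank`. -/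
theorem hdeg_finrank_inclusion {A B : IntermediateField k E} (h : A ≤ B) :
    letI := (IntermediateField.inclusion h).toRingHom.toAlgebra
    Module.finrank A B = A.relfinrank B := by
  let _ := (IntermediateField.inclusion h).toRingHom.toAlgebra
  rw [relfinrank_eq_finrank_of_le h]
  exact (LinearEquiv.finrank_eq (hdegEquiv h)).symm

/-- Finite-dimensionality for the inclusion algebra structure. -/
theorem hdeg_finite_inclusion {A B : IntermediateField k E} (h : A ≤ B)
    (hfin : A.relfinrank B ≠ 0) :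
    letI := (IntermediateField.inclusion h).toRingHom.toAlgebra
    FiniteDimensional A B := by
  let _ := (IntermediateField.inclusion h).toRingHom.toAlgebra
  have h1 : A.relrank B < Cardinal.aleph0 := by
    by_contra hge
    exact hfin (by
      rw [relfinrank_eq_toNat_relrank, Cardinal.toNat_eq_zero]
      exact Or.inr (not_lt.mp hge))
  rw [relrank_eq_rank_of_le h] at h1
  have h2 : Module.Finite A (extendScalars h) := Module.rank_lt_aleph0_iff.mp h1
  exact Module.Finite.equiv (hdegEquiv h)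

end Inclusion

section Bar

/-- `F_N ≤ F_{Nℓ}`. -/
theorem hdeg_bar_le (N ℓ : ℕ) :
    modularFunctionFieldBar N ≤ modularFunctionFieldBar (N * ℓ) := by
  show laurentBaseChange (AlgebraicClosure ℚ) (modularFunctionFieldFull N) ≤
    laurentBaseChange (AlgebraicClosure ℚ) (modularFunctionFieldFull (N * ℓ))
  rw [hdeg_laurentBaseChange_full, hdeg_laurentBaseChange_full]
  exact Fermat.Agent.S28.UB.full_mono (AlgebraicClosure ℚ) (Dvd.intro _ rfl)

/-- `relfinrank F_N F_{Nℓ} = ℓ + 1`. -/
theorem hdeg_relfinrank (N ℓ : ℕ) [NeZero N] [NeZero ℓ] (hℓ : ℓ.Prime) (hℓN : ¬ ℓ ∣ N) :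
    (modularFunctionFieldBar N).relfinrank (modularFunctionFieldBar (N * ℓ)) = ℓ + 1 := by
  show (laurentBaseChange (AlgebraicClosure ℚ) (modularFunctionFieldFull N)).relfinrank
    (laurentBaseChange (AlgebraicClosure ℚ) (modularFunctionFieldFull (N * ℓ))) = ℓ + 1
  rw [hdeg_laurentBaseChange_full, hdeg_laurentBaseChange_full]
  exact hdeg_relfinrank_fullC (AlgebraicClosure ℚ) N ℓ hℓ hℓN

/-- **DEG**: `[F_{Nℓ} : F_N] = ℓ + 1` for the algebra structure given by `heckeAlphaBar`. -/
theorem hdeg_finrank (N ℓ : ℕ) [NeZero N] [NeZero ℓ] (hℓ : ℓ.Prime) (hℓN : ¬ ℓ ∣ N) :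
    letI := (heckeAlphaBar (AlgebraicClosure ℚ) N ℓ).toRingHom.toAlgebra
    Module.finrank (modularFunctionFieldBar N) (modularFunctionFieldBar (N * ℓ)) = ℓ + 1 := by
  have h := hdeg_finrank_inclusion (hdeg_bar_le N ℓ)
  rw [hdeg_relfinrank N ℓ hℓ hℓN] at h
  exact h

/-- **DEG**: `F_{Nℓ}` is finite-dimensional over `F_N` (algebra structure `heckeAlphaBar`). -/
theorem hdeg_finiteDimensional (N ℓ : ℕ) [NeZero N] [NeZero ℓ] (hℓ : ℓ.Prime) (hℓN : ¬ ℓ ∣ N) :
    letI := (heckeAlphaBar (AlgebraicClosure ℚ) N ℓ).toRingHom.toAlgebra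
    FiniteDimensional (modularFunctionFieldBar N) (modularFunctionFieldBar (N * ℓ)) := by
  refine hdeg_finite_inclusion (hdeg_bar_le N ℓ) ?_
  rw [hdeg_relfinrank N ℓ hℓ hℓN]
  exact Nat.succ_ne_zero ℓ

end Bar

end Fermat.Agent.ES.G2
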