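/-
ES / G2, piece PRIM, abstract core (helper32).

`exists_min_of_mem_span`: let `A` be a valuation subring of a field `L` and `S` a nonempty set of
nonzero elements of the `ℤ`-span of a finite subset `cs` of `L`.  Then some `s₀ ∈ S` divides, in
`A`, every element of `S` ("the Gauss norm on a finitely generated `ℤ`-module is attained").
No discreteness is used: after scaling, `S` lies in the noetherian ring `ℤ[cs / c₀] ⊆ A`, the ideal
it spans is generated by finitely many elements of `S`, and among these one has largest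
valuation.
-/
import Mathlib.RingTheory.Valuation.ValuationSubring
import Mathlib.RingTheory.FiniteType
import Mathlib.RingTheory.Noetherian.Basic
import Mathlib.RingTheory.Polynomial.Basic

set_option autoImplicit false

namespace Fermat.Agent.ES.G2

open scoped Pointwise

theorem primCore_adjoin_isNoetherianRing {L : Type*} [Field L] (cs : Finset L) :
    IsNoetherianRing (Algebra.adjoin ℤ (cs : Set L)) := by
  have : Algebra.FiniteType ℤ (Algebra.adjoin ℤ (cs : Set L)) :=
    (Subalgebra.fg_iff_finiteType _).1 (Subalgebra.fg_adjoin_finset cs)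
  exact Algebra.FiniteType.isNoetherianRing ℤ _

theorem exists_min_of_mem_span {L : Type*} [Field L] (A : ValuationSubring L) (cs : Finset L)
    (S : Set L) (hne : S.Nonempty) (h0 : ∀ s ∈ S, s ≠ 0)
    (hS : ∀ s ∈ S, s ∈ Submodule.span ℤ (cs : Set L)) :
    ∃ s₀ ∈ S, ∀ s ∈ S, s / s₀ ∈ A := by
  classical
  set v := A.valuation with hv
  -- a nonzero element of `cs`
  obtain ⟨s₁, hs₁⟩ := hne
  have hex : ∃ c ∈ cs, c ≠ 0 := by
    by_contra hcon
    push Not at hcon
    have : Submodule.span ℤ (cs : Set L) ≤ ⊥ := by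
      rw [Submodule.span_le]
      intro x hx
      simp [hcon x hx]
    exact h0 s₁ hs₁ (by simpa using this (hS s₁ hs₁))
  obtain ⟨c₁, hc₁, hc₁0⟩ := hex
  -- `c₀` of largest valuation
  obtain ⟨c₀, hc₀, hmax⟩ := Finset.exists_max_image cs v ⟨c₁, hc₁⟩
  have hc₀0 : c₀ ≠ 0 := by
    intro h
    have := hmax c₁ hc₁
    rw [h, map_zero] at this
    exact hc₁0 ((map_eq_zero v).1 (le_antisymm this zero_le))
  -- the scaled generators lie in `A`
  set cs' : Finset L := cs.image (fun c => c / c₀) with hcs'
  have hcs'A : ∀ x ∈ cs', x ∈ A := by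
    intro x hx
    rw [hcs', Finset.mem_image] at hx
    obtain ⟨c, hc, rfl⟩ := hx
    rw [← ValuationSubring.valuation_le_one_iff, map_div₀]
    exact div_le_one_of_le₀ (hmax c hc) zero_le
  set R := Algebra.adjoin ℤ (cs' : Set L) with hR
  have hRA : ∀ x ∈ R, x ∈ A := by
    intro x hx
    induction hx using Algebra.adjoin_induction with
    | mem x hx => exact hcs'A x hx
    | algebraMap r => simp
    | add x y _ _ hx hy => exact A.add_mem _ _ hx hy
    | mul x y _ _ hx hy => exact A.mul_mem _ _ hx hy
  have hNoeth : IsNoetherianRing R := primCore_adjoin_isNoetherianRing cs'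
  -- scaled elements of `S` lie in `R`
  have hspanR : ∀ x ∈ Submodule.span ℤ (cs : Set L), x / c₀ ∈ R := by
    intro x hx
    induction hx using Submodule.span_induction with
    | mem x hx =>
      exact Algebra.subset_adjoin (Finset.mem_coe.2 (Finset.mem_image_of_mem _ hx))
    | zero => rw [zero_div]; exact R.zero_mem
    | add x y _ _ hx hy => rw [add_div]; exact R.add_mem hx hy
    | smul n x _ hx =>
      rw [smul_div_assoc]
      exact R.zsmul_mem hx n
  have hSR : ∀ s ∈ S, s / c₀ ∈ R := fun s hs => hspanR s (hS s hs)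
  -- the ideal spanned by the scaled `S`
  set T : Set R := {x | (x : L) * c₀ ∈ S} with hT
  have hfg : (Ideal.span T).FG := IsNoetherian.noetherian _
  obtain ⟨T', hT'sub, hT'span⟩ := (Submodule.fg_span_iff_fg_span_finset_subset T).1 hfg
  have hs₁T : (⟨s₁ / c₀, hSR s₁ hs₁⟩ : R) ∈ T := by
    show s₁ / c₀ * c₀ ∈ S
    rwa [div_mul_cancel₀ _ hc₀0]
  have hT'ne : T'.Nonempty := by
    by_contra hcon
    rw [Finset.not_nonempty_iff_eq_empty] at hcon
    have h1 : (⟨s₁ / c₀, hSR s₁ hs₁⟩ : R) ∈ Submodule.span R (T : Set R) :=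
      Submodule.subset_span hs₁T
    rw [hT'span, hcon, Finset.coe_empty, Submodule.span_empty, Submodule.mem_bot] at h1
    have h2 : s₁ / c₀ = 0 := congrArg Subtype.val h1
    exact h0 s₁ hs₁ (by
      rcases div_eq_zero_iff.1 h2 with h | h
      · exact h
      · exact absurd h hc₀0)
  obtain ⟨t₀, ht₀, htmax⟩ := Finset.exists_max_image T' (fun t : R => v (t : L)) hT'ne
  have ht₀S : (t₀ : L) * c₀ ∈ S := hT'sub ht₀
  have ht₀0 : (t₀ : L) ≠ 0 := fun h => h0 _ ht₀S (by rw [h, zero_mul])
  -- every element of the ideal has valuation at most `v t₀`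
  have hle : ∀ x : R, x ∈ Submodule.span R (T' : Set R) → v (x : L) ≤ v (t₀ : L) := by
    intro x hx
    induction hx using Submodule.span_induction with
    | mem x hx => exact htmax x hx
    | zero => simp
    | add x y _ _ hx hy =>
      push_cast
      exact (v.map_add _ _).trans (max_le hx hy)
    | smul r x _ hx =>
      rw [smul_eq_mul]
      push_cast
      rw [map_mul]
      calc v (r : L) * v (x : L) ≤ 1 * v (t₀ : L) :=
            mul_le_mul' ((ValuationSubring.valuation_le_one_iff A _).2 (hRA _ r.2)) hx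
        _ = v (t₀ : L) := one_mul _
  refine ⟨(t₀ : L) * c₀, ht₀S, fun s hs => ?_⟩
  have hsT : (⟨s / c₀, hSR s hs⟩ : R) ∈ T := by
    show s / c₀ * c₀ ∈ S
    rwa [div_mul_cancel₀ _ hc₀0]
  have h1 := hle _ (hT'span ▸ Submodule.subset_span hsT)
  have h2 : s / ((t₀ : L) * c₀) = (s / c₀) / (t₀ : L) := by
    field_simp
  rw [h2, ← ValuationSubring.valuation_le_one_iff, map_div₀]
  exact div_le_one_of_le₀ h1 zero_le

end Fermat.Agent.ES.G2
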