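import Fermat.Agent.ES.G2.SwapAnalytic
import Fermat.Prelude.Def_ModularCurve_HeckeOperator
import Fermat.Prelude.Def_ModularCurve_ArithmeticGalois
import Fermat.Prelude.Thm_ModularCurve_coeffMap_qExpand

/-!
# ES / G2, piece HN, part SWAP: the Atkin–Lehner involution on `F_{Nℓ}`

For `ℓ` prime to `N` there is a `ℚ̄`-algebra endomorphism `w` of
`F_{Nℓ} = ℚ̄(j(q^d) : d ∣ Nℓ)` with `w ∘ α = β` and `w ∘ β = α`, where
`α = heckeAlphaBar` (inclusion of `F_N`) and `β = heckeBetaBar` (`q ↦ q^ℓ`):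

* `exists_swap`.

Route: a polynomial relation between the `j(q^d)` over `ℚ̄` is a relation between the functions
`J(dτ)` on `ℍ` (`S24.bridge_iff`); substitute `τ ↦ W τ` (`SwapAnalytic.lean`).
-/

set_option autoImplicit false

noncomputable section

namespace Fermat.Agent.ES.G2

open UpperHalfPlane ModularCurve Fermat.Agent.S24

attribute [local instance] algKbC

variable {N ℓ : ℕ}

/-- The swap `d m ↦ d (ℓ / m)` (`d ∣ N`, `m ∣ ℓ`) on the divisors of `N ℓ`. -/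
def swapDv (d : Dv (N * ℓ)) : Dv (N * ℓ) :=
  ⟨Nat.gcd d.1 N * (ℓ / Nat.gcd d.1 ℓ),
    mul_dvd_mul (Nat.gcd_dvd_right _ _) (Nat.div_dvd_of_dvd (Nat.gcd_dvd_right _ _))⟩

theorem swapDv_val (d : Dv (N * ℓ)) :
    (swapDv d).1 = Nat.gcd d.1 N * (ℓ / Nat.gcd d.1 ℓ) := rfl

theorem swap_dv_eq (hcop : Nat.Coprime ℓ N) (d : Dv (N * ℓ)) :
    d.1 = Nat.gcd d.1 N * Nat.gcd d.1 ℓ := by
  rw [← Nat.Coprime.gcd_mul d.1 hcop.symm, Nat.gcd_eq_left d.2]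

theorem swap_gcd_mul_div (c : ℕ) : Nat.gcd c ℓ * (ℓ / Nat.gcd c ℓ) = ℓ :=
  Nat.mul_div_cancel' (Nat.gcd_dvd_right c ℓ)

theorem swapDv_swapDv (hℓ : ℓ ≠ 0) (hcop : Nat.Coprime ℓ N) (d : Dv (N * ℓ)) :
    swapDv (swapDv d) = d := by
  apply Subtype.ext
  set c := Nat.gcd d.1 N with hc
  set m := Nat.gcd d.1 ℓ with hm
  set m' := ℓ / m with hm'
  have hmm' : m * m' = ℓ := swap_gcd_mul_div d.1
  have hm0 : 0 < m := Nat.pos_of_ne_zero fun h0 => hℓ (by rw [← hmm', h0, zero_mul])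
  have hcN : c ∣ N := Nat.gcd_dvd_right _ _
  have hm'ℓ : m' ∣ ℓ := ⟨m, by rw [← hmm', mul_comm]⟩
  have h1 : (swapDv d).1 = c * m' := rfl
  have hcop1 : Nat.Coprime m' N := Nat.Coprime.coprime_dvd_left hm'ℓ hcop
  have hcop2 : Nat.Coprime c ℓ := (Nat.Coprime.coprime_dvd_left hcN hcop.symm)
  have h2 : Nat.gcd (c * m') N = c := by
    rw [Nat.Coprime.gcd_mul_right_cancel c hcop1, Nat.gcd_eq_left hcN]
  have h3 : Nat.gcd (c * m') ℓ = m' := by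
    rw [Nat.Coprime.gcd_mul_left_cancel m' hcop2, Nat.gcd_eq_left hm'ℓ]
  have h4 : ℓ / m' = m := by
    have hm'0 : 0 < m' := Nat.pos_of_ne_zero fun h0 => hℓ (by rw [← hmm', h0, mul_zero])
    exact Nat.div_eq_of_eq_mul_left hm'0 hmm'.symm
  rw [swapDv_val, h1, h2, h3, h4]
  exact (swap_dv_eq hcop d).symm

/-- The analytic swap: `J(d · Wτ) = J(s(d) τ)` for all `d ∣ N ℓ`. -/
theorem swap_Jdfam [NeZero N] (hℓ : ℓ ≠ 0) (hcop : Nat.Coprime ℓ N) (a b : ℤ)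
    (h : a * (ℓ : ℤ) - b * (N : ℤ) = 1) (d : Dv (N * ℓ)) (τ : ℍ) :
    Jdfam (N * ℓ) d (swapW N ℓ a b h τ) = Jdfam (N * ℓ) (swapDv d) τ := by
  have hN0 : N ≠ 0 := NeZero.ne N
  show Jd d.1 _ = Jd (swapDv d).1 τ
  rw [swapDv_val]
  have h1 := swap_Jdm_W hN0 hℓ a b h (d := Nat.gcd d.1 N) (m := Nat.gcd d.1 ℓ)
    (m' := ℓ / Nat.gcd d.1 ℓ) (Nat.gcd_dvd_right _ _) (swap_gcd_mul_div d.1) τ
  rw [← swap_dv_eq hcop d] at h1
  exact h1

theorem swap_aeval_apply {ι : Type*} (F : ι → ℍ → ℂ) (P : MvPolynomial ι Kb) (τ : ℍ) :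
    (MvPolynomial.aeval (R := Kb) F P) τ = MvPolynomial.aeval (R := Kb) (fun i => F i τ) P :=
  MvPolynomial.comp_aeval_apply F (Pi.evalAlgHom Kb (fun _ : ℍ => ℂ) τ) P

/-- One direction of the transfer of relations. -/
theorem swap_rel [NeZero N] [NeZero ℓ] (hcop : Nat.Coprime ℓ N)
    (P : MvPolynomial (Dv (N * ℓ)) Kb)
    (hP : MvPolynomial.aeval (jBfam (N * ℓ)) P = 0) :
    MvPolynomial.aeval (jBfam (N * ℓ) ∘ swapDv) P = 0 := by
  obtain ⟨u, v, huv⟩ := Nat.Coprime.isCoprime hcop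
  have hab : u * (ℓ : ℤ) - (-v) * (N : ℤ) = 1 := by linear_combination huv
  have h1 := (bridge_iff (N * ℓ) P).mp hP
  have h3 : ∀ τ : ℍ, MvPolynomial.aeval (R := Kb)
      (fun d => Jdfam (N * ℓ) d (swapW N ℓ u (-v) hab τ)) P = 0 := by
    intro τ
    rw [← swap_aeval_apply (Jdfam (N * ℓ)) P (swapW N ℓ u (-v) hab τ), h1]
    rfl
  have h2 : MvPolynomial.aeval (R := Kb) (Jdfam (N * ℓ))
      (MvPolynomial.rename swapDv P) = 0 := by
    rw [MvPolynomial.aeval_rename]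
    funext τ
    rw [swap_aeval_apply (Jdfam (N * ℓ) ∘ swapDv) P τ]
    have h5 : (fun i => (Jdfam (N * ℓ) ∘ swapDv) i τ) =
        fun d => Jdfam (N * ℓ) d (swapW N ℓ u (-v) hab τ) :=
      funext fun d => (swap_Jdfam (NeZero.ne ℓ) hcop u (-v) hab d τ).symm
    rw [h5, h3 τ]
    rfl
  have h4 := (bridge_iff (N * ℓ) _).mpr h2
  rwa [MvPolynomial.aeval_rename] at h4

theorem swap_rel_iff [NeZero N] [NeZero ℓ] (hcop : Nat.Coprime ℓ N)
    (P : MvPolynomial (Dv (N * ℓ)) Kb) :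
    MvPolynomial.aeval (jBfam (N * ℓ)) P = 0 ↔
      MvPolynomial.aeval (jBfam (N * ℓ) ∘ swapDv) P = 0 := by
  refine ⟨swap_rel hcop P, fun h => ?_⟩
  have h1 : MvPolynomial.aeval (jBfam (N * ℓ)) (MvPolynomial.rename swapDv P) = 0 := by
    rw [MvPolynomial.aeval_rename]; exact h
  have h2 := swap_rel hcop _ h1
  rw [MvPolynomial.aeval_rename] at h2
  have h3 : (jBfam (N * ℓ) ∘ swapDv) ∘ swapDv = jBfam (N * ℓ) := by
    funext d
    simp only [Function.comp_apply, swapDv_swapDv (NeZero.ne ℓ) hcop]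
  rwa [h3] at h2

/-- The Atkin–Lehner involution on generators. -/
theorem exists_swap_gen [NeZero N] [NeZero ℓ] (hcop : Nat.Coprime ℓ N) :
    ∃ w : FF (N * ℓ) →ₐ[Kb] FF (N * ℓ),
      ∀ d : Dv (N * ℓ), w (jFfam (N * ℓ) d) = jFfam (N * ℓ) (swapDv d) := by
  obtain ⟨w, hw⟩ := exists_algHom_FF_of_relations (N * ℓ) (M := FF (N * ℓ))
    (fun d => jFfam (N * ℓ) (swapDv d)) (fun P => by
      rw [swap_rel_iff hcop P]
      have h := MvPolynomial.comp_aeval_apply (fun d => jFfam (N * ℓ) (swapDv d))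
        (IntermediateField.val (modularFunctionFieldBar (N * ℓ))) P
      have h' : MvPolynomial.aeval (jBfam (N * ℓ) ∘ swapDv) P =
          ((MvPolynomial.aeval (fun d => jFfam (N * ℓ) (swapDv d)) P : FF (N * ℓ)) :
            LaurentSeries Kb) := h.symm
      rw [h']
      exact ⟨fun h0 => Subtype.ext h0, fun h0 => congrArg Subtype.val h0⟩)
  exact ⟨w, fun d => hw d.1 d.2⟩

/-! ### `w ∘ α = β`, `w ∘ β = α` -/

theorem swap_jFfam_coe (M : ℕ) [NeZero M] (d : Dv M) (c : ℕ) [NeZero c] (hc : d.1 = c) :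
    ((jFfam M d : FF M) : LaurentSeries Kb) = coeffEmb Kb (qExpand ℚ c jq) := by
  obtain ⟨d, hd⟩ := d
  subst hc
  rfl

theorem swap_jFfam_congr (M : ℕ) [NeZero M] (d₁ d₂ : Dv M) (h : d₁.1 = d₂.1) :
    jFfam M d₁ = jFfam M d₂ := by
  rw [Subtype.ext h]

/-- **SWAP**: the Atkin–Lehner involution `w` of `F_{Nℓ}` exchanges the two degeneracy maps
`α` (inclusion) and `β` (`q ↦ q^ℓ`) of `F_N`. -/
theorem exists_swap (N ℓ : ℕ) [NeZero N] [NeZero ℓ] (hcop : Nat.Coprime ℓ N) :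
    ∃ w : modularFunctionFieldBar (N * ℓ) →ₐ[Kb] modularFunctionFieldBar (N * ℓ),
      (∀ v : modularFunctionFieldBar N, w (heckeAlphaBar Kb N ℓ v) = heckeBetaBar Kb N ℓ v) ∧
      (∀ v : modularFunctionFieldBar N, w (heckeBetaBar Kb N ℓ v) = heckeAlphaBar Kb N ℓ v) := by
  obtain ⟨w, hw⟩ := exists_swap_gen (N := N) (ℓ := ℓ) hcop
  have hℓ0 : ℓ ≠ 0 := NeZero.ne ℓ
  -- values of the degeneracy maps on the generators
  have hα : ∀ (d : ℕ) (hd : d ∣ N),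
      heckeAlphaBar Kb N ℓ (jdF N d hd) = jFfam (N * ℓ) ⟨d, hd.trans (dvd_mul_right N ℓ)⟩ := by
    intro d hd
    apply Subtype.ext
    rfl
  have hβ : ∀ (d : ℕ) (hd : d ∣ N),
      heckeBetaBar Kb N ℓ (jdF N d hd) = jFfam (N * ℓ) ⟨d * ℓ, mul_dvd_mul_right hd ℓ⟩ := by
    intro d hd
    have hd0 : d ≠ 0 := fun h0 => NeZero.ne N (by rw [h0, zero_dvd_iff] at hd; exact hd)
    have : NeZero d := ⟨hd0⟩
    have : NeZero (d * ℓ) := ⟨Nat.mul_ne_zero hd0 hℓ0⟩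
    apply Subtype.ext
    rw [swap_jFfam_coe (N * ℓ) ⟨d * ℓ, mul_dvd_mul_right hd ℓ⟩ (d * ℓ) rfl]
    show qExpand Kb ℓ (coeffEmb Kb (qExpand ℚ d jq)) = _
    rw [coeffEmb, ← coeffMap_qExpand, qExpand_qExpand]
    exact congrArg _ (qExpand_congr (mul_comm ℓ d) jq)
  have hs1 : ∀ (d : ℕ) (hd : d ∣ N),
      (swapDv (⟨d, hd.trans (dvd_mul_right N ℓ)⟩ : Dv (N * ℓ))).1 = d * ℓ := by
    intro d hd
    have hcopd : Nat.Coprime d ℓ := Nat.Coprime.coprime_dvd_left hd hcop.symm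
    rw [swapDv_val]
    show Nat.gcd d N * (ℓ / Nat.gcd d ℓ) = d * ℓ
    rw [Nat.gcd_eq_left hd, hcopd, Nat.div_one]
  have hs2 : ∀ (d : ℕ) (hd : d ∣ N),
      (swapDv (⟨d * ℓ, mul_dvd_mul_right hd ℓ⟩ : Dv (N * ℓ))).1 = d := by
    intro d hd
    have hcopd : Nat.Coprime d ℓ := Nat.Coprime.coprime_dvd_left hd hcop.symm
    rw [swapDv_val]
    show Nat.gcd (d * ℓ) N * (ℓ / Nat.gcd (d * ℓ) ℓ) = d
    rw [Nat.Coprime.gcd_mul_right_cancel d hcop, Nat.gcd_eq_left hd,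
      Nat.gcd_eq_right (Dvd.intro_left d rfl), Nat.div_self (Nat.pos_of_ne_zero hℓ0), mul_one]
  refine ⟨w, fun v => ?_, fun v => ?_⟩
  · have h : w.comp (heckeAlphaBar Kb N ℓ) = heckeBetaBar Kb N ℓ := by
      apply FF_algHom_ext
      intro d hd
      rw [AlgHom.comp_apply, hα d hd, hw, hβ d hd]
      exact swap_jFfam_congr _ _ _ (hs1 d hd)
    exact congrArg (fun f => f v) h
  · have h : w.comp (heckeBetaBar Kb N ℓ) = heckeAlphaBar Kb N ℓ := by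
      apply FF_algHom_ext
      intro d hd
      rw [AlgHom.comp_apply, hβ d hd, hw, hα d hd]
      exact swap_jFfam_congr _ _ _ (hs2 d hd)
    exact congrArg (fun f => f v) h

end Fermat.Agent.ES.G2
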