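import Fermat.Agent.ES.G2.HeckeDegStmt
import Fermat.Agent.ES.G2.Swap

/-!
# ES / G2, piece HN: the Hecke norm in `q`-expansions

`stmtHeckeNorm : StmtHeckeNorm` — for a prime `ℓ ∤ N` and `v ∈ F_N`, the norm of `v(q^ℓ)` from
`F_{Nℓ}` down to `F_N` has `q`-expansion `kronHecke ℓ ζ v = v(q^ℓ) · ∏_{b<ℓ} v(ζ^b q^{1/ℓ})`.

Assembly of `exists_swap` (Atkin–Lehner swap, `Swap.lean`), `stmtHNDeg` (degree `ℓ + 1`,
`HeckeDeg.lean`) and `stmtHeckeNorm_of_swap_of_deg` (`HeckeNormCore.lean`).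
-/

set_option autoImplicit false

namespace Fermat.Agent.ES.G2

/-- piece `SWAP` in the form consumed by `HeckeNormCore.lean` -/
theorem stmtHNSwap : StmtHNSwap := fun N ℓ _ _ h => exists_swap N ℓ h

/-- **Piece HN.** -/
theorem stmtHeckeNorm : StmtHeckeNorm := stmtHeckeNorm_of_swap stmtHNSwap

end Fermat.Agent.ES.G2
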