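import Fermat.Agent.ES.G2.Plan
import Fermat.Agent.INJ.Stmt

/-!
# Bridge: the (INJ) campaign target `Fermat.Agent.INJ.StmtINJAll` gives `StmtInjPrime`

`StmtINJ` is stated with series over `A`, `StmtInjPrime` with the predicates `KronPrim`,
`KronCongr` of `Kronecker.lean` (the form used by the clauses `unram`, `frob`).
-/

set_option autoImplicit false

noncomputable section

namespace Fermat.Agent.ES.G2

open ModularCurve AlgebraicCurve Fermat.Agent.ES

theorem stmtInjPrime_of_stmtINJAll (h : Fermat.Agent.INJ.StmtINJAll) : StmtInjPrime := by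
  intro N _ ℓ hℓ hℓN A hA p hp hpℓ u hu hred hord
  obtain ⟨y₁, y₂, hy₁, hy₂, hp₁, hp₂, hc, huy⟩ := hred
  obtain ⟨Y₁, rfl⟩ := hp₁.1.exists_lift
  obtain ⟨Y₂, rfl⟩ := hp₂.1.exists_lift
  have hne₂ : kronRed A Y₂ ≠ 0 := (kronPrim_kronIncl_iff Y₂).1 hp₂
  have hne₁ : kronRed A Y₁ ≠ 0 := (kronPrim_kronIncl_iff Y₁).1 hp₁
  have heq : kronRed A Y₁ = kronRed A Y₂ := (kronCongr_kronIncl_iff Y₁ Y₂).1 hc
  have hY₂ne : (⟨kronIncl A Y₂, hy₂⟩ : modularFunctionFieldBar N) ≠ 0 := by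
    intro h0
    apply hne₂
    have h1 : kronIncl A Y₂ = 0 := congrArg Subtype.val h0
    have h2 : Y₂ = 0 := by
      ext n
      have := congrArg (fun g : LaurentSeries Qb => g.coeff n) h1
      simpa [kronIncl, coeffMap_coeff] using this
    rw [h2, kronRed, map_zero]
  have hmul : u * (⟨kronIncl A Y₂, hy₂⟩ : modularFunctionFieldBar N) = ⟨kronIncl A Y₁, hy₁⟩ :=
    Subtype.ext huy
  have hY₁ne : (⟨kronIncl A Y₁, hy₁⟩ : modularFunctionFieldBar N) ≠ 0 := by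
    rw [← hmul]
    exact mul_ne_zero hu hY₂ne
  have hN : N ≠ 0 := NeZero.ne N
  obtain ⟨w, hw⟩ := h N ℓ p hN hℓ hp hℓN (fun e => hpℓ e.symm) A hA Y₁ Y₂ hy₁ hy₂ heq hne₂
    (fun P => by
      have h1 := P.ord_mul hu hY₂ne
      rw [hmul] at h1
      have h2 := hord P
      have : P.ord (⟨kronIncl A Y₁, hy₁⟩ : modularFunctionFieldBar N) -
          P.ord (⟨kronIncl A Y₂, hy₂⟩ : modularFunctionFieldBar N) = P.ord u := by
        rw [h1]; ring
      show (p : ℤ) ∣ P.ord (⟨kronIncl A Y₁, hy₁⟩ : modularFunctionFieldBar N) -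
          P.ord (⟨kronIncl A Y₂, hy₂⟩ : modularFunctionFieldBar N)
      rw [this]
      exact h2)
  refine ⟨w, ?_⟩
  have h3 : w ^ p * (⟨kronIncl A Y₂, hy₂⟩ : modularFunctionFieldBar N) =
      u * (⟨kronIncl A Y₂, hy₂⟩ : modularFunctionFieldBar N) := by
    rw [hmul]; exact hw
  exact mul_right_cancel₀ hY₂ne h3

end Fermat.Agent.ES.G2
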