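/-
ES / G2, piece POW (helper32): `stmtInjOfPrime : StmtInjOfPrime` (= `StmtPrim → StmtInjPrime → StmtInj`).

Induction on the exponent `m`.  If `h ^ p = u` and `u ≡ 1`, write `h = c z₁ / z₂` (PRIM) and
`u = y₁ / y₂`; then `(c z₁) ^ p · y₂ = y₁ · z₂ ^ p`, so by Gauss' lemma `c` is a unit of `A`, and in
`k((q))` the quotient `ω = (c z₁)‾ / z̄₂` satisfies `ω ^ p = 1`.  As `X ^ p - 1` splits in `ℚ̄` with
roots in `A`, `ω` is the reduction of a root of unity `ζ`, and `h / ζ ≡ 1`.
-/
import Fermat.Agent.ES.G2.Plan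
import Mathlib.FieldTheory.IsAlgClosed.Basic

set_option autoImplicit false

noncomputable section

namespace Fermat.Agent.ES.G2

open ModularCurve AlgebraicCurve Fermat.Agent.ES Polynomial

/-! ### roots of unity modulo the maximal ideal -/

/-- If `L` is algebraically closed, `A` a valuation subring, `φ : A → R` a ring homomorphism to a
domain and `ω ^ p = 1` in `R`, then `ω` is the image of a `p`-th root of unity of `A`. -/
theorem pow_exists_root_of_unity {L : Type*} [Field L] [IsAlgClosed L] (A : ValuationSubring L)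
    {R : Type*} [CommRing R] [IsDomain R] (φ : A →+* R) {p : ℕ} (hp : 0 < p) {ω : R}
    (hω : ω ^ p = 1) : ∃ ζ : A, ζ ^ p = 1 ∧ φ ζ = ω := by
  classical
  set f : L[X] := X ^ p - 1 with hf
  have hmonic : f.Monic := monic_X_pow_sub_C 1 hp.ne'
  have hf0 : f ≠ 0 := hmonic.ne_zero
  have hsplit : f = (f.roots.map (X - C ·)).prod :=
    (IsAlgClosed.splits f).eq_prod_roots_of_monic hmonic
  have hroot : ∀ a ∈ f.roots, a ^ p = 1 := by
    intro a ha
    have := (mem_roots hf0).1 ha
    rw [hf, IsRoot.def, eval_sub, eval_pow, eval_X, eval_one, sub_eq_zero] at this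
    exact this
  have hrootA : ∀ a ∈ f.roots, a ∈ A := by
    intro a ha
    rw [← ValuationSubring.valuation_le_one_iff]
    have h1 : A.valuation a ^ p = 1 := by rw [← map_pow, hroot a ha, map_one]
    exact ((pow_eq_one_iff.1 h1).resolve_right hp.ne').le
  set g : {a // a ∈ f.roots} → A := fun a => ⟨a.1, hrootA a.1 a.2⟩ with hg
  set Φ : A[X] := (f.roots.attach.map fun a => X - C (g a)).prod with hΦ
  have hΦmap : Φ.map A.subtype = (X ^ p - 1 : A[X]).map A.subtype := by
    rw [hΦ, Polynomial.map_multiset_prod, Multiset.map_map]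
    have h1 : (f.roots.attach.map (Polynomial.map A.subtype ∘ fun a => X - C (g a))) =
        f.roots.attach.map (fun a => (X - C ·) a.1) := by
      refine Multiset.map_congr rfl fun a _ => ?_
      simp [hg]
    rw [h1, Multiset.attach_map_val' f.roots (X - C ·), ← hsplit, hf]
    simp
  have hΦeq : Φ = X ^ p - 1 := Polynomial.map_injective _ Subtype.val_injective hΦmap
  have heval : (Φ.map φ).eval ω = 0 := by
    rw [hΦeq]
    simp [hω]
  rw [hΦ, Polynomial.map_multiset_prod, Multiset.map_map, eval_multiset_prod, Multiset.map_map,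
    Multiset.prod_eq_zero_iff, Multiset.mem_map] at heval
  obtain ⟨a, -, ha⟩ := heval
  refine ⟨g a, ?_, ?_⟩
  · apply Subtype.ext
    push_cast
    exact hroot a.1 a.2
  · simp only [Function.comp_apply, Polynomial.map_sub, map_X, map_C, eval_sub, eval_X,
      eval_C] at ha
    exact (sub_eq_zero.1 ha).symm

/-! ### units and primitive series -/

variable {L : Type*} [Field L] {A : ValuationSubring L}

theorem pow_coeff_C_mul (c : L) (f : LaurentSeries L) (n : ℤ) :
    (HahnSeries.C c * f).coeff n = c * f.coeff n := by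
  rw [HahnSeries.C_mul_eq_smul, HahnSeries.coeff_smul, smul_eq_mul]

theorem pow_kronInt_C_mul {c : L} (hc : c ∈ A) {f : LaurentSeries L} (hf : KronInt A f) :
    KronInt A (HahnSeries.C c * f) := fun n => by
  rw [pow_coeff_C_mul]; exact A.mul_mem _ _ hc (hf n)

theorem pow_mem_of_valuation_eq_one {c : L} (hc : A.valuation c = 1) : c ∈ A := by
  rw [← ValuationSubring.valuation_le_one_iff, hc]

theorem pow_not_mem_nonunits_iff {a : L} : a ∉ A.nonunits ↔ 1 ≤ A.valuation a := by
  rw [ValuationSubring.mem_nonunits_iff, not_lt]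

theorem pow_kronPrim_C_mul {c : L} (hc : A.valuation c = 1) {f : LaurentSeries L}
    (hf : KronPrim A f) : KronPrim A (HahnSeries.C c * f) := by
  obtain ⟨hint, n, hn⟩ := hf
  refine ⟨pow_kronInt_C_mul (pow_mem_of_valuation_eq_one hc) hint, n, ?_⟩
  rw [pow_coeff_C_mul, pow_not_mem_nonunits_iff, map_mul, hc, one_mul]
  exact pow_not_mem_nonunits_iff.1 hn

/-- Gauss: a constant multiple of a primitive series is primitive only if the constant is a
unit. -/
theorem pow_valuation_eq_one_of_kronPrim {d : L} {W : LaurentSeries L} (hW : KronPrim A W)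
    (hdW : KronPrim A (HahnSeries.C d * W)) : A.valuation d = 1 := by
  obtain ⟨hWint, n, hn⟩ := hW
  obtain ⟨hdint, n', hn'⟩ := hdW
  apply le_antisymm
  · -- `d · (unit) ∈ A`
    have h1 := hdint n
    rw [pow_coeff_C_mul, ← ValuationSubring.valuation_le_one_iff, map_mul] at h1
    have h2 : A.valuation (W.coeff n) = 1 :=
      le_antisymm ((ValuationSubring.valuation_le_one_iff A _).2 (hWint n))
        (pow_not_mem_nonunits_iff.1 hn)
    rwa [h2, mul_one] at h1
  · have h1 := pow_not_mem_nonunits_iff.1 hn'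
    rw [pow_coeff_C_mul, map_mul] at h1
    have h2 : A.valuation (W.coeff n') ≤ 1 :=
      (ValuationSubring.valuation_le_one_iff A _).2 (hWint n')
    calc (1 : A.ValueGroup) ≤ A.valuation d * A.valuation (W.coeff n') := h1
      _ ≤ A.valuation d * 1 := by gcongr
      _ = A.valuation d := mul_one _

theorem pow_kronIncl_C (a : A) :
    kronIncl A (HahnSeries.C a) = HahnSeries.C (a : L) := by
  rw [HahnSeries.C_apply, coeffMap_single, HahnSeries.C_apply]; rfl

theorem pow_kronRed_C (a : A) :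
    kronRed A (HahnSeries.C a) = HahnSeries.C (IsLocalRing.residue A a) := by
  rw [HahnSeries.C_apply, coeffMap_single, HahnSeries.C_apply]

/-! ### adjusting a root by a root of unity -/

theorem pow_adjust (hPrim : StmtPrim) (N : ℕ) [NeZero N] (ℓ : ℕ) (hℓ : ℓ.Prime)
    (A : ValuationSubring Qb) (hA : A.LiesOverPrime ℓ) (p : ℕ) (hp : 0 < p)
    (u h : modularFunctionFieldBar N) (hu : u ≠ 0) (hred : ReducesToOne A N u)
    (hh : h ^ p = u) :
    ∃ ζ : Qb, ζ ^ p = 1 ∧
      ReducesToOne A N (h * algebraMap Qb (modularFunctionFieldBar N) ζ) := by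
  have hh0 : h ≠ 0 := by
    rintro rfl
    rw [zero_pow hp.ne'] at hh
    exact hu hh.symm
  obtain ⟨c, z₁, z₂, hc, hz₁m, hz₂m, hz₁, hz₂, hhz⟩ := hPrim N ℓ hℓ A hA h hh0
  obtain ⟨y₁, y₂, hy₁m, hy₂m, hy₁, hy₂, hcong, huy⟩ := hred
  have hhL : (h : LaurentSeries Qb) ^ p = (u : LaurentSeries Qb) := by
    rw [← hh]; rfl
  -- `(c z₁)^p y₂ = y₁ z₂^p`
  have hstar : (HahnSeries.C c * z₁) ^ p * y₂ = y₁ * z₂ ^ p := by
    rw [← hhz, mul_pow, hhL, ← huy]; ring
  -- `c` is a unit of `A`
  have hvcp : A.valuation (c ^ p) = 1 := by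
    refine pow_valuation_eq_one_of_kronPrim (W := z₁ ^ p * y₂) ((hz₁.pow p).mul hy₂) ?_
    have : HahnSeries.C (c ^ p) * (z₁ ^ p * y₂) = y₁ * z₂ ^ p := by
      rw [← hstar, mul_pow, map_pow]; ring
    rw [this]
    exact hy₁.mul (hz₂.pow p)
  have hvc : A.valuation c = 1 := by
    rw [map_pow] at hvcp
    exact (pow_eq_one_iff.1 hvcp).resolve_right hp.ne'
  have hZ₁ : KronPrim A (HahnSeries.C c * z₁) := pow_kronPrim_C_mul hvc hz₁
  -- pass to `A((q))` and reduce
  obtain ⟨Z₁', hZ₁'⟩ := hZ₁.1.exists_lift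
  obtain ⟨z₂', hz₂'⟩ := hz₂.1.exists_lift
  obtain ⟨y₁', hy₁'⟩ := hy₁.1.exists_lift
  obtain ⟨y₂', hy₂'⟩ := hy₂.1.exists_lift
  have hstarA : Z₁' ^ p * y₂' = y₁' * z₂' ^ p := by
    apply kronIncl_injective (A := A)
    rw [map_mul, map_mul, map_pow, map_pow, hZ₁', hz₂', hy₁', hy₂', hstar]
  have hredeq : kronRed A y₁' = kronRed A y₂' := by
    rw [← kronCongr_kronIncl_iff, hy₁', hy₂']; exact hcong
  have hy₂ne : kronRed A y₂' ≠ 0 := by
    rw [← kronPrim_kronIncl_iff, hy₂']; exact hy₂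
  have hz₂ne : kronRed A z₂' ≠ 0 := by
    rw [← kronPrim_kronIncl_iff, hz₂']; exact hz₂
  have hstark : kronRed A Z₁' ^ p = kronRed A z₂' ^ p := by
    have := congrArg (kronRed A) hstarA
    rw [map_mul, map_mul, map_pow, map_pow, hredeq, mul_comm (kronRed A y₂')] at this
    exact mul_right_cancel₀ hy₂ne this
  have hω : (kronRed A Z₁' / kronRed A z₂') ^ p = 1 := by
    rw [div_pow, hstark, div_self (pow_ne_zero _ hz₂ne)]
  obtain ⟨ζA, hζAp, hζA⟩ := pow_exists_root_of_unity A
    ((HahnSeries.C : _ →+* LaurentSeries (IsLocalRing.ResidueField A)).comp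
      (IsLocalRing.residue A)) hp hω
  have hredZ : kronRed A Z₁' = kronRed A (HahnSeries.C ζA * z₂') := by
    rw [map_mul, pow_kronRed_C]
    rw [RingHom.comp_apply] at hζA
    rw [hζA, div_mul_cancel₀ _ hz₂ne]
  have hcongZ : KronCongr A (HahnSeries.C c * z₁) (HahnSeries.C (ζA : Qb) * z₂) := by
    have := (kronCongr_kronIncl_iff Z₁' (HahnSeries.C ζA * z₂')).2 hredZ
    rwa [hZ₁', map_mul, pow_kronIncl_C, hz₂'] at this
  -- the root of unity
  set ζ : Qb := (ζA : Qb) with hζ
  have hζp : ζ ^ p = 1 := by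
    have := congrArg (fun a : A => (a : Qb)) hζAp
    simpa using this
  have hζ0 : ζ ≠ 0 := by
    intro h0
    rw [h0, zero_pow hp.ne'] at hζp
    exact zero_ne_one hζp
  have hvζ : A.valuation ζ = 1 := by
    have h1 : A.valuation ζ ^ p = 1 := by rw [← map_pow, hζp, map_one]
    exact (pow_eq_one_iff.1 h1).resolve_right hp.ne'
  have hvζi : A.valuation ζ⁻¹ = 1 := by rw [map_inv₀, hvζ, inv_one]
  refine ⟨ζ⁻¹, by rw [inv_pow, hζp, inv_one], HahnSeries.C ζ⁻¹ * (HahnSeries.C c * z₁), z₂, ?_,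
    hz₂m, pow_kronPrim_C_mul hvζi hZ₁, hz₂, ?_, ?_⟩
  · refine mul_mem ?_ (mul_mem ?_ hz₁m)
    · rw [← LaurentSeries.algebraMap_apply]; exact IntermediateField.algebraMap_mem _ _
    · rw [← LaurentSeries.algebraMap_apply]; exact IntermediateField.algebraMap_mem _ _
  · have h1 : KronCongr A (HahnSeries.C ζ⁻¹ * (HahnSeries.C c * z₁))
        (HahnSeries.C ζ⁻¹ * (HahnSeries.C ζ * z₂)) :=
      KronCongr.mul (pow_kronInt_C_mul (pow_mem_of_valuation_eq_one hvζi) KronInt.one |> fun h => by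
          simpa using h)
        (pow_kronInt_C_mul (pow_mem_of_valuation_eq_one hvζi) KronInt.one |> fun h => by
          simpa using h) hZ₁.1
        (pow_kronInt_C_mul (pow_mem_of_valuation_eq_one hvζ) hz₂.1) (KronCongr.refl _) hcongZ
    have h2 : HahnSeries.C ζ⁻¹ * (HahnSeries.C ζ * z₂) = z₂ := by
      rw [← mul_assoc, ← map_mul, inv_mul_cancel₀ hζ0, map_one, one_mul]
    rwa [h2] at h1
  · show (h : LaurentSeries Qb) * algebraMap Qb (LaurentSeries Qb) ζ⁻¹ * z₂ = _
    rw [LaurentSeries.algebraMap_apply, ← hhz]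
    ring

/-! ### the induction -/

theorem pow_place_ord_algebraMap {K F : Type*} [Field K] [Field F] [Algebra K F] (v : Place K F)
    (a : K) : v.ord (algebraMap K F a) = 0 := by
  rcases eq_or_ne a 0 with rfl | ha
  · simp
  · have h1 : algebraMap K F a ∈ v.toValuationSubring := v.algebraMap_mem' a
    have h2 : algebraMap K F a⁻¹ ∈ v.toValuationSubring := v.algebraMap_mem' a⁻¹
    have hu : IsUnit (⟨algebraMap K F a, h1⟩ : v.toValuationSubring) := by
      refine IsUnit.of_mul_eq_one ⟨algebraMap K F a⁻¹, h2⟩ ?_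
      apply Subtype.ext
      show algebraMap K F a * algebraMap K F a⁻¹ = 1
      rw [← map_mul, mul_inv_cancel₀ ha, map_one]
    exact v.ord_coe_unit hu.unit

/-- piece `POW` -/
theorem stmtInjOfPrime : StmtInjOfPrime := by
  intro hPrim hInjP N _ ℓ hℓ hℓN A hA m
  induction m using Nat.strong_induction_on with
  | _ m ih =>
  intro hℓm u hu hred hord
  rcases Nat.lt_or_ge m 2 with hm | hm
  · interval_cases m
    · exact absurd (dvd_zero ℓ) hℓm
    · exact ⟨u, pow_one u⟩
  have hp : (m.minFac).Prime := Nat.minFac_prime (by omega)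
  obtain ⟨m', hm'⟩ := Nat.minFac_dvd m
  set p := m.minFac with hpdef
  have hpℓ : p ≠ ℓ := fun h => hℓm (h ▸ Nat.minFac_dvd m)
  have hm'pos : 0 < m' := by
    rcases Nat.eq_zero_or_pos m' with h | h
    · rw [h, mul_zero] at hm'; omega
    · exact h
  have hm'lt : m' < m := by
    rw [hm']
    calc m' = 1 * m' := (one_mul _).symm
      _ < p * m' := Nat.mul_lt_mul_of_pos_right hp.one_lt hm'pos
  have hℓm' : ¬ ℓ ∣ m' := fun h => hℓm (hm' ▸ Dvd.dvd.mul_left h p)
  obtain ⟨h, hh⟩ := hInjP N ℓ hℓ hℓN A hA p hp hpℓ u hu hred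
    (fun P => (Int.natCast_dvd_natCast.2 ⟨m', hm'⟩).trans (hord P))
  obtain ⟨ζ, hζp, hred'⟩ := pow_adjust hPrim N ℓ hℓ A hA p hp.pos u h hu hred hh
  set h' : modularFunctionFieldBar N := h * algebraMap Qb (modularFunctionFieldBar N) ζ with hh'
  have hh'p : h' ^ p = u := by
    rw [hh', mul_pow, hh, ← map_pow, hζp, map_one, mul_one]
  have hh'0 : h' ≠ 0 := by
    intro h0
    rw [h0, zero_pow hp.ne_zero] at hh'p
    exact hu hh'p.symm
  have hord' : ∀ P : Place Qb (modularFunctionFieldBar N), (m' : ℤ) ∣ P.ord h' := by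
    intro P
    have h1 : P.ord u = (p : ℤ) * P.ord h' := by
      rw [← hh'p, ← zpow_natCast, Place.ord_zpow]
    have h2 := hord P
    rw [h1, hm'] at h2
    push_cast at h2
    exact (mul_dvd_mul_iff_left (by exact_mod_cast hp.ne_zero)).1 h2
  obtain ⟨g, hg⟩ := ih m' hm'lt hℓm' h' hh'0 hred' hord'
  refine ⟨g, ?_⟩
  rw [hm', mul_comm, pow_mul, hg, hh'p]

end Fermat.Agent.ES.G2
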