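/-
ES / G2, piece UNRAM (helper40): inertia at a place over a good prime acts trivially on
`J₀(M)[p^∞]`, from (INJ) and (PRIM)  (`stmtUnramOfInj : StmtUnramOfInj`, see `ES/G2/Plan.lean`).

Proof: `x = [D]`, `p^n D = div u`; by (PRIM) `u = c · y₁ / y₂` with `y_i` primitive, and constants
have trivial divisor, so WLOG `u = y₁ / y₂`.  For `σ` in the inertia group,
`σu / u = (σy₁ · y₂) / (σy₂ · y₁)` reduces to one (K5 + Gauss' lemma), so it is a `p^n`-th power
`h ^ (p^n)` by (INJ), and `σD − D = div h`.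
-/
import Fermat.Agent.ES.G2.Plan

set_option autoImplicit false

noncomputable section

namespace Fermat.Agent.ES.G2

open ModularCurve AlgebraicCurve Fermat.Agent.ES HahnSeries

section Generic

variable {K F : Type*} [Field K] [Field F] [Algebra K F]

/-- nonzero constants have order `0` at every place -/
theorem unram_ord_algebraMap (v : Place K F) {c : K} (hc : c ≠ 0) :
    v.ord (algebraMap K F c) = 0 := by
  have h1 : algebraMap K F c ∈ v.toValuationSubring := v.algebraMap_mem' c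
  have h2 : algebraMap K F c⁻¹ ∈ v.toValuationSubring := v.algebraMap_mem' c⁻¹
  have hmul : (⟨algebraMap K F c, h1⟩ : v.toValuationSubring) * ⟨algebraMap K F c⁻¹, h2⟩ = 1 := by
    apply Subtype.ext
    show algebraMap K F c * algebraMap K F c⁻¹ = 1
    rw [← map_mul, mul_inv_cancel₀ hc, map_one]
  have hmul' : (⟨algebraMap K F c⁻¹, h2⟩ : v.toValuationSubring) * ⟨algebraMap K F c, h1⟩ = 1 := by
    rw [mul_comm]; exact hmul
  exact v.ord_coe_unit ⟨⟨algebraMap K F c, h1⟩, ⟨algebraMap K F c⁻¹, h2⟩, hmul, hmul'⟩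

theorem unram_ord_div (v : Place K F) {f g : F} (hf : f ≠ 0) (hg : g ≠ 0) :
    v.ord (f / g) = v.ord f - v.ord g := by
  rw [div_eq_mul_inv, v.ord_mul hf (inv_ne_zero hg), v.ord_inv]
  ring

theorem unram_ord_pow (v : Place K F) (f : F) (n : ℕ) : v.ord (f ^ n) = n * v.ord f := by
  have := v.ord_zpow f n
  rwa [zpow_natCast] at this

/-- If `m D = div u` and `g u / u = h ^ m`, then `g` fixes the class of `D`. -/
theorem unram_pic0_smul_eq (g : SemilinearAut K F) (D : Divisor.degZero (K := K) (F := F))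
    (m : ℕ) (hm : m ≠ 0) (u : F) (hu : u ≠ 0)
    (hD : ∀ v : Place K F, (m : ℤ) * (D : Divisor K F) v = v.ord u)
    (h : F) (hh : h ^ m = (g • u) / u) : g • Pic0.mk D = Pic0.mk D := by
  have hgu : g • u ≠ 0 := by
    rw [SemilinearAut.smul_def]
    exact (map_ne_zero_iff _ (SemilinearAut.toRingAut g).injective).mpr hu
  have hh0 : h ≠ 0 := by
    intro h0
    rw [h0, zero_pow hm] at hh
    exact (div_ne_zero hgu hu) hh.symm
  have hm' : (m : ℤ) ≠ 0 := by exact_mod_cast hm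
  have key : ∀ v : Place K F, (g • (D : Divisor K F) - (D : Divisor K F)) v = v.ord h := by
    intro v
    have h1 : (m : ℤ) * v.ord h = v.ord ((g • u) / u) := by
      rw [← hh, unram_ord_pow]
    have h2 : v.ord (g • u) = (g⁻¹ • v).ord u := by
      have := SemilinearAut.ord_smul g (g⁻¹ • v) u
      rwa [smul_inv_smul] at this
    rw [unram_ord_div v hgu hu, h2, ← hD, ← hD] at h1
    rw [Finsupp.sub_apply, SemilinearAut.divisor_smul_apply]
    have h3 : (m : ℤ) * v.ord h = (m : ℤ) * ((D : Divisor K F) (g⁻¹ • v) - (D : Divisor K F) v) := by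
      rw [h1]; ring
    exact (mul_left_cancel₀ hm' h3).symm
  rw [SemilinearAut.pic0_smul_mk]
  unfold Pic0.mk
  rw [QuotientAddGroup.eq, AddSubgroup.mem_addSubgroupOf]
  refine ⟨h⁻¹, inv_ne_zero hh0, fun v => ?_⟩
  rw [Place.ord_inv, ← key v]
  simp [Finsupp.sub_apply]
  ring

end Generic

theorem unram_ne_zero_of_kronPrim {L : Type*} [Field L] {A : ValuationSubring L}
    {y : LaurentSeries L} (hy : KronPrim A y) : y ≠ 0 := by
  rintro rfl
  obtain ⟨n, hn⟩ := hy.2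
  apply hn
  rw [HahnSeries.coeff_zero, ValuationSubring.mem_nonunits_iff]
  simp

/-- piece `UNRAM`: inertia acts trivially on `J₀(M)[p^∞]`, from (INJ) and (PRIM). -/
theorem stmtUnramOfInj : StmtUnramOfInj := by
  intro hInj hPrim M p _ ℓ hℓ hgood A hA σ hσ x hx
  obtain ⟨n, hn⟩ := hx
  obtain ⟨D, rfl⟩ := Pic0.mk_surjective x
  have hℓM : ¬ ℓ ∣ M := fun h => hgood (h.mul_right p)
  have hℓp : ¬ ℓ ∣ p := fun h => hgood (h.mul_left M)
  have hp0 : p ≠ 0 := by rintro rfl; exact hℓp (dvd_zero ℓ)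
  have hℓpn : ¬ ℓ ∣ p ^ n := fun h => hℓp (hℓ.dvd_of_dvd_pow h)
  have hpn0 : p ^ n ≠ 0 := pow_ne_zero n hp0
  -- `p^n D` is principal
  have hprin : ((p ^ n • D : Divisor.degZero (K := Qb) (F := modularFunctionFieldBar M)) :
      Divisor Qb (modularFunctionFieldBar M)) ∈ Divisor.principal := by
    have h1 : Pic0.mk (p ^ n • D) = 0 := by
      rw [← hn]; rfl
    unfold Pic0.mk at h1
    rw [QuotientAddGroup.eq_zero_iff, AddSubgroup.mem_addSubgroupOf] at h1
    exact h1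
  obtain ⟨u, hu, hDu⟩ := hprin
  have hDu' : ∀ v : Place Qb (modularFunctionFieldBar M),
      ((p ^ n : ℕ) : ℤ) * (D : Divisor Qb (modularFunctionFieldBar M)) v = v.ord u := by
    intro v
    rw [← hDu v, AddSubgroup.coe_nsmul, Finsupp.smul_apply, nsmul_eq_mul]
  -- PRIM
  obtain ⟨c, y₁, y₂, hc, hy₁, hy₂, hP₁, hP₂, he⟩ := hPrim M ℓ hℓ A hA u hu
  have hy₁0 : y₁ ≠ 0 := unram_ne_zero_of_kronPrim hP₁
  have hy₂0 : y₂ ≠ 0 := unram_ne_zero_of_kronPrim hP₂
  set Y₁ : modularFunctionFieldBar M := ⟨y₁, hy₁⟩ with hY₁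
  set Y₂ : modularFunctionFieldBar M := ⟨y₂, hy₂⟩ with hY₂
  have hY₁0 : Y₁ ≠ 0 := fun h => hy₁0 (congrArg Subtype.val h)
  have hY₂0 : Y₂ ≠ 0 := fun h => hy₂0 (congrArg Subtype.val h)
  have heF : u * Y₂ = algebraMap Qb (modularFunctionFieldBar M) c * Y₁ := by
    apply Subtype.ext
    show (u : LaurentSeries Qb) * y₂ = algebraMap Qb (LaurentSeries Qb) c * y₁
    rw [he, algebraMap_laurentSeries_eq_single]
    rfl
  have hu' : u = algebraMap Qb (modularFunctionFieldBar M) c * (Y₁ / Y₂) := by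
    field_simp
    exact heF
  have hdiv0 : Y₁ / Y₂ ≠ 0 := div_ne_zero hY₁0 hY₂0
  have hc' : algebraMap Qb (modularFunctionFieldBar M) c ≠ 0 := by
    simpa using hc
  have hD' : ∀ v : Place Qb (modularFunctionFieldBar M),
      ((p ^ n : ℕ) : ℤ) * (D : Divisor Qb (modularFunctionFieldBar M)) v = v.ord (Y₁ / Y₂) := by
    intro v
    rw [hDu' v, hu', v.ord_mul hc' hdiv0, unram_ord_algebraMap v hc, zero_add]
  -- the semilinear automorphism
  set g := arithmeticGalois (modularFunctionFieldFull M) σ with hg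
  have hσdec : σ ∈ A.decompositionSubgroup ℚ := kron_mem_decomposition_of_mem_inertia hσ
  have hgY : ∀ Y : modularFunctionFieldBar M,
      ((g • Y : modularFunctionFieldBar M) : LaurentSeries Qb) =
        coeffMap (σ : Qb →+* Qb) (Y : LaurentSeries Qb) := fun Y => rfl
  have hgY₁0 : g • Y₁ ≠ 0 := by
    rw [SemilinearAut.smul_def]
    exact (map_ne_zero_iff _ (SemilinearAut.toRingAut g).injective).mpr hY₁0
  have hgY₂0 : g • Y₂ ≠ 0 := by
    rw [SemilinearAut.smul_def]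
    exact (map_ne_zero_iff _ (SemilinearAut.toRingAut g).injective).mpr hY₂0
  have hgdiv : g • (Y₁ / Y₂) = (g • Y₁) / (g • Y₂) := by
    simp only [SemilinearAut.smul_def, map_div₀]
  -- `w = g u' / u'` reduces to one
  have hw0 : (g • (Y₁ / Y₂)) / (Y₁ / Y₂) ≠ 0 := by
    rw [hgdiv]
    exact div_ne_zero (div_ne_zero hgY₁0 hgY₂0) hdiv0
  have hred : ReducesToOne A M ((g • (Y₁ / Y₂)) / (Y₁ / Y₂)) := by
    refine ⟨coeffMap (σ : Qb →+* Qb) y₁ * y₂, coeffMap (σ : Qb →+* Qb) y₂ * y₁,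
      mul_mem (coeffMap_mem_laurentBaseChange σ hy₁) hy₂,
      mul_mem (coeffMap_mem_laurentBaseChange σ hy₂) hy₁,
      (hP₁.coeffMap_of_mem_decomposition σ hσdec).mul hP₂,
      (hP₂.coeffMap_of_mem_decomposition σ hσdec).mul hP₁, ?_, ?_⟩
    · -- congruence
      have c1 : KronCongr A (coeffMap (σ : Qb →+* Qb) y₁ * y₂) (y₁ * y₂) :=
        KronCongr.mul (hP₁.1.coeffMap_of_mem_decomposition σ hσdec) hP₁.1 hP₂.1 hP₂.1
          (kron_inertia_congr hσ hP₁.1) (KronCongr.refl (A := A) y₂)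
      have c2 : KronCongr A (coeffMap (σ : Qb →+* Qb) y₂ * y₁) (y₂ * y₁) :=
        KronCongr.mul (hP₂.1.coeffMap_of_mem_decomposition σ hσdec) hP₂.1 hP₁.1 hP₁.1
          (kron_inertia_congr hσ hP₂.1) (KronCongr.refl (A := A) y₁)
      rw [mul_comm y₂ y₁] at c2
      exact c1.trans c2.symm
    · -- the fraction
      have e : (g • (Y₁ / Y₂)) / (Y₁ / Y₂) * ((g • Y₂) * Y₁) = (g • Y₁) * Y₂ := by
        rw [hgdiv]
        field_simp
      have := congrArg (Subtype.val) e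
      exact this
  have hdvd : ∀ P : Place Qb (modularFunctionFieldBar M),
      ((p ^ n : ℕ) : ℤ) ∣ P.ord ((g • (Y₁ / Y₂)) / (Y₁ / Y₂)) := by
    intro P
    have hgu0 : g • (Y₁ / Y₂) ≠ 0 := by rw [hgdiv]; exact div_ne_zero hgY₁0 hgY₂0
    have h2 : P.ord (g • (Y₁ / Y₂)) = (g⁻¹ • P).ord (Y₁ / Y₂) := by
      have := SemilinearAut.ord_smul g (g⁻¹ • P) (Y₁ / Y₂)
      rwa [smul_inv_smul] at this
    rw [unram_ord_div P hgu0 hdiv0, h2, ← hD', ← hD', ← mul_sub]
    exact dvd_mul_right _ _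
  obtain ⟨h, hh⟩ := hInj M ℓ hℓ hℓM A hA (p ^ n) hℓpn _ hw0 hred hdvd
  exact unram_pic0_smul_eq g D (p ^ n) hpn0 (Y₁ / Y₂) hdiv0 hD' h hh

/-- alias of `unram_pic0_smul_eq` (name announced by helper65) -/
theorem unram_smul_mk_eq_of_pow {K F : Type*} [Field K] [Field F] [Algebra K F]
    (g : SemilinearAut K F) (D : Divisor.degZero (K := K) (F := F)) (m : ℕ) (hm : m ≠ 0)
    (f : F) (hf : f ≠ 0) (hD : ∀ v : Place K F, (m : ℤ) * (D : Divisor K F) v = v.ord f)
    (h : F) (hh : h ^ m = (g • f) / f) :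
    g • Pic0.mk D = Pic0.mk D :=
  unram_pic0_smul_eq g D m hm f hf hD h hh

end Fermat.Agent.ES.G2
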