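import Fermat.Agent.ES.G2.Frob
import Fermat.Agent.ES.G2.Unram
import Fermat.Agent.ES.G2.Pow
import Fermat.Agent.ES.G2.Prim
import Fermat.Agent.ES.G2.HeckeNorm
import Fermat.Agent.ES.G2.InjBridge

/-!
# ES / G2 (item 37): assembly

All consumer pieces are proved (`PRIM`, `POW`, `HN`, `UNRAM`, `FROB`); the clauses `frob` and
`unram` of the Eichler–Shimura package for `J₀(M)(ℚ̄)` follow from the single statement
`StmtInjPrime` (equivalently from `Fermat.Agent.INJ.StmtINJAll`).
-/

set_option autoImplicit false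

namespace Fermat.Agent.ES.G2

/-- `(INJ)` for all exponents prime to `ℓ`, from prime exponents. -/
theorem stmtInj_of_stmtInjPrime (h : StmtInjPrime) : StmtInj :=
  stmtInjOfPrime stmtPrim h

/-- clause `unram` of the ES package, from `(INJ)` for prime exponents. -/
theorem stmtUnram_of_stmtInjPrime (h : StmtInjPrime) (M p : ℕ) [NeZero M] :
    Fermat.Agent.ES.StmtUnram M p :=
  stmtUnramOfInj (stmtInj_of_stmtInjPrime h) stmtPrim M p

/-- clause `frob` of the ES package, from `(INJ)` for prime exponents. -/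
theorem stmtFrob_of_stmtInjPrime (h : StmtInjPrime) (M p : ℕ) [NeZero M] :
    Fermat.Agent.ES.StmtFrob M p :=
  stmtFrobOfInj (stmtInj_of_stmtInjPrime h) stmtPrim stmtHeckeNorm M p

/-- clause `unram`, from the target of the INJ campaign. -/
theorem stmtUnram_of_stmtINJAll (h : Fermat.Agent.INJ.StmtINJAll) (M p : ℕ) [NeZero M] :
    Fermat.Agent.ES.StmtUnram M p :=
  stmtUnram_of_stmtInjPrime (stmtInjPrime_of_stmtINJAll h) M p

/-- clause `frob`, from the target of the INJ campaign. -/
theorem stmtFrob_of_stmtINJAll (h : Fermat.Agent.INJ.StmtINJAll) (M p : ℕ) [NeZero M] :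
    Fermat.Agent.ES.StmtFrob M p :=
  stmtFrob_of_stmtInjPrime (stmtInjPrime_of_stmtINJAll h) M p

end Fermat.Agent.ES.G2
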