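import Fermat.Agent.ES.G2.Plan
import Fermat.Agent.ES.HInputs

/-!
# ES / G2, piece FROB: the Eichler–Shimura relation on `J₀(M)[p^∞]`

`stmtFrobOfInj : StmtFrobOfInj`, i.e.
`StmtInj → StmtPrim → StmtHeckeNorm → ∀ M p, Fermat.Agent.ES.StmtFrob M p`.

Proof.  `x = [D]`, `p^n x = 0`, so `p^n D = div u`.  Then
`p^n (τ²D − T_ℓ(τD) + ℓ D) = div w` with `w = τ²u · u^ℓ / N_α(β(τu))`, where `N_α(β v)` has
`q`-expansion `kronHecke ℓ ζ v` (`StmtHeckeNorm`).  By Kronecker's congruence (K6 of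
`ES/Kronecker.lean`) `w ≡ 1` in fraction form (`ReducesToOne`), hence `w = h^{p^n}` by `StmtInj`
and `τ²D − T_ℓ(τD) + ℓ D = div h`.
-/

set_option autoImplicit false
set_option linter.style.haveILetI false

noncomputable section

namespace Fermat.Agent.ES.G2

open ModularCurve AlgebraicCurve Fermat.Agent.ES HahnSeries

namespace FrobAux

/-! ### Generic lemmas on divisors of functions -/

section Generic

variable {K F : Type*} [Field K] [Field F] [Algebra K F]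

/-- the Galois translate of `div u` is `div (g u)` -/
theorem smul_apply_of_ord (g : SemilinearAut K F) {D : Divisor K F} {u : F}
    (hD : ∀ v : Place K F, D v = v.ord u) (w : Place K F) :
    (g • D) w = w.ord (g • u) := by
  rw [SemilinearAut.divisor_smul_apply, hD]
  have h := SemilinearAut.ord_smul g (g⁻¹ • w) u
  rw [smul_inv_smul] at h
  exact h.symm

end Generic

section Corr

variable {K F F' : Type*} [Field K] [Field F] [Field F'] [Algebra K F] [Algebra K F']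
variable [HasPrincipalDivisors K F']

/-- the correspondence `ψ_* φ^*` maps `div u` to `div (N_ψ (φ u))` -/
theorem correspondence_apply_of_ord (φ ψ : F →ₐ[K] F') (hφ : φ.toRingHom.IsIntegral)
    (hψ : ψ.toRingHom.IsIntegral) (hfin : FiniteAlong K ψ) (hN : NormFormulaAlong K ψ hfin)
    {D : Divisor K F} {u : F} (hu : u ≠ 0) (hD : ∀ v : Place K F, D v = v.ord u)
    (v : Place K F) :
    Divisor.correspondence φ ψ hφ hψ D v =
      v.ord (letI := ψ.toRingHom.toAlgebra; Algebra.norm F (φ u)) := by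
  rw [Divisor.correspondence_apply]
  have h1 : ∀ w : Place K F', Divisor.pullbackAlong φ hφ D w = w.ord (φ u) := by
    intro w
    letI := algebraAlong φ
    haveI := isScalarTower_along φ
    haveI := isIntegral_along φ hφ
    exact Divisor.pullback_apply_eq_ord hD w
  have hφu : φ u ≠ 0 := by
    intro h
    exact hu (φ.toRingHom.injective (by simpa using h))
  letI := algebraAlong ψ
  haveI := isScalarTower_along ψ
  haveI := isIntegral_along ψ hψ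
  haveI : Module.Finite F F' := hfin
  exact hN (φ u) hφu _ h1 v

end Corr

section Key

variable {K F F' : Type*} [Field K] [Field F] [Field F'] [Algebra K F] [Algebra K F']
variable [HasPrincipalDivisors K F']

/-- `N_ψ (φ v)`: the norm along `ψ` of the pull-back along `φ` -/
def frobNorm (φ ψ : F →ₐ[K] F') (v : F) : F :=
  letI := ψ.toRingHom.toAlgebra
  Algebra.norm F (φ v)

omit [HasPrincipalDivisors K F'] in
theorem frobNorm_mul (φ ψ : F →ₐ[K] F') (a b : F) :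
    frobNorm φ ψ (a * b) = frobNorm φ ψ a * frobNorm φ ψ b := by
  letI := ψ.toRingHom.toAlgebra
  show Algebra.norm F (φ (a * b)) = Algebra.norm F (φ a) * Algebra.norm F (φ b)
  rw [map_mul, map_mul]

omit [HasPrincipalDivisors K F'] in
theorem frobNorm_ne_zero (φ ψ : F →ₐ[K] F') (hfin : FiniteAlong K ψ) {a : F} (ha : a ≠ 0) :
    frobNorm φ ψ a ≠ 0 := by
  letI := algebraAlong ψ
  haveI : Module.Finite F F' := hfin
  have hφa : φ a ≠ 0 := fun h0 => ha (φ.toRingHom.injective (by simpa using h0))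
  exact Algebra.norm_ne_zero_iff.mpr hφa

omit [HasPrincipalDivisors K F'] in
/-- the function `w` for a quotient `f = Y₁ / Y₂` -/
theorem frob_w_mul (g : SemilinearAut K F) (φ ψ : F →ₐ[K] F') (hfin : FiniteAlong K ψ) (ℓ : ℕ)
    {Y₁ Y₂ : F} (hY₁ : Y₁ ≠ 0) (hY₂ : Y₂ ≠ 0) :
    ((g • g • (Y₁ / Y₂)) * (Y₁ / Y₂) ^ ℓ / frobNorm φ ψ (g • (Y₁ / Y₂))) *
        (frobNorm φ ψ (g • Y₁) * (Y₂ ^ ℓ * (g • g • Y₂)))
      = (Y₁ ^ ℓ * (g • g • Y₁)) * frobNorm φ ψ (g • Y₂) := by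
  have hgY₁0 : g • Y₁ ≠ 0 := by simpa using hY₁
  have hgY₂0 : g • Y₂ ≠ 0 := by simpa using hY₂
  have hggY₂0 : g • g • Y₂ ≠ 0 := by simpa using hY₂
  have hgf' : g • (Y₁ / Y₂) = (g • Y₁) / (g • Y₂) :=
    map_div₀ (SemilinearAut.toRingAut g) Y₁ Y₂
  have hggf' : g • g • (Y₁ / Y₂) = (g • g • Y₁) / (g • g • Y₂) := by
    rw [hgf']
    exact map_div₀ (SemilinearAut.toRingAut g) (g • Y₁) (g • Y₂)
  have hn₁0 := frobNorm_ne_zero φ ψ hfin hgY₁0
  have hn₂0 := frobNorm_ne_zero φ ψ hfin hgY₂0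
  have hnrm : frobNorm φ ψ (g • (Y₁ / Y₂)) = frobNorm φ ψ (g • Y₁) / frobNorm φ ψ (g • Y₂) := by
    rw [eq_div_iff hn₂0, ← frobNorm_mul, hgf', div_mul_cancel₀ _ hgY₂0]
  rw [hnrm, hggf', div_pow]
  field_simp

omit [HasPrincipalDivisors K F'] in
theorem frob_w_ne_zero (g : SemilinearAut K F) (φ ψ : F →ₐ[K] F') (hfin : FiniteAlong K ψ) (ℓ : ℕ)
    {f : F} (hf : f ≠ 0) : (g • g • f) * f ^ ℓ / frobNorm φ ψ (g • f) ≠ 0 := by
  have hgf : g • f ≠ 0 := by simpa using hf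
  have hggf : g • g • f ≠ 0 := by simpa using hf
  exact div_ne_zero (mul_ne_zero hggf (pow_ne_zero ℓ hf)) (frobNorm_ne_zero φ ψ hfin hgf)

/-- If `m • D = div f` then `m • (g² D − T (g D) + ℓ D) = div w`,
`w = g²f · f^ℓ / N_ψ(φ(g f))`, `T = ψ_* φ^*`. -/
theorem frob_ord_w (g : SemilinearAut K F) (φ ψ : F →ₐ[K] F')
    (hφ : φ.toRingHom.IsIntegral) (hψ : ψ.toRingHom.IsIntegral)
    (hfin : FiniteAlong K ψ) (hN : NormFormulaAlong K ψ hfin)
    (D : Divisor K F) (m : ℕ) (ℓ : ℕ)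
    (f : F) (hf : f ≠ 0) (hD : ∀ v : Place K F, (m : ℤ) * D v = v.ord f) (v : Place K F) :
    v.ord ((g • g • f) * f ^ ℓ / frobNorm φ ψ (g • f)) =
      (m : ℤ) * ((g • g • D) v - Divisor.correspondence φ ψ hφ hψ (g • D) v + (ℓ : ℤ) * D v) := by
  show v.ord ((g • g • f) * f ^ ℓ /
        (letI := ψ.toRingHom.toAlgebra; Algebra.norm F (φ (g • f)))) = _
  have hgf : g • f ≠ 0 := by simpa using hf
  have hggf : g • g • f ≠ 0 := by simpa using hf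
  have hφgf : φ (g • f) ≠ 0 := fun h0 => hgf (φ.toRingHom.injective (by simpa using h0))
  have hfl : f ^ ℓ ≠ 0 := pow_ne_zero ℓ hf
  letI := algebraAlong ψ
  haveI := isScalarTower_along ψ
  haveI := isIntegral_along ψ hψ
  haveI : Module.Finite F F' := hfin
  set nrm : F := Algebra.norm F (φ (g • f)) with hnrm
  have hnrm0 : nrm ≠ 0 := Algebra.norm_ne_zero_iff.mpr hφgf
  set Dg : Divisor K F := (m : ℤ) • (g • D) with hDg
  have hDm : ∀ v : Place K F, ((m : ℤ) • D) v = v.ord f := by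
    intro v
    rw [Finsupp.smul_apply, smul_eq_mul, hD]
  have hDg' : ∀ v : Place K F, Dg v = v.ord (g • f) := by
    intro v
    rw [hDg, ← smul_comm]
    exact smul_apply_of_ord g hDm v
  have hDgg : ∀ v : Place K F, ((m : ℤ) • (g • g • D)) v = v.ord (g • g • f) := by
    intro v
    rw [← smul_comm g (m : ℤ)]
    exact smul_apply_of_ord g hDg' v
  have hcorr : (m : ℤ) * Divisor.correspondence φ ψ hφ hψ (g • D) v = v.ord nrm := by
    have h1 := correspondence_apply_of_ord φ ψ hφ hψ hfin hN hgf hDg' v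
    rw [hDg, map_zsmul, Finsupp.smul_apply, smul_eq_mul] at h1
    exact h1
  have h2 : v.ord ((g • g • f) * f ^ ℓ / nrm)
      = v.ord (g • g • f) + (ℓ : ℤ) * v.ord f - v.ord nrm := by
    have h3 : v.ord (f ^ ℓ) = (ℓ : ℤ) * v.ord f := by
      have := v.ord_zpow f (ℓ : ℤ)
      rwa [zpow_natCast] at this
    rw [div_eq_mul_inv, v.ord_mul (mul_ne_zero hggf hfl) (inv_ne_zero hnrm0), v.ord_inv,
      v.ord_mul hggf hfl, h3]
    ring
  have h4 := hDgg v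
  rw [Finsupp.smul_apply, smul_eq_mul] at h4
  rw [h2, ← h4, ← hcorr, ← hD v]
  ring

/-- If `m • D = div f` and `g²f · f^ℓ / N_ψ(φ(g f))` is an `m`-th power, then
`g² [D] − T (g [D]) + ℓ [D] = 0`, `T = ψ_* φ^*`. -/
theorem frob_mk_eq_zero_of_pow (g : SemilinearAut K F) (φ ψ : F →ₐ[K] F')
    (hφ : φ.toRingHom.IsIntegral) (hψ : ψ.toRingHom.IsIntegral)
    (hFI : FundamentalIdentityAlong K φ hφ)
    (hfin : FiniteAlong K ψ) (hN : NormFormulaAlong K ψ hfin)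
    (D : Divisor.degZero (K := K) (F := F)) (m : ℕ) (hm : m ≠ 0) (ℓ : ℕ)
    (f : F) (hf : f ≠ 0) (hD : ∀ v : Place K F, (m : ℤ) * (D : Divisor K F) v = v.ord f)
    (h : F)
    (hh : h ^ m = (g • g • f) * f ^ ℓ / frobNorm φ ψ (g • f)) :
    g • g • Pic0.mk D - Pic0.correspondence φ ψ hφ hψ hFI hfin hN (g • Pic0.mk D)
      + ℓ • Pic0.mk D = 0 := by
  have hm' : (m : ℤ) ≠ 0 := by exact_mod_cast hm
  have hgf : g • f ≠ 0 := by simpa using hf
  have hggf : g • g • f ≠ 0 := by simpa using hf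
  have hφgf : φ (g • f) ≠ 0 := fun h0 => hgf (φ.toRingHom.injective (by simpa using h0))
  have hfl : f ^ ℓ ≠ 0 := pow_ne_zero ℓ hf
  have hw := frob_ord_w g φ ψ hφ hψ hfin hN (D : Divisor K F) m ℓ f hf hD
  have hh0 : h ≠ 0 := by
    intro h0
    rw [h0, zero_pow hm] at hh
    exact div_ne_zero (mul_ne_zero hggf hfl) (frobNorm_ne_zero φ ψ hfin hgf) hh.symm
  have hord : ∀ v : Place K F, v.ord h =
      (g • g • (D : Divisor K F)) v - Divisor.correspondence φ ψ hφ hψ (g • (D : Divisor K F)) v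
        + (ℓ : ℤ) * (D : Divisor K F) v := by
    intro v
    have h1 : v.ord (h ^ m) = (m : ℤ) * v.ord h := by
      have := v.ord_zpow h (m : ℤ)
      rwa [zpow_natCast] at this
    have h5 := hw v
    rw [← hh, h1] at h5
    exact mul_left_cancel₀ hm' h5
  rw [SemilinearAut.pic0_smul_mk, SemilinearAut.pic0_smul_mk, Pic0.correspondence_mk]
  show Pic0.mk (SemilinearAut.degZeroSMulHom g (SemilinearAut.degZeroSMulHom g D)
      - Pic0.degZeroCorrespondence φ ψ hφ hψ hFI (SemilinearAut.degZeroSMulHom g D)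
      + ℓ • D) = 0
  refine (QuotientAddGroup.eq_zero_iff _).mpr ?_
  rw [AddSubgroup.mem_addSubgroupOf]
  refine ⟨h, hh0, fun v => ?_⟩
  rw [hord v]
  simp only [AddSubgroup.coe_add, AddSubgroup.coe_sub, AddSubgroup.coe_nsmul,
    SemilinearAut.coe_degZeroSMulHom, Pic0.coe_degZeroCorrespondence,
    Finsupp.add_apply, Finsupp.sub_apply, Finsupp.smul_apply, nsmul_eq_mul]

end Key

end FrobAux

section Concrete

open FrobAux

/-- a primitive series is nonzero -/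
theorem frob_ne_zero_of_kronPrim {L : Type*} [Field L] {A : ValuationSubring L}
    {y : LaurentSeries L} (hy : KronPrim A y) : y ≠ 0 := by
  rintro rfl
  obtain ⟨n, hn⟩ := hy.2
  apply hn
  rw [HahnSeries.coeff_zero]
  exact (ValuationSubring.mem_nonunits_iff_or (A := A)).mpr (Or.inl rfl)

/-- a primitive `ℓ`-th root of unity in `ℚ̄` -/
theorem frob_exists_primitiveRoot (ℓ : ℕ) (hℓ : ℓ ≠ 0) : ∃ ζ : Qbˣ, IsPrimitiveRoot ζ ℓ := by
  haveI : NeZero ((ℓ : ℕ) : Qb) := ⟨by exact_mod_cast hℓ⟩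
  haveI := IsSepClosed.hasEnoughRootsOfUnity Qb ℓ
  obtain ⟨ζ, hζ⟩ := HasEnoughRootsOfUnity.exists_primitiveRoot Qb ℓ
  obtain ⟨u, rfl⟩ := hζ.isUnit hℓ
  exact ⟨u, IsPrimitiveRoot.coe_units_iff.mp hζ⟩

/-- the Hecke operator of the prelude, on a class `[D]` -/
theorem frob_heckeOperatorBar_eq (M : ℕ) [NeZero M] (ℓ : ℕ) (hℓ : ℓ.Prime) :
    haveI : NeZero ℓ := ⟨hℓ.ne_zero⟩
    haveI := Fermat.Agent.ES.H.hasPrincipalDivisors_FF (M * ℓ)
    ∀ x : JZero M, heckeOperatorBar M ⟨ℓ, hℓ⟩ x =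
      Pic0.correspondence (heckeBetaBar Qb M ℓ) (heckeAlphaBar Qb M ℓ)
        (Fermat.Agent.ES.H.heckeBetaBarIntegral M ℓ) (Fermat.Agent.ES.H.heckeAlphaBarIntegral M ℓ)
        (Fermat.Agent.ES.H.fundamentalIdentityAlong_heckeBetaBar M ℓ)
        (Fermat.Agent.ES.H.finiteAlong_heckeAlphaBar M ℓ)
        (Fermat.Agent.ES.H.normFormulaAlong_heckeAlphaBar M ℓ) x := by
  haveI : NeZero ℓ := ⟨hℓ.ne_zero⟩
  haveI := Fermat.Agent.ES.H.hasPrincipalDivisors_FF (M * ℓ)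
  intro x
  have h1 : heckeOperatorBar M ⟨ℓ, hℓ⟩ x = heckeOperatorAlong Qb M ℓ x := rfl
  rw [h1, Fermat.Agent.ES.H.heckeOperatorAlong_eq_heckePic0Bar M ℓ]
  rfl

/-- **piece FROB.** -/
theorem stmtFrobOfInj : StmtFrobOfInj := by
  intro hInj hPrim hHN M p _ ℓ hℓ hgood A hA τ hτ x hx
  obtain ⟨n, hn⟩ := hx
  haveI : NeZero ℓ := ⟨hℓ.ne_zero⟩
  haveI := Fermat.Agent.ES.H.hasPrincipalDivisors_FF (M * ℓ)
  have hp0 : p ≠ 0 := by
    rintro rfl
    exact hgood (by simp)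
  have hℓM : ¬ ℓ ∣ M := fun h => hgood (dvd_mul_of_dvd_left h p)
  have hℓp : ¬ ℓ ∣ p ^ n := fun h => hgood (dvd_mul_of_dvd_right (hℓ.dvd_of_dvd_pow h) M)
  have hm0 : p ^ n ≠ 0 := pow_ne_zero n hp0
  obtain ⟨D, rfl⟩ := Pic0.mk_surjective x
  -- `p^n D` is principal
  have hprinc : (p ^ n • D) ∈
      (Divisor.principal (K := Qb) (F := modularFunctionFieldBar M)).addSubgroupOf
        (Divisor.degZero (K := Qb) (F := modularFunctionFieldBar M)) := by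
    have h1 : Pic0.mk (p ^ n • D) = 0 := hn
    exact (QuotientAddGroup.eq_zero_iff _).mp h1
  rw [AddSubgroup.mem_addSubgroupOf] at hprinc
  obtain ⟨f, hf, hfD⟩ := hprinc
  have hfD' : ∀ v : Place Qb (modularFunctionFieldBar M),
      ((p ^ n : ℕ) : ℤ) * (D : Divisor Qb (modularFunctionFieldBar M)) v = v.ord f := by
    intro v
    rw [← hfD v]
    simp [Finsupp.smul_apply]
  -- PRIM
  obtain ⟨c, y₁, y₂, hc, hy₁, hy₂, hp₁, hp₂, hfy⟩ := hPrim M ℓ hℓ A hA f hf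
  obtain ⟨Y₁, hY₁s⟩ : ∃ Y₁ : modularFunctionFieldBar M, (Y₁ : LaurentSeries Qb) = y₁ :=
    ⟨⟨y₁, hy₁⟩, rfl⟩
  obtain ⟨Y₂, hY₂s⟩ : ∃ Y₂ : modularFunctionFieldBar M, (Y₂ : LaurentSeries Qb) = y₂ :=
    ⟨⟨y₂, hy₂⟩, rfl⟩
  have hY₁ : Y₁ ≠ 0 := by
    intro h
    apply frob_ne_zero_of_kronPrim hp₁
    rw [← hY₁s, h]
    rfl
  have hY₂ : Y₂ ≠ 0 := by
    intro h
    apply frob_ne_zero_of_kronPrim hp₂
    rw [← hY₂s, h]
    rfl
  have hfY : f * Y₂ = algebraMap Qb (modularFunctionFieldBar M) c * Y₁ := by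
    apply Subtype.ext
    show (f : LaurentSeries Qb) * (Y₂ : LaurentSeries Qb)
      = algebraMap Qb (LaurentSeries Qb) c * (Y₁ : LaurentSeries Qb)
    rw [hY₁s, hY₂s, hfy, ModularCurve.algebraMap_laurentSeries_eq_single]
    rfl
  obtain ⟨f', hf'⟩ : ∃ f' : modularFunctionFieldBar M, f' = Y₁ / Y₂ := ⟨_, rfl⟩
  have hf'0 : f' ≠ 0 := hf' ▸ div_ne_zero hY₁ hY₂
  have hff' : f = algebraMap Qb (modularFunctionFieldBar M) c * f' := by
    rw [hf', mul_div_assoc', ← hfY, mul_div_cancel_right₀ _ hY₂]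
  have hcF : algebraMap Qb (modularFunctionFieldBar M) c ≠ 0 := by rwa [Ne, map_eq_zero]
  have hordf : ∀ v : Place Qb (modularFunctionFieldBar M), v.ord f' = v.ord f := by
    intro v
    rw [hff', v.ord_mul hcF hf'0, Fermat.Agent.S24.PlaceAux.ord_algebraMap v c, zero_add]
  have hD' : ∀ v : Place Qb (modularFunctionFieldBar M),
      ((p ^ n : ℕ) : ℤ) * (D : Divisor Qb (modularFunctionFieldBar M)) v = v.ord f' := by
    intro v
    rw [hordf v, hfD' v]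
  -- the root of unity
  obtain ⟨ζ, hζ⟩ := frob_exists_primitiveRoot ℓ hℓ.ne_zero
  have hζ1 : ζ ^ ℓ = 1 := hζ.pow_eq_one
  -- the Galois element
  obtain ⟨g, hg⟩ : ∃ g : SemilinearAut Qb (modularFunctionFieldBar M),
      g = arithmeticGalois (modularFunctionFieldFull M) τ := ⟨_, rfl⟩
  have hgs : ∀ v : modularFunctionFieldBar M,
      ((g • v : modularFunctionFieldBar M) : LaurentSeries Qb)
        = coeffMap (τ : Qb →+* Qb) (v : LaurentSeries Qb) := by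
    intro v
    rw [hg]
    rfl
  have hgx : ∀ z : JZero M, τ • z = g • z := by
    intro z
    rw [hg]
    rfl
  -- the norms
  have hHN' : ∀ v : modularFunctionFieldBar M,
      ((frobNorm (heckeBetaBar Qb M ℓ) (heckeAlphaBar Qb M ℓ) v : modularFunctionFieldBar M) :
        LaurentSeries Qb) = kronHecke ℓ ζ (v : LaurentSeries Qb) :=
    fun v => hHN M ℓ hℓ hℓM ζ hζ v
  obtain ⟨n₁, hn₁⟩ : ∃ n₁ : modularFunctionFieldBar M,
      n₁ = frobNorm (heckeBetaBar Qb M ℓ) (heckeAlphaBar Qb M ℓ) (g • Y₁) := ⟨_, rfl⟩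
  obtain ⟨n₂, hn₂⟩ : ∃ n₂ : modularFunctionFieldBar M,
      n₂ = frobNorm (heckeBetaBar Qb M ℓ) (heckeAlphaBar Qb M ℓ) (g • Y₂) := ⟨_, rfl⟩
  have hn₁s : (n₁ : LaurentSeries Qb) = kronHecke ℓ ζ (coeffMap (τ : Qb →+* Qb) y₁) := by
    rw [hn₁, hHN', hgs, hY₁s]
  have hn₂s : (n₂ : LaurentSeries Qb) = kronHecke ℓ ζ (coeffMap (τ : Qb →+* Qb) y₂) := by
    rw [hn₂, hHN', hgs, hY₂s]
  obtain ⟨a₁, ha₁⟩ : ∃ a₁ : modularFunctionFieldBar M, a₁ = g • g • Y₁ := ⟨_, rfl⟩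
  obtain ⟨a₂, ha₂⟩ : ∃ a₂ : modularFunctionFieldBar M, a₂ = g • g • Y₂ := ⟨_, rfl⟩
  have ha₁s : (a₁ : LaurentSeries Qb)
      = coeffMap (τ : Qb →+* Qb) (coeffMap (τ : Qb →+* Qb) y₁) := by
    rw [ha₁, hgs, hgs, hY₁s]
  have ha₂s : (a₂ : LaurentSeries Qb)
      = coeffMap (τ : Qb →+* Qb) (coeffMap (τ : Qb →+* Qb) y₂) := by
    rw [ha₂, hgs, hgs, hY₂s]
  obtain ⟨w, hw⟩ : ∃ w : modularFunctionFieldBar M, w =
    (g • g • f') * f' ^ ℓ /
      frobNorm (heckeBetaBar Qb M ℓ) (heckeAlphaBar Qb M ℓ) (g • f') := ⟨_, rfl⟩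
  have hw0 : w ≠ 0 :=
    hw ▸ frob_w_ne_zero g _ _ (Fermat.Agent.ES.H.finiteAlong_heckeAlphaBar M ℓ) ℓ hf'0
  have hwmul : w * (n₁ * (Y₂ ^ ℓ * a₂)) = (Y₁ ^ ℓ * a₁) * n₂ := by
    rw [hw, hn₁, hn₂, ha₁, ha₂, hf']
    exact frob_w_mul g (heckeBetaBar Qb M ℓ) (heckeAlphaBar Qb M ℓ)
      (Fermat.Agent.ES.H.finiteAlong_heckeAlphaBar M ℓ) ℓ hY₁ hY₂
  have hwmuls : (w : LaurentSeries Qb) * ((n₁ : LaurentSeries Qb) *
      ((Y₂ : LaurentSeries Qb) ^ ℓ * (a₂ : LaurentSeries Qb)))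
        = ((Y₁ : LaurentSeries Qb) ^ ℓ * (a₁ : LaurentSeries Qb)) * (n₂ : LaurentSeries Qb) :=
    congrArg Subtype.val hwmul
  rw [hn₁s, hn₂s, ha₁s, ha₂s, hY₁s, hY₂s] at hwmuls
  -- `w` reduces to one
  have hred : ReducesToOne A M w := by
    refine ⟨(y₁ ^ ℓ * coeffMap (τ : Qb →+* Qb) (coeffMap (τ : Qb →+* Qb) y₁)) *
        kronHecke ℓ ζ (coeffMap (τ : Qb →+* Qb) y₂),
      kronHecke ℓ ζ (coeffMap (τ : Qb →+* Qb) y₁) *
        (y₂ ^ ℓ * coeffMap (τ : Qb →+* Qb) (coeffMap (τ : Qb →+* Qb) y₂)), ?_, ?_, ?_, ?_, ?_, ?_⟩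
    · rw [← hn₂s, ← ha₁s]
      exact mul_mem (mul_mem (pow_mem hy₁ ℓ) a₁.2) n₂.2
    · rw [← hn₁s, ← ha₂s]
      exact mul_mem n₁.2 (mul_mem (pow_mem hy₂ ℓ) a₂.2)
    · exact (kronPrim_frob_rhs τ hτ hp₁).mul (kronPrim_kronHecke_frob hℓ hA ζ hζ1 τ hτ hp₂)
    · exact (kronPrim_kronHecke_frob hℓ hA ζ hζ1 τ hτ hp₁).mul (kronPrim_frob_rhs τ hτ hp₂)
    · have hP₁ := (kronPrim_frob_rhs τ hτ hp₁).1
      have hP₂ := (kronPrim_frob_rhs τ hτ hp₂).1
      have hH₁ := (kronPrim_kronHecke_frob hℓ hA ζ hζ1 τ hτ hp₁).1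
      have hH₂ := (kronPrim_kronHecke_frob hℓ hA ζ hζ1 τ hτ hp₂).1
      have e1 := KronCongr.mul (A := A) hP₁ hP₁ hH₂ hP₂ (KronCongr.refl _)
        (kronHecke_frob_congr hℓ hA ζ hζ1 τ hτ hp₂.1)
      have e2 := KronCongr.mul (A := A) hP₁ hH₁ hP₂ hP₂
        (kronHecke_frob_congr hℓ hA ζ hζ1 τ hτ hp₁.1).symm (KronCongr.refl _)
      exact e1.trans e2
    · exact hwmuls
  have hordw := frob_ord_w g (heckeBetaBar Qb M ℓ) (heckeAlphaBar Qb M ℓ)
    (Fermat.Agent.ES.H.heckeBetaBarIntegral M ℓ) (Fermat.Agent.ES.H.heckeAlphaBarIntegral M ℓ)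
    (Fermat.Agent.ES.H.finiteAlong_heckeAlphaBar M ℓ)
    (Fermat.Agent.ES.H.normFormulaAlong_heckeAlphaBar M ℓ)
    (D : Divisor Qb (modularFunctionFieldBar M)) (p ^ n) ℓ f' hf'0 hD'
  rw [← hw] at hordw
  have hdiv : ∀ P : Place Qb (modularFunctionFieldBar M), ((p ^ n : ℕ) : ℤ) ∣ P.ord w := by
    intro P
    rw [hordw P]
    exact dvd_mul_right _ _
  obtain ⟨h, hh⟩ := hInj M ℓ hℓ hℓM A hA (p ^ n) hℓp w hw0 hred hdiv
  rw [hw] at hh
  rw [hgx, hgx]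
  have hT := frob_heckeOperatorBar_eq M ℓ hℓ (g • Pic0.mk D)
  have key := frob_mk_eq_zero_of_pow g (heckeBetaBar Qb M ℓ) (heckeAlphaBar Qb M ℓ)
    (Fermat.Agent.ES.H.heckeBetaBarIntegral M ℓ) (Fermat.Agent.ES.H.heckeAlphaBarIntegral M ℓ)
    (Fermat.Agent.ES.H.fundamentalIdentityAlong_heckeBetaBar M ℓ)
    (Fermat.Agent.ES.H.finiteAlong_heckeAlphaBar M ℓ)
    (Fermat.Agent.ES.H.normFormulaAlong_heckeAlphaBar M ℓ)
    D (p ^ n) hm0 ℓ f' hf'0 hD' h hh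
  exact (congrArg (fun t => g • g • Pic0.mk D - t + ℓ • Pic0.mk D) hT).trans key

end Concrete

end Fermat.Agent.ES.G2
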