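/-
ES / G2, piece PR-3 (helper65): the field `gen` of `PlaceRedData`.

`pr3_gen` : for `ℓ ∤ N` and a valuation subring `A ⊂ ℚ̄` over `ℓ`, every principal divisor of
`F_N = modularFunctionFieldBar N` is a difference of divisors of `A`-integral elements of `F_N`
with non-zero reduction in `F_k` (prelude `PrincipalGeneratedByIntegral`).
Proof: `stmtPrim` (`u · y₂ = c · y₁`, `y₁, y₂` primitive integral) + `stmtRedFAll`
(the reduction of an integral element of `F_N` lies in `F_k`).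
-/
import Fermat.Agent.ES.G2.Prim
import Fermat.Agent.ES.M.RedF
import Fermat.Agent.ES.HModular
import Fermat.Agent.S24.PlaceBasic

set_option autoImplicit false

noncomputable section

namespace Fermat.Agent.ES.G2

open ModularCurve AlgebraicCurve Fermat.Agent.ES

/-- the divisor of a primitive integral element of `F_N` is an integral principal divisor -/
theorem pr3_mem_integral (N : ℕ) [NeZero N] (ℓ : ℕ) (hℓ : ℓ.Prime) (hℓN : ¬ ℓ ∣ N)
    (A : ValuationSubring Qb) (hA : A.LiesOverPrime ℓ) {y : LaurentSeries Qb}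
    (hym : y ∈ modularFunctionFieldBar N) (hy : KronPrim A y)
    (D : Divisor Qb (modularFunctionFieldBar N))
    (hD : ∀ P : Place Qb (modularFunctionFieldBar N),
      D P = P.ord (⟨y, hym⟩ : modularFunctionFieldBar N)) :
    D ∈ integralPrincipalDivisors A (IsLocalRing.residue A) N := by
  obtain ⟨Y, hY⟩ := hy.1.exists_lift
  have hYm : kronIncl A Y ∈ modularFunctionFieldBar N := by rw [hY]; exact hym
  have hred : kronRed A Y ≠ 0 := by
    rw [← kronPrim_kronIncl_iff, hY]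
    exact hy
  refine ⟨Y, hYm, Fermat.Agent.ES.M.stmtRedFAll N ℓ hℓ hℓN A hA Y hYm, hred, ?_⟩
  intro P
  rw [hD P]
  congr 1
  exact Subtype.ext hY.symm

/-- **PR-3**: principal divisors of `F_N` are generated by integral principal divisors. -/
theorem pr3_gen (N : ℕ) [NeZero N] (ℓ : ℕ) (hℓ : ℓ.Prime) (hℓN : ¬ ℓ ∣ N)
    (A : ValuationSubring Qb) (hA : A.LiesOverPrime ℓ) :
    PrincipalGeneratedByIntegral A (IsLocalRing.residue A) N := by
  intro D hD
  obtain ⟨u, hu0, hDu⟩ := hD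
  obtain ⟨c, y₁, y₂, hc, hy₁m, hy₂m, hy₁, hy₂, hrel⟩ := stmtPrim N ℓ hℓ A hA u hu0
  have := Fermat.Agent.ES.H.hasPrincipalDivisors_FF N
  -- `y₁, y₂ ≠ 0`
  have hne : ∀ {y : LaurentSeries Qb}, KronPrim A y → y ≠ 0 := by
    rintro y ⟨_, n, hn⟩ h
    apply hn
    rw [h, HahnSeries.coeff_zero, ValuationSubring.mem_nonunits_iff, map_zero]
    exact zero_lt_one
  have hy₁0 : (⟨y₁, hy₁m⟩ : modularFunctionFieldBar N) ≠ 0 :=
    fun h => hne hy₁ (congrArg Subtype.val h)
  have hy₂0 : (⟨y₂, hy₂m⟩ : modularFunctionFieldBar N) ≠ 0 :=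
    fun h => hne hy₂ (congrArg Subtype.val h)
  obtain ⟨D₁, hD₁, -⟩ := HasPrincipalDivisors.exists_divisor (K := Qb) _ hy₁0
  obtain ⟨D₂, hD₂, -⟩ := HasPrincipalDivisors.exists_divisor (K := Qb) _ hy₂0
  have hrel' : u * (⟨y₂, hy₂m⟩ : modularFunctionFieldBar N) =
      algebraMap Qb (modularFunctionFieldBar N) c * ⟨y₁, hy₁m⟩ := by
    apply Subtype.ext
    rw [MulMemClass.coe_mul, MulMemClass.coe_mul]
    show (u : LaurentSeries Qb) * y₂ = algebraMap Qb (LaurentSeries Qb) c * y₁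
    rw [hrel, Fermat.Agent.ES.M.algebraMap_eq_hahnC]
  have hcF : algebraMap Qb (modularFunctionFieldBar N) c ≠ 0 := by
    simpa using hc
  have hD12 : D = D₁ - D₂ := by
    ext P
    have h1 := congrArg P.ord hrel'
    rw [P.ord_mul hu0 hy₂0, P.ord_mul hcF hy₁0, Fermat.Agent.S24.PlaceAux.ord_algebraMap,
      zero_add] at h1
    rw [Finsupp.sub_apply, hDu P, hD₁ P, hD₂ P]
    omega
  rw [hD12]
  exact AddSubgroup.sub_mem _
    (AddSubgroup.subset_closure (pr3_mem_integral N ℓ hℓ hℓN A hA hy₁m hy₁ D₁ hD₁))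
    (AddSubgroup.subset_closure (pr3_mem_integral N ℓ hℓ hℓN A hA hy₂m hy₂ D₂ hD₂))

end Fermat.Agent.ES.G2
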