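import Fermat.Agent.ES.G2.HeckeNormCore
import Fermat.Agent.ES.G2.HeckeDeg

/-!
# ES / G2, piece HN-DEG as a term of `StmtHNDeg`

`[F_{Nℓ} : F_N] = ℓ + 1` along the inclusion `α`, for a prime `ℓ ∤ N`
(`hdeg_finrank` of `HeckeDeg.lean`), packaged in the form consumed by
`stmtHeckeNorm_of_swap_of_deg`.
-/

set_option autoImplicit false

noncomputable section

namespace Fermat.Agent.ES.G2

open ModularCurve AlgebraicCurve Fermat.Agent.ES

/-- piece `DEG` of HN. -/
theorem stmtHNDeg : StmtHNDeg := fun N ℓ _ _ hℓ hℓN => hdeg_finrank N ℓ hℓ hℓN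

/-- HN reduced to the Atkin–Lehner swap alone. -/
theorem stmtHeckeNorm_of_swap (hswap : StmtHNSwap) : StmtHeckeNorm :=
  stmtHeckeNorm_of_swap_of_deg hswap stmtHNDeg

end Fermat.Agent.ES.G2
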