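import Fermat.Agent.ES.G2.Plan

/-!
# ES / G2, piece HN, core: the Hecke norm from the Atkin–Lehner swap and the degree

If `F' = F_{Nℓ}` has degree `ℓ + 1` over `F = F_N` (along the inclusion `α`) and there is a ring
endomorphism `w` of `F'` with `w ∘ α = β` and `w ∘ β = α` (`β = qExpand ℓ`), then the norm of
`β v = v(q^ℓ)` is `kronHecke ℓ ζ v = v(q^ℓ) · ∏_{b<ℓ} v(ζ^b q^{1/ℓ})`.

Proof: the `ℓ + 1` maps `qExpand ℓ` and `kronRot (ζ^b) ∘ w` (`b < ℓ`) are pairwise distinct
`F`-embeddings of `F'` into `ℚ̄((t))` (`F ↪ ℚ̄((t))` by `qExpand ℓ`), hence all of them.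
-/

set_option autoImplicit false

noncomputable section

namespace Fermat.Agent.ES.G2

open ModularCurve AlgebraicCurve Fermat.Agent.ES

/-- norm = product over a complete list of embeddings -/
theorem hn_norm_eq_prod_of_injective {F F' E : Type*} [Field F] [Field F'] [Field E]
    [Algebra F F'] [Algebra F E] [FiniteDimensional F F'] [Algebra.IsSeparable F F']
    [IsAlgClosed E] {ι : Type*} [Fintype ι] (e : ι → (F' →ₐ[F] E)) (he : Function.Injective e)
    (hcard : Fintype.card ι = Module.finrank F F') (x : F') :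
    algebraMap F E (Algebra.norm F x) = ∏ i, e i x := by
  classical
  have hbij : Function.Bijective e := by
    rw [Fintype.bijective_iff_injective_and_card]
    exact ⟨he, by rw [hcard, AlgHom.card F F' E]⟩
  rw [Algebra.norm_eq_prod_embeddings F E x]
  exact (Function.Bijective.prod_comp hbij (fun σ : F' →ₐ[F] E => σ x)).symm

section Core

variable (N ℓ : ℕ) [NeZero N] [NeZero ℓ]

/-- the field `ℚ̄((t))` in which the conjugates live -/
abbrev HnOmega : Type := LaurentSeries Qb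

/-- an algebraic closure of `ℚ̄((t))` -/
abbrev HnOmegaBar : Type := AlgebraicClosure HnOmega

/-- `F_N → ℚ̄((t))`, `u ↦ u(t^ℓ)` -/
def hnBase : modularFunctionFieldBar N →+* HnOmegaBar :=
  (algebraMap HnOmega HnOmegaBar).comp
    ((qExpand Qb ℓ).comp (algebraMap (modularFunctionFieldBar N) (LaurentSeries Qb)))

omit [NeZero N] in
theorem hnBase_apply (x : modularFunctionFieldBar N) :
    hnBase N ℓ x = algebraMap HnOmega HnOmegaBar (qExpand Qb ℓ (x : LaurentSeries Qb)) := rfl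

/-- the embedding `σ_∞ : F_{Nℓ} → ℚ̄((t))`, `x ↦ x(t^ℓ)` -/
def hnInf : modularFunctionFieldBar (N * ℓ) →+* HnOmegaBar :=
  (algebraMap HnOmega HnOmegaBar).comp
    ((qExpand Qb ℓ).comp (algebraMap (modularFunctionFieldBar (N * ℓ)) (LaurentSeries Qb)))

omit [NeZero N] in
theorem hnInf_apply (x : modularFunctionFieldBar (N * ℓ)) :
    hnInf N ℓ x = algebraMap HnOmega HnOmegaBar (qExpand Qb ℓ (x : LaurentSeries Qb)) := rfl

/-- the embedding `σ_c : F_{Nℓ} → ℚ̄((t))`, `x ↦ (w x)(c t)` -/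
def hnRot (w : modularFunctionFieldBar (N * ℓ) →+* modularFunctionFieldBar (N * ℓ)) (c : Qbˣ) :
    modularFunctionFieldBar (N * ℓ) →+* HnOmegaBar :=
  (algebraMap HnOmega HnOmegaBar).comp
    ((kronRot c).comp
      ((algebraMap (modularFunctionFieldBar (N * ℓ)) (LaurentSeries Qb)).comp w))

omit [NeZero N] [NeZero ℓ] in
theorem hnRot_apply (w : modularFunctionFieldBar (N * ℓ) →+* modularFunctionFieldBar (N * ℓ))
    (c : Qbˣ) (x : modularFunctionFieldBar (N * ℓ)) :
    hnRot N ℓ w c x = algebraMap HnOmega HnOmegaBar (kronRot c ((w x : LaurentSeries Qb))) := rfl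

theorem hnInf_alpha (x : modularFunctionFieldBar N) :
    hnInf N ℓ (heckeAlphaBar Qb N ℓ x) = hnBase N ℓ x := by
  rw [hnInf_apply, hnBase_apply, coe_heckeAlphaBar]

omit [NeZero N] in
theorem hnInf_beta (x : modularFunctionFieldBar N) :
    hnInf N ℓ (heckeBetaBar Qb N ℓ x)
      = algebraMap HnOmega HnOmegaBar (qExpand Qb ℓ (qExpand Qb ℓ (x : LaurentSeries Qb))) := by
  rw [hnInf_apply, coe_heckeBetaBar]

theorem hnRot_alpha (w : modularFunctionFieldBar (N * ℓ) →+* modularFunctionFieldBar (N * ℓ))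
    (hwα : ∀ x, w (heckeAlphaBar Qb N ℓ x) = heckeBetaBar Qb N ℓ x)
    (c : Qbˣ) (hc : c ^ ℓ = 1) (x : modularFunctionFieldBar N) :
    hnRot N ℓ w c (heckeAlphaBar Qb N ℓ x) = hnBase N ℓ x := by
  rw [hnRot_apply, hnBase_apply, hwα, coe_heckeBetaBar, qExpand_kronRot_pow, hc, kronRot_one]

theorem hnRot_beta (w : modularFunctionFieldBar (N * ℓ) →+* modularFunctionFieldBar (N * ℓ))
    (hwβ : ∀ x, w (heckeBetaBar Qb N ℓ x) = heckeAlphaBar Qb N ℓ x)
    (c : Qbˣ) (x : modularFunctionFieldBar N) :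
    hnRot N ℓ w c (heckeBetaBar Qb N ℓ x)
      = algebraMap HnOmega HnOmegaBar (kronRot c (x : LaurentSeries Qb)) := by
  rw [hnRot_apply, hwβ, coe_heckeAlphaBar]

/-- the coefficient of `q⁻¹` in `j` is `1` -/
theorem hn_jBar_coeff : (coeffEmb Qb jq).coeff (-1) = 1 := by
  rw [coeffEmb_coeff, coeff_jq_neg_one, map_one]

/-- `j`, as an element of `F_N` -/
def hnJ : modularFunctionFieldBar N :=
  ⟨coeffEmb Qb jq, by
    have h := coeffEmb_mem_laurentBaseChange Qb (jqd_mem_full N (one_dvd N))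
    rwa [qExpand_one_apply] at h⟩

omit [NeZero N] in
theorem hnJ_coe : ((hnJ N : modularFunctionFieldBar N) : LaurentSeries Qb) = coeffEmb Qb jq := rfl

theorem hn_algebraMap_injective :
    Function.Injective (algebraMap HnOmega HnOmegaBar) :=
  (algebraMap HnOmega HnOmegaBar).injective

/-- the family of `ℓ + 1` ring homomorphisms `F_{Nℓ} → ℚ̄((t))‾` -/
def hnFam (w : modularFunctionFieldBar (N * ℓ) →+* modularFunctionFieldBar (N * ℓ)) (ζ : Qbˣ) :
    Option (Fin ℓ) → (modularFunctionFieldBar (N * ℓ) →+* HnOmegaBar)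
  | none => hnInf N ℓ
  | some b => hnRot N ℓ w (ζ ^ (b : ℕ))

theorem hnFam_alpha (w : modularFunctionFieldBar (N * ℓ) →+* modularFunctionFieldBar (N * ℓ))
    (hwα : ∀ x, w (heckeAlphaBar Qb N ℓ x) = heckeBetaBar Qb N ℓ x)
    (ζ : Qbˣ) (hζ : ζ ^ ℓ = 1) (i : Option (Fin ℓ)) (x : modularFunctionFieldBar N) :
    hnFam N ℓ w ζ i (heckeAlphaBar Qb N ℓ x) = hnBase N ℓ x := by
  cases i with
  | none => exact hnInf_alpha N ℓ x
  | some b =>
      refine hnRot_alpha N ℓ w hwα _ ?_ x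
      rw [← pow_mul, mul_comm, pow_mul, hζ, one_pow]

theorem hnFam_injective (hℓ : ℓ.Prime)
    (w : modularFunctionFieldBar (N * ℓ) →+* modularFunctionFieldBar (N * ℓ))
    (hwβ : ∀ x, w (heckeBetaBar Qb N ℓ x) = heckeAlphaBar Qb N ℓ x)
    (ζ : Qbˣ) (hζ : IsPrimitiveRoot ζ ℓ) : Function.Injective (hnFam N ℓ w ζ) := by
  have hcoef : ∀ b : Fin ℓ, (kronRot (ζ ^ (b : ℕ)) (coeffEmb Qb jq)).coeff (-1)
      = (((ζ ^ (b : ℕ)) ^ (-1 : ℤ) : Qbˣ) : Qb) := by
    intro b
    rw [kronRot_coeff, hn_jBar_coeff, mul_one]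
  have hinf : (qExpand Qb ℓ (qExpand Qb ℓ (coeffEmb Qb jq))).coeff (-1) = 0 := by
    apply qExpand_coeff_of_not_dvd
    intro hdvd
    have h1 : ((ℓ : ℤ)) ∣ 1 := (dvd_neg).1 hdvd
    have h2 : ℓ ∣ 1 := by exact_mod_cast h1
    exact hℓ.one_lt.ne' (Nat.dvd_one.1 h2)
  -- values at `β j`
  have hvalInf : hnFam N ℓ w ζ none (heckeBetaBar Qb N ℓ (hnJ N))
      = algebraMap HnOmega HnOmegaBar (qExpand Qb ℓ (qExpand Qb ℓ (coeffEmb Qb jq))) :=
    hnInf_beta N ℓ (hnJ N)
  have hvalRot : ∀ b : Fin ℓ, hnFam N ℓ w ζ (some b) (heckeBetaBar Qb N ℓ (hnJ N))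
      = algebraMap HnOmega HnOmegaBar (kronRot (ζ ^ (b : ℕ)) (coeffEmb Qb jq)) :=
    fun b => hnRot_beta N ℓ w hwβ _ (hnJ N)
  intro i i' h
  have h' : hnFam N ℓ w ζ i (heckeBetaBar Qb N ℓ (hnJ N))
      = hnFam N ℓ w ζ i' (heckeBetaBar Qb N ℓ (hnJ N)) := by rw [h]
  cases i with
  | none =>
      cases i' with
      | none => rfl
      | some b' =>
          exfalso
          rw [hvalInf, hvalRot] at h'
          have h2 := congrArg (fun g : LaurentSeries Qb => g.coeff (-1))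
            (hn_algebraMap_injective h')
          simp only [hinf, hcoef] at h2
          exact Units.ne_zero _ h2.symm
  | some b =>
      cases i' with
      | none =>
          exfalso
          rw [hvalInf, hvalRot] at h'
          have h2 := congrArg (fun g : LaurentSeries Qb => g.coeff (-1))
            (hn_algebraMap_injective h')
          simp only [hinf, hcoef] at h2
          exact Units.ne_zero _ h2
      | some b' =>
          rw [hvalRot, hvalRot] at h'
          have h2 := congrArg (fun g : LaurentSeries Qb => g.coeff (-1))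
            (hn_algebraMap_injective h')
          simp only [hcoef] at h2
          have h3 : (ζ ^ (b : ℕ)) ^ (-1 : ℤ) = (ζ ^ (b' : ℕ)) ^ (-1 : ℤ) := Units.ext h2
          have h4 : ζ ^ (b : ℕ) = ζ ^ (b' : ℕ) := by
            have := congrArg (fun u : Qbˣ => u⁻¹) h3
            simpa using this
          have h5 : (b : ℕ) = (b' : ℕ) := hζ.pow_inj b.2 b'.2 h4
          exact congrArg some (Fin.ext h5)

/-- **HN, core.**  From the swap `w` and the degree `[F_{Nℓ} : F_N] = ℓ + 1`: the norm of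
`v(q^ℓ)` from `F_{Nℓ}` to `F_N` has `q`-expansion `kronHecke ℓ ζ v`. -/
theorem heckeNorm_of_swap_of_finrank (hℓ : ℓ.Prime)
    (w : modularFunctionFieldBar (N * ℓ) →+* modularFunctionFieldBar (N * ℓ))
    (hwα : ∀ x, w (heckeAlphaBar Qb N ℓ x) = heckeBetaBar Qb N ℓ x)
    (hwβ : ∀ x, w (heckeBetaBar Qb N ℓ x) = heckeAlphaBar Qb N ℓ x)
    (hdeg : letI := (heckeAlphaBar Qb N ℓ).toRingHom.toAlgebra
      Module.finrank (modularFunctionFieldBar N) (modularFunctionFieldBar (N * ℓ)) = ℓ + 1)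
    (ζ : Qbˣ) (hζ : IsPrimitiveRoot ζ ℓ) (v : modularFunctionFieldBar N) :
    letI := (heckeAlphaBar Qb N ℓ).toRingHom.toAlgebra
    ((Algebra.norm (modularFunctionFieldBar N) (heckeBetaBar Qb N ℓ v) :
        modularFunctionFieldBar N) : LaurentSeries Qb) =
      kronHecke ℓ ζ (v : LaurentSeries Qb) := by
  let algF' : Algebra (modularFunctionFieldBar N) (modularFunctionFieldBar (N * ℓ)) :=
    (heckeAlphaBar Qb N ℓ).toRingHom.toAlgebra
  let algE : Algebra (modularFunctionFieldBar N) HnOmegaBar := (hnBase N ℓ).toAlgebra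
  have hfin : FiniteDimensional (modularFunctionFieldBar N) (modularFunctionFieldBar (N * ℓ)) :=
    Module.finite_of_finrank_pos (by rw [hdeg]; omega)
  have : CharZero (modularFunctionFieldBar N) :=
    charZero_of_injective_algebraMap (algebraMap Qb (modularFunctionFieldBar N)).injective
  have hsep : Algebra.IsSeparable (modularFunctionFieldBar N)
      (modularFunctionFieldBar (N * ℓ)) := inferInstance
  let e : Option (Fin ℓ) → (modularFunctionFieldBar (N * ℓ) →ₐ[modularFunctionFieldBar N]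
      HnOmegaBar) := fun i =>
    { hnFam N ℓ w ζ i with
      commutes' := fun x => hnFam_alpha N ℓ w hwα ζ hζ.pow_eq_one i x }
  have he : Function.Injective e := by
    intro i i' h
    apply hnFam_injective N ℓ hℓ w hwβ ζ hζ
    have := congrArg (fun g : modularFunctionFieldBar (N * ℓ) →ₐ[modularFunctionFieldBar N]
      HnOmegaBar => (g : modularFunctionFieldBar (N * ℓ) →+* HnOmegaBar)) h
    exact this
  have hcard : Fintype.card (Option (Fin ℓ))
      = Module.finrank (modularFunctionFieldBar N) (modularFunctionFieldBar (N * ℓ)) := by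
    rw [hdeg, Fintype.card_option, Fintype.card_fin]
  have key := hn_norm_eq_prod_of_injective e he hcard (heckeBetaBar Qb N ℓ v)
  rw [Fintype.prod_option] at key
  have h1 : e none (heckeBetaBar Qb N ℓ v)
      = algebraMap HnOmega HnOmegaBar (qExpand Qb ℓ (qExpand Qb ℓ (v : LaurentSeries Qb))) :=
    hnInf_beta N ℓ v
  have h2 : ∀ b : Fin ℓ, e (some b) (heckeBetaBar Qb N ℓ v)
      = algebraMap HnOmega HnOmegaBar (kronRot (ζ ^ (b : ℕ)) (v : LaurentSeries Qb)) :=
    fun b => hnRot_beta N ℓ w hwβ _ v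
  have h3 : algebraMap (modularFunctionFieldBar N) HnOmegaBar
      (Algebra.norm (modularFunctionFieldBar N) (heckeBetaBar Qb N ℓ v))
      = algebraMap HnOmega HnOmegaBar (qExpand Qb ℓ
          ((Algebra.norm (modularFunctionFieldBar N) (heckeBetaBar Qb N ℓ v) :
            modularFunctionFieldBar N) : LaurentSeries Qb)) := rfl
  rw [h3, h1] at key
  simp only [h2] at key
  rw [← map_prod, ← map_mul,
    Fin.prod_univ_eq_prod_range (fun b => kronRot (ζ ^ b) (v : LaurentSeries Qb)) ℓ,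
    ← qExpand_kronNorm_field ζ hζ, ← map_mul] at key
  exact qExpand_injective ℓ (hn_algebraMap_injective key)

end Core

/-- piece `SWAP` (Atkin–Lehner): an endomorphism of `F_{Nℓ}` exchanging `α` and `β`. -/
def StmtHNSwap : Prop :=
  ∀ (N ℓ : ℕ) [NeZero N] [NeZero ℓ], Nat.Coprime ℓ N →
    ∃ w : modularFunctionFieldBar (N * ℓ) →ₐ[Qb] modularFunctionFieldBar (N * ℓ),
      (∀ v : modularFunctionFieldBar N, w (heckeAlphaBar Qb N ℓ v) = heckeBetaBar Qb N ℓ v) ∧
      (∀ v : modularFunctionFieldBar N, w (heckeBetaBar Qb N ℓ v) = heckeAlphaBar Qb N ℓ v)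

/-- piece `DEG`: `[F_{Nℓ} : F_N] = ℓ + 1` along the inclusion `α`, for a prime `ℓ ∤ N`. -/
def StmtHNDeg : Prop :=
  ∀ (N ℓ : ℕ) [NeZero N] [NeZero ℓ], ℓ.Prime → ¬ ℓ ∣ N →
    letI := (heckeAlphaBar Qb N ℓ).toRingHom.toAlgebra
    Module.finrank (modularFunctionFieldBar N) (modularFunctionFieldBar (N * ℓ)) = ℓ + 1

/-- **HN from SWAP and DEG.** -/
theorem stmtHeckeNorm_of_swap_of_deg (hswap : StmtHNSwap) (hdeg : StmtHNDeg) : StmtHeckeNorm := by
  intro N _ ℓ _ hℓ hℓN ζ hζ v
  obtain ⟨w, hwα, hwβ⟩ := hswap N ℓ ((Nat.Prime.coprime_iff_not_dvd hℓ).2 hℓN)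
  exact heckeNorm_of_swap_of_finrank N ℓ hℓ (w : _ →+* _) hwα hwβ (hdeg N ℓ hℓ hℓN) ζ hζ v

end Fermat.Agent.ES.G2
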