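import Fermat.Agent.ES.G2.Frob
import Fermat.Agent.S18.Glue

/-!
# ES / G2 (item 37): S37 from a reduction of places (piece `S37-ASM`)

`PlaceRedData N ℓ A r Fr` collects what S37 needs from the reduction of places
`r : Place(F_N / ℚ̄) → Place(F_{N,k} / k)` (`k` the residue field of `A`) and a semilinear
automorphism `Fr` of `F_{N,k}` (the coefficientwise Frobenius):

* `red`, `gen` : the prelude's `IsPlaceReductionModL A N r` (`r_* div y = div ȳ`) and
  `PrincipalGeneratedByIntegral`;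
* `inertia` : `r (σ P) = r P` for `σ` in the inertia group of `A`;
* `frobenius` : `r (φ P) = Fr (r P)` for every Frobenius element `φ` at `A`;
* `kronecker` : `Fr · r_* (T_ℓ P) = Fr² (r P) + ℓ · (r P)` as divisors
  (Eichler–Shimura congruence `T_ℓ ≡ Frob + ℓ Frob⁻¹` on points).

`s37_of_placeRed : StmtPlaceRed → StmtInj → (frozen statement of S37)`.
The map `sp₀` is the prelude's `reductionPic0Along r`; it is injective on torsion prime to `ℓ` by
`(INJ)` (`Fermat.Agent.S18.isPrincipal_of_inj`).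
-/

set_option autoImplicit false
set_option linter.style.haveILetI false
set_option linter.unusedSectionVars false

noncomputable section

namespace Fermat.Agent.ES.G2

open ModularCurve AlgebraicCurve Fermat.Agent.ES HahnSeries

section Generic

variable {k : Type*} [Field k]

/-- What S37 needs from the reduction of places (any residue map `π : A →+* k`). -/
structure PlaceRedDataAlong (N ℓ : ℕ) [NeZero N] [NeZero ℓ] (A : ValuationSubring Qb)
    (π : A →+* k)
    (r : Place Qb (modularFunctionFieldBar N) → Place k (modularFunctionFieldFullC k N))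
    (Fr : SemilinearAut k (modularFunctionFieldFullC k N)) : Prop where
  red : IsPlaceReductionAlong A π N r
  gen : PrincipalGeneratedByIntegral A π N
  inertia : ∀ σ ∈ A.inertiaSubgroupIn ℚ, ∀ P : Place Qb (modularFunctionFieldBar N),
    r (arithmeticGalois (modularFunctionFieldFull N) σ • P) = r P
  frobenius : ∀ φ : Qb ≃ₐ[ℚ] Qb, A.IsFrobeniusAt φ ℓ →
    ∀ P : Place Qb (modularFunctionFieldBar N),
      r (arithmeticGalois (modularFunctionFieldFull N) φ • P) = Fr • r P
  kronecker :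
    haveI := Fermat.Agent.ES.H.hasPrincipalDivisors_FF (N * ℓ)
    ∀ P : Place Qb (modularFunctionFieldBar N),
      Fr • Finsupp.mapDomain r
          (Divisor.correspondence (heckeBetaBar Qb N ℓ) (heckeAlphaBar Qb N ℓ)
            (Fermat.Agent.ES.H.heckeBetaBarIntegral N ℓ)
            (Fermat.Agent.ES.H.heckeAlphaBarIntegral N ℓ) (Finsupp.single P 1)) =
        Finsupp.single (Fr • Fr • r P) (1 : ℤ) + ℓ • Finsupp.single (r P) (1 : ℤ)

variable {N ℓ : ℕ} [NeZero N] [NeZero ℓ] {A : ValuationSubring Qb} {π : A →+* k}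
  {r : Place Qb (modularFunctionFieldBar N) → Place k (modularFunctionFieldFullC k N)}
  {Fr : SemilinearAut k (modularFunctionFieldFullC k N)}

omit [NeZero N] in
/-- a map of places intertwining two semilinear automorphisms intertwines them on divisors -/
theorem s37_mapDomain_smul (g : SemilinearAut Qb (modularFunctionFieldBar N))
    (g' : SemilinearAut k (modularFunctionFieldFullC k N))
    (h : ∀ P : Place Qb (modularFunctionFieldBar N), r (g • P) = g' • r P)
    (D : Divisor Qb (modularFunctionFieldBar N)) :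
    Finsupp.mapDomain r (g • D) = g' • Finsupp.mapDomain r D := by
  induction D using Finsupp.induction with
  | zero => simp
  | single_add P n D _ _ ih =>
    rw [smul_add, Finsupp.mapDomain_add, Finsupp.mapDomain_add, smul_add, ih,
      SemilinearAut.smul_single, Finsupp.mapDomain_single, Finsupp.mapDomain_single,
      SemilinearAut.smul_single, h]

omit [NeZero N] in
theorem s37_mapDomain_smul_of_fix (g : SemilinearAut Qb (modularFunctionFieldBar N))
    (h : ∀ P : Place Qb (modularFunctionFieldBar N), r (g • P) = r P)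
    (D : Divisor Qb (modularFunctionFieldBar N)) :
    Finsupp.mapDomain r (g • D) = Finsupp.mapDomain r D := by
  have := s37_mapDomain_smul (r := r) g 1 (fun P => by rw [h, one_smul]) D
  rwa [one_smul] at this

/-- additive maps on divisors are determined by their values on places -/
theorem s37_addHom_ext {α M : Type*} [AddCommGroup M] (Φ₁ Φ₂ : (α →₀ ℤ) →+ M)
    (h : ∀ a : α, Φ₁ (Finsupp.single a 1) = Φ₂ (Finsupp.single a 1)) : Φ₁ = Φ₂ := by
  refine Finsupp.addHom_ext fun a n => ?_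
  have hs : (Finsupp.single a n : α →₀ ℤ) = n • Finsupp.single a (1 : ℤ) := by
    rw [Finsupp.smul_single, smul_eq_mul, mul_one]
  rw [hs, map_zsmul, map_zsmul, h]

/-- Kronecker's congruence on all divisors. -/
theorem PlaceRedDataAlong.kronecker_div (h : PlaceRedDataAlong N ℓ A π r Fr)
    (D : Divisor Qb (modularFunctionFieldBar N)) :
    haveI := Fermat.Agent.ES.H.hasPrincipalDivisors_FF (N * ℓ)
    Fr • Finsupp.mapDomain r
        (Divisor.correspondence (heckeBetaBar Qb N ℓ) (heckeAlphaBar Qb N ℓ)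
          (Fermat.Agent.ES.H.heckeBetaBarIntegral N ℓ)
          (Fermat.Agent.ES.H.heckeAlphaBarIntegral N ℓ) D) =
      Fr • Fr • Finsupp.mapDomain r D + ℓ • Finsupp.mapDomain r D := by
  haveI := Fermat.Agent.ES.H.hasPrincipalDivisors_FF (N * ℓ)
  let sF : Divisor k (modularFunctionFieldFullC k N) →+ Divisor k (modularFunctionFieldFullC k N) :=
    DistribSMul.toAddMonoidHom _ Fr
  let rr : Divisor Qb (modularFunctionFieldBar N) →+ Divisor k (modularFunctionFieldFullC k N) :=
    Finsupp.mapDomain.addMonoidHom r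
  let Φ₁ : Divisor Qb (modularFunctionFieldBar N) →+ Divisor k (modularFunctionFieldFullC k N) :=
    (sF.comp rr).comp (Divisor.correspondence (heckeBetaBar Qb N ℓ) (heckeAlphaBar Qb N ℓ)
          (Fermat.Agent.ES.H.heckeBetaBarIntegral N ℓ)
          (Fermat.Agent.ES.H.heckeAlphaBarIntegral N ℓ))
  let Φ₂ : Divisor Qb (modularFunctionFieldBar N) →+ Divisor k (modularFunctionFieldFullC k N) :=
    (sF.comp sF).comp rr + ℓ • rr
  have key : Φ₁ = Φ₂ := by
    refine s37_addHom_ext Φ₁ Φ₂ fun P => ?_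
    show Fr • Finsupp.mapDomain r
        (Divisor.correspondence (heckeBetaBar Qb N ℓ) (heckeAlphaBar Qb N ℓ)
          (Fermat.Agent.ES.H.heckeBetaBarIntegral N ℓ)
          (Fermat.Agent.ES.H.heckeAlphaBarIntegral N ℓ) (Finsupp.single P (1 : ℤ)))
      = Fr • Fr • Finsupp.mapDomain r (Finsupp.single P (1 : ℤ))
        + ℓ • Finsupp.mapDomain r (Finsupp.single P (1 : ℤ))
    rw [h.kronecker P, Finsupp.mapDomain_single, SemilinearAut.smul_single,
      SemilinearAut.smul_single]
  exact DFunLike.congr_fun key D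

/-- the reduction map on classes attached to `r` -/
abbrev PlaceRedDataAlong.sp (h : PlaceRedDataAlong N ℓ A π r Fr) : JZero N →+ JZeroC k N :=
  reductionPic0Along r h.red h.gen

theorem PlaceRedDataAlong.sp_mk (h : PlaceRedDataAlong N ℓ A π r Fr)
    (D : Divisor.degZero (K := Qb) (F := modularFunctionFieldBar N)) :
    h.sp (Pic0.mk D) = Pic0.mk (reductionDegZeroAlong r h.red.1 D) := rfl

/-- (R1a) -/
theorem PlaceRedDataAlong.sp_inertia (h : PlaceRedDataAlong N ℓ A π r Fr)
    (σ : Qb ≃ₐ[ℚ] Qb) (hσ : σ ∈ A.inertiaSubgroupIn ℚ) (x : JZero N) :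
    h.sp (σ • x) = h.sp x := by
  obtain ⟨D, rfl⟩ := Pic0.mk_surjective x
  rw [galois_smul_pic0_def, SemilinearAut.pic0_smul_mk, h.sp_mk, h.sp_mk]
  refine congrArg Pic0.mk (Subtype.ext ?_)
  rw [coe_reductionDegZeroAlong, coe_reductionDegZeroAlong, SemilinearAut.coe_degZeroSMulHom]
  exact s37_mapDomain_smul_of_fix _ (h.inertia σ hσ) _

/-- (R1b) -/
theorem PlaceRedDataAlong.sp_frobenius (h : PlaceRedDataAlong N ℓ A π r Fr)
    (φ : Qb ≃ₐ[ℚ] Qb) (hφ : A.IsFrobeniusAt φ ℓ) (x : JZero N) :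
    h.sp (φ • x) = Fr • h.sp x := by
  obtain ⟨D, rfl⟩ := Pic0.mk_surjective x
  rw [galois_smul_pic0_def, SemilinearAut.pic0_smul_mk, h.sp_mk, h.sp_mk,
    SemilinearAut.pic0_smul_mk]
  refine congrArg Pic0.mk (Subtype.ext ?_)
  rw [coe_reductionDegZeroAlong, SemilinearAut.coe_degZeroSMulHom,
    SemilinearAut.coe_degZeroSMulHom, coe_reductionDegZeroAlong]
  exact s37_mapDomain_smul _ Fr (h.frobenius φ hφ) _

/-- (R3) -/
theorem PlaceRedDataAlong.sp_hecke (h : PlaceRedDataAlong N ℓ A π r Fr) (hℓ : ℓ.Prime)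
    (x : JZero N) :
    Fr • h.sp (heckeOperatorBar N ⟨ℓ, hℓ⟩ x) = Fr • Fr • h.sp x + ℓ • h.sp x := by
  haveI := Fermat.Agent.ES.H.hasPrincipalDivisors_FF (N * ℓ)
  obtain ⟨D, rfl⟩ := Pic0.mk_surjective x
  have hT : heckeOperatorBar N ⟨ℓ, hℓ⟩ (Pic0.mk D) =
      Pic0.mk (Pic0.degZeroCorrespondence (heckeBetaBar Qb N ℓ) (heckeAlphaBar Qb N ℓ)
        (Fermat.Agent.ES.H.heckeBetaBarIntegral N ℓ) (Fermat.Agent.ES.H.heckeAlphaBarIntegral N ℓ)
        (Fermat.Agent.ES.H.fundamentalIdentityAlong_heckeBetaBar N ℓ) D) :=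
    frob_heckeOperatorBar_eq N ℓ hℓ (Pic0.mk D)
  refine (congrArg (fun t => Fr • h.sp t) hT).trans ?_
  show Fr • h.sp (Pic0.mk _) = _
  rw [h.sp_mk, h.sp_mk, SemilinearAut.pic0_smul_mk, SemilinearAut.pic0_smul_mk,
    SemilinearAut.pic0_smul_mk]
  show _ = Pic0.mk (_ + ℓ • _)
  refine congrArg Pic0.mk (Subtype.ext ?_)
  simp only [AddSubgroup.coe_add, AddSubgroup.coe_nsmul, SemilinearAut.coe_degZeroSMulHom,
    coe_reductionDegZeroAlong]
  exact h.kronecker_div _

end Generic

section Concrete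

set_option synthInstance.maxHeartbeats 400000

/-- What S37 needs from the reduction of places modulo the maximal ideal of `A`. -/
abbrev PlaceRedData (N ℓ : ℕ) [NeZero N] [NeZero ℓ] (A : ValuationSubring Qb)
    (r : Place Qb (modularFunctionFieldBar N) →
      Place (IsLocalRing.ResidueField A) (modularFunctionFieldFullC (IsLocalRing.ResidueField A) N))
    (Fr : SemilinearAut (IsLocalRing.ResidueField A)
      (modularFunctionFieldFullC (IsLocalRing.ResidueField A) N)) : Prop :=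
  PlaceRedDataAlong N ℓ A (IsLocalRing.residue A) r Fr

/-- piece `PR`: reduction of places with Kronecker's congruence on points. -/
def StmtPlaceRed : Prop :=
  ∀ (N ℓ : ℕ) [NeZero N] [NeZero ℓ], ℓ.Prime → ¬ ℓ ∣ N →
    ∀ A : ValuationSubring Qb, A.LiesOverPrime ℓ → ∃ r Fr, PlaceRedData N ℓ A r Fr

/-- The interface `InjStatement` of the S18 glue, for all exponents prime to `ℓ`. -/
theorem s37_injStatement_of_stmtInj (hinj : StmtInj) (N : ℕ) [NeZero N] (ℓ : ℕ)
    (hℓ : ℓ.Prime) (hℓN : ¬ ℓ ∣ N) (A : ValuationSubring (AlgebraicClosure ℚ))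
    (hA : A.LiesOverPrime ℓ) (m : ℕ) (hm : ¬ ℓ ∣ m) : Fermat.Agent.S18.InjStatement N A m := by
  intro Y₁ Y₂ h₁ h₂ _ hne heq hdiv
  have hne₂ : coeffMap (IsLocalRing.residue A) Y₂ ≠ 0 := by rw [heq]; exact hne
  have hY₁ : Y₁ ≠ 0 := fun h => hne (by rw [h, map_zero])
  have hY₂ : Y₂ ≠ 0 := fun h => hne₂ (by rw [h, map_zero])
  have hy₁0 : (⟨coeffMap A.subtype Y₁, h₁⟩ : modularFunctionFieldBar N) ≠ 0 := by
    intro h
    apply hY₁
    apply kronIncl_injective (A := A)
    rw [map_zero]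
    exact congrArg Subtype.val h
  have hy₂0 : (⟨coeffMap A.subtype Y₂, h₂⟩ : modularFunctionFieldBar N) ≠ 0 := by
    intro h
    apply hY₂
    apply kronIncl_injective (A := A)
    rw [map_zero]
    exact congrArg Subtype.val h
  have hred : ReducesToOne A N ((⟨coeffMap A.subtype Y₁, h₁⟩ : modularFunctionFieldBar N) *
      (⟨coeffMap A.subtype Y₂, h₂⟩ : modularFunctionFieldBar N)⁻¹) := by
    refine ⟨coeffMap A.subtype Y₁, coeffMap A.subtype Y₂, h₁, h₂,
      (kronPrim_kronIncl_iff Y₁).mpr hne, (kronPrim_kronIncl_iff Y₂).mpr hne₂,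
      (kronCongr_kronIncl_iff Y₁ Y₂).mpr heq.symm, ?_⟩
    have h3 : ((⟨coeffMap A.subtype Y₁, h₁⟩ : modularFunctionFieldBar N) *
        (⟨coeffMap A.subtype Y₂, h₂⟩ : modularFunctionFieldBar N)⁻¹) *
        (⟨coeffMap A.subtype Y₂, h₂⟩ : modularFunctionFieldBar N) =
        (⟨coeffMap A.subtype Y₁, h₁⟩ : modularFunctionFieldBar N) := by
      rw [mul_assoc, inv_mul_cancel₀ hy₂0, mul_one]
    exact congrArg Subtype.val h3
  obtain ⟨h, hh⟩ := hinj N ℓ hℓ hℓN A hA m hm _ (mul_ne_zero hy₁0 (inv_ne_zero hy₂0)) hred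
    (fun P => by
      rw [P.ord_mul hy₁0 (inv_ne_zero hy₂0), P.ord_inv, ← sub_eq_add_neg]
      exact hdiv P)
  refine ⟨h, ?_⟩
  rw [hh, mul_assoc, inv_mul_cancel₀ hy₂0, mul_one]

variable {N ℓ : ℕ} [NeZero N] [NeZero ℓ] {A : ValuationSubring Qb}
  {r : Place Qb (modularFunctionFieldBar N) →
    Place (IsLocalRing.ResidueField A) (modularFunctionFieldFullC (IsLocalRing.ResidueField A) N)}
  {Fr : SemilinearAut (IsLocalRing.ResidueField A)
    (modularFunctionFieldFullC (IsLocalRing.ResidueField A) N)}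

/-- (R2): the reduction map is injective on `m`-torsion, given `(INJ)` for the exponent `m`. -/
theorem PlaceRedDataAlong.sp_injective_torsion (h : PlaceRedData N ℓ A r Fr) (m : ℕ) (hm : m ≠ 0)
    (hinj : Fermat.Agent.S18.InjStatement N A m) (z : JZero N) (hmz : m • z = 0)
    (hz : h.sp z = 0) : z = 0 := by
  obtain ⟨D, rfl⟩ := Pic0.mk_surjective z
  have hpd : HasPrincipalDivisors (AlgebraicClosure ℚ) (modularFunctionFieldBar N) :=
    Fermat.Agent.ES.H.hasPrincipalDivisors_FF N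
  have h1 : m • (D : Divisor (AlgebraicClosure ℚ) (modularFunctionFieldBar N)) ∈
      Divisor.principal (K := AlgebraicClosure ℚ) (F := modularFunctionFieldBar N) := by
    have h2 : ((m • D : Divisor.degZero (K := AlgebraicClosure ℚ)
        (F := modularFunctionFieldBar N)) : JZero N) = 0 := hmz
    rw [QuotientAddGroup.eq_zero_iff, AddSubgroup.mem_addSubgroupOf] at h2
    exact h2
  have h3 : Finsupp.mapDomain r
      (D : Divisor (AlgebraicClosure ℚ) (modularFunctionFieldBar N)) ∈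
      Divisor.principal (K := IsLocalRing.ResidueField A)
        (F := modularFunctionFieldFullC (IsLocalRing.ResidueField A) N) := by
    rw [h.sp_mk] at hz
    have h4 := (QuotientAddGroup.eq_zero_iff _).mp hz
    rw [AddSubgroup.mem_addSubgroupOf] at h4
    exact h4
  have h5 := Fermat.Agent.S18.isPrincipal_of_inj hpd IsLocalRing.residue_surjective h.red h.gen
    m hm
    (fun Y₁ Y₂ hY₁ hY₂ hdiv =>
      hinj Y₁.1 Y₂.1 Y₁.2.1 Y₂.2.1 Y₁.2.2 (fun h0 => hY₁ (Subtype.ext h0))
        (congrArg Subtype.val hY₂) hdiv)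
    D h1 h3
  show (QuotientAddGroup.mk D : JZero N) = 0
  rw [QuotientAddGroup.eq_zero_iff, AddSubgroup.mem_addSubgroupOf]
  exact h5

/-- The inputs (R1)–(R3) of the S37 glue from a reduction of places. -/
theorem glueInput_of_placeRedData (hInj : StmtInj) (hcomm : HeckeOperatorsCommuteBar N)
    (hℓ : ℓ.Prime) (hℓN : ¬ ℓ ∣ N) (hA : A.LiesOverPrime ℓ) (p : ℕ) (hp : ¬ ℓ ∣ p)
    (h : PlaceRedData N ℓ A r Fr) :
    letI := heckeModuleBar N
    GlueInput (K := ℚ) p (JZero N) A ℓ hℓ h.sp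
      (DistribSMul.toAddMonoidHom (JZeroC (IsLocalRing.ResidueField A) N) Fr) := by
  letI := heckeModuleBar N
  have hp0 : p ≠ 0 := by
    rintro rfl
    exact hp (dvd_zero ℓ)
  refine ⟨fun σ hσ x => h.sp_inertia σ hσ x, fun φ hφ x => h.sp_frobenius φ hφ x, ?_, ?_⟩
  · rintro x ⟨n, hn⟩ hx
    have hℓpn : ¬ ℓ ∣ p ^ n := fun hd => hp (hℓ.dvd_of_dvd_pow hd)
    exact h.sp_injective_torsion (p ^ n) (pow_ne_zero n hp0)
      (s37_injStatement_of_stmtInj hInj N ℓ hℓ hℓN A hA (p ^ n) hℓpn) x hn hx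
  · intro x
    have e1 : (heckeGen ⟨ℓ, hℓ⟩ • x : JZero N) = heckeOperatorBar N ⟨ℓ, hℓ⟩ x :=
      heckeModuleBar_heckeGen_smul hcomm ⟨ℓ, hℓ⟩ x
    have e2 := h.sp_hecke hℓ x
    show Fr • Fr • h.sp x - Fr • h.sp (heckeGen ⟨ℓ, hℓ⟩ • x) + ℓ • h.sp x = 0
    rw [e1, e2]
    abel

/-- **S37 from the reduction of places and `(INJ)`** (the frozen statement of S37). -/
theorem s37_of_placeRed (hPR : StmtPlaceRed) (hInj : StmtInj) (N p : ℕ) [NeZero N]
    (hcomm : ModularCurve.HeckeOperatorsCommuteBar N) :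
    letI := ModularCurve.heckeModuleBar N
    ∀ (_ : SMulCommClass (AlgebraicClosure ℚ ≃ₐ[ℚ] AlgebraicClosure ℚ) ModularCurve.HeckeAlg
        (ModularCurve.JZero N)),
      ModularCurve.SpecializationExists (K := ℚ) (L := AlgebraicClosure ℚ) N p
        (ModularCurve.JZero N) := by
  letI := heckeModuleBar N
  intro hsmul ℓ hℓ hgood A hA
  haveI : NeZero ℓ := ⟨hℓ.ne_zero⟩
  have hℓN : ¬ ℓ ∣ N := fun h => hgood (dvd_mul_of_dvd_left h p)
  have hℓp : ¬ ℓ ∣ p := fun h => hgood (dvd_mul_of_dvd_right h N)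
  obtain ⟨r, Fr, h⟩ := hPR N ℓ hℓ hℓN A hA
  exact specialization_of_glueInput A ℓ hℓ
    (Fermat.Agent.Common.exists_isFrobeniusAt_of_liesOverPrime ℓ hℓ A hA) h.sp
    (DistribSMul.toAddMonoidHom (JZeroC (IsLocalRing.ResidueField A) N) Fr)
    (glueInput_of_placeRedData hInj hcomm hℓ hℓN hA p hℓp h)

end Concrete

end Fermat.Agent.ES.G2
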