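import Fermat.Agent.ES.RiemannGeneric

/-!
# S37in, piece S37-RR: Riemann representation and the counting step of the boundedness trick

`F / K` a function field in the prelude's sense, all residue fields equal to `K`, principal divisors
of degree `0`, Riemann's inequality `deg A + 1 - g ≤ dim L(A)`.

* `s37RR_exists_repr` : every divisor `D` of degree `0` is `A - g' • P₀ + div f` with `A ≥ 0` of
  degree `g'` (any `g' ≥ g`);
* `s37RR_mem_of_ord` : `div y = P - Q` with `P, Q ≥ 0` gives `y ∈ L(Q)` (also for multiples);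
* `s37RR_pow_mul_pow_mem` : `x ∈ L(X)`, `y ∈ L(Y)` ⇒ `x ^ i * y ^ j ∈ L(a • X + b • Y)` (`i ≤ a`,
  `j ≤ b`);
* `s37RR_finrank_le` : `dim L(B) ≤ deg B + 1` for `B ≥ 0`;
* `s37RR_card_le` : if the `n (J + 1)` elements `x ^ i * y ^ j` (`i < n`, `j ≤ J`) are linearly
  independent then `n (J + 1) ≤ (n - 1) deg X + J deg Y + 1`;
* `s37RR_false` : the count.  If for every `n ≥ 1` there is `y` with a pole divisor of degree `≤ B`
  (independent of `n`) such that all the families `x ^ i * y ^ j` (`i < n`, `j ≤ J`) are linearly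
  independent, we have a contradiction.
-/

set_option autoImplicit false

open AlgebraicCurve Module

namespace Fermat.Agent.ES.G2

open Fermat.Agent.ES.R

section RR

variable {K F : Type*} [Field K] [Field F] [Algebra K F]

/-- **Riemann representation.**  A divisor of degree `0` is `A - g' • P₀ + div f`, `A ≥ 0` of
degree `g'`. -/
theorem s37RR_exists_repr [HasPrincipalDivisors K F] (g : ℤ)
    (hR : ∀ A : Divisor K F,
      Divisor.degree A + 1 - g ≤ (finrank K ↥(riemannRochSpace A) : ℤ))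
    (P₀ : Place K F) (hP₀ : P₀.deg = 1) (g' : ℕ) (hg : g ≤ g')
    (D : Divisor K F) (hD : Divisor.degree D = 0) :
    ∃ (A : Divisor K F) (f : F), 0 ≤ A ∧ Divisor.degree A = g' ∧ f ≠ 0 ∧
      ∀ v : Place K F, D v = A v - (Finsupp.single P₀ (g' : ℤ) : Divisor K F) v + v.ord f := by
  classical
  set B : Divisor K F := D + Finsupp.single P₀ (g' : ℤ) with hB
  have hBdeg : Divisor.degree B = g' := by
    rw [hB, map_add, hD, Divisor.degree_single, hP₀]
    simp
  have h1 := hR B
  rw [hBdeg] at h1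
  have hpos : 0 < finrank K ↥(riemannRochSpace B) := by
    have : (0 : ℤ) < finrank K ↥(riemannRochSpace B) := by linarith
    exact_mod_cast this
  have := Module.nontrivial_of_finrank_pos hpos
  obtain ⟨⟨z, hzmem⟩, hz0'⟩ := exists_ne (0 : ↥(riemannRochSpace B))
  have hz0 : z ≠ 0 := fun h => hz0' (Subtype.ext h)
  obtain ⟨Z, hZ, hZdeg⟩ := HasPrincipalDivisors.exists_divisor (K := K) z hz0
  refine ⟨B + Z, z⁻¹, ?_, ?_, inv_ne_zero hz0, ?_⟩
  · rw [Finsupp.le_def]
    intro v
    have := (mem_riemannRochSpace_iff.mp hzmem v).resolve_left hz0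
    rw [Finsupp.add_apply, hZ v, Finsupp.zero_apply]
    linarith
  · rw [map_add, hBdeg, hZdeg, add_zero]
  · intro v
    rw [Finsupp.add_apply, hZ v, v.ord_inv, hB, Finsupp.add_apply]
    ring

/-- A function whose divisor is `m • (P - Q)`, `P ≥ 0`, lies in `L(m • Q)`. -/
theorem s37RR_mem_of_ord {y : F} (m : ℕ) {P Q : Divisor K F} (hP : 0 ≤ P)
    (hy : ∀ v : Place K F, v.ord y = m * (P v - Q v)) :
    y ∈ riemannRochSpace (m • Q) := by
  rw [mem_riemannRochSpace_iff]
  intro v
  right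
  rw [hy v, Finsupp.smul_apply, nsmul_eq_mul]
  have h1 : 0 ≤ P v := by simpa using Finsupp.le_def.mp hP v
  have h2 : (0 : ℤ) ≤ (m : ℤ) * P v := mul_nonneg (Int.natCast_nonneg m) h1
  linarith

/-- monomials in two functions with bounded poles -/
theorem s37RR_pow_mul_pow_mem {x y : F} {X Y : Divisor K F} (hX : 0 ≤ X) (hY : 0 ≤ Y)
    (hx : x ∈ riemannRochSpace X) (hy : y ∈ riemannRochSpace Y) {a b i j : ℕ} (hi : i ≤ a)
    (hj : j ≤ b) :
    x ^ i * y ^ j ∈ riemannRochSpace (a • X + b • Y) := by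
  rw [mem_riemannRochSpace_iff]
  intro v
  by_cases h0 : x ^ i * y ^ j = 0
  · exact Or.inl h0
  right
  have hxi : x ^ i ≠ 0 := left_ne_zero_of_mul h0
  have hyj : y ^ j ≠ 0 := right_ne_zero_of_mul h0
  have hXv : 0 ≤ X v := by simpa using Finsupp.le_def.mp hX v
  have hYv : 0 ≤ Y v := by simpa using Finsupp.le_def.mp hY v
  have hox : -(i : ℤ) * X v ≤ v.ord (x ^ i) := by
    rcases Nat.eq_zero_or_pos i with rfl | hipos
    · simp
    · have hx0 : x ≠ 0 := by
        rintro rfl
        exact hxi (zero_pow hipos.ne')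
      have h1 := (mem_riemannRochSpace_iff.mp hx v).resolve_left hx0
      have h2 : v.ord (x ^ i) = i * v.ord x := by
        have := v.ord_zpow x (i : ℤ)
        simpa using this
      rw [h2]
      have : (i : ℤ) * (-X v) ≤ i * v.ord x :=
        mul_le_mul_of_nonneg_left h1 (Int.natCast_nonneg i)
      linarith
  have hoy : -(j : ℤ) * Y v ≤ v.ord (y ^ j) := by
    rcases Nat.eq_zero_or_pos j with rfl | hjpos
    · simp
    · have hy0 : y ≠ 0 := by
        rintro rfl
        exact hyj (zero_pow hjpos.ne')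
      have h1 := (mem_riemannRochSpace_iff.mp hy v).resolve_left hy0
      have h2 : v.ord (y ^ j) = j * v.ord y := by
        have := v.ord_zpow y (j : ℤ)
        simpa using this
      rw [h2]
      have : (j : ℤ) * (-Y v) ≤ j * v.ord y :=
        mul_le_mul_of_nonneg_left h1 (Int.natCast_nonneg j)
      linarith
  rw [v.ord_mul hxi hyj, Finsupp.add_apply, Finsupp.smul_apply, Finsupp.smul_apply,
    nsmul_eq_mul, nsmul_eq_mul]
  have hia : (i : ℤ) * X v ≤ a * X v :=
    mul_le_mul_of_nonneg_right (by exact_mod_cast hi) hXv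
  have hjb : (j : ℤ) * Y v ≤ b * Y v :=
    mul_le_mul_of_nonneg_right (by exact_mod_cast hj) hYv
  linarith

/-- `dim L(B) ≤ deg B + 1` for `B ≥ 0`. -/
theorem s37RR_finrank_le [HasPrincipalDivisors K F]
    (hres : ∀ v : Place K F, Function.Bijective (algebraMap K v.ResidueField))
    (P₀ : Place K F) {B : Divisor K F} (hB : 0 ≤ B) :
    (finrank K ↥(riemannRochSpace B) : ℤ) ≤ Divisor.degree B + 1 := by
  classical
  set A : Divisor K F := -Finsupp.single P₀ (1 : ℤ) with hA
  have hA0 : A ≤ 0 := by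
    rw [hA, neg_nonpos, Finsupp.le_def]
    intro v
    rw [Finsupp.zero_apply, Finsupp.single_apply]
    split_ifs <;> simp
  have hAdeg : Divisor.degree A = -1 := by
    rw [hA, map_neg, Divisor.degree_single, place_deg_eq_one P₀ (hres P₀)]
    simp
  have hbot : riemannRochSpace A = ⊥ := rr_eq_bot_of_degree_neg (by rw [hAdeg]; norm_num)
  have h1 := rr_finrank_le hres (hA0.trans hB)
  rw [hbot, finrank_bot, hAdeg] at h1
  simpa using h1

/-- **The count, one step.** -/
theorem s37RR_card_le [HasPrincipalDivisors K F]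
    (hres : ∀ v : Place K F, Function.Bijective (algebraMap K v.ResidueField))
    (P₀ : Place K F) {x y : F} {X Y : Divisor K F} (hX : 0 ≤ X) (hY : 0 ≤ Y)
    (hx : x ∈ riemannRochSpace X) (hy : y ∈ riemannRochSpace Y) (n J : ℕ)
    (hli : LinearIndependent K
      (fun ij : Fin (n + 1) × Fin (J + 1) => x ^ (ij.1 : ℕ) * y ^ (ij.2 : ℕ))) :
    (((n + 1) * (J + 1) : ℕ) : ℤ) ≤ n * Divisor.degree X + J * Divisor.degree Y + 1 := by
  classical
  set B : Divisor K F := n • X + J • Y with hB
  have hB0 : 0 ≤ B := add_nonneg (nsmul_nonneg hX n) (nsmul_nonneg hY J)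
  have hmem : ∀ ij : Fin (n + 1) × Fin (J + 1),
      x ^ (ij.1 : ℕ) * y ^ (ij.2 : ℕ) ∈ riemannRochSpace B := fun ij =>
    s37RR_pow_mul_pow_mem hX hY hx hy (Nat.lt_succ_iff.mp ij.1.2) (Nat.lt_succ_iff.mp ij.2.2)
  have : FiniteDimensional K ↥(riemannRochSpace B) := rr_finite P₀ hres B
  have hli' : LinearIndependent K
      (fun ij : Fin (n + 1) × Fin (J + 1) =>
        (⟨x ^ (ij.1 : ℕ) * y ^ (ij.2 : ℕ), hmem ij⟩ : ↥(riemannRochSpace B))) :=
    LinearIndependent.of_comp (riemannRochSpace B).subtype hli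
  have hcard := hli'.fintype_card_le_finrank
  rw [Fintype.card_prod, Fintype.card_fin, Fintype.card_fin] at hcard
  have h2 := s37RR_finrank_le hres P₀ hB0
  have hdeg : Divisor.degree B = n * Divisor.degree X + J * Divisor.degree Y := by
    rw [hB, map_add, map_nsmul, map_nsmul, nsmul_eq_mul, nsmul_eq_mul]
  rw [hdeg] at h2
  have h3 : (((n + 1) * (J + 1) : ℕ) : ℤ) ≤ finrank K ↥(riemannRochSpace B) := by
    exact_mod_cast hcard
  linarith

/-- **The count.**  Unbounded independent families of monomials `x ^ i * y ^ j` with `y` of bounded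
pole degree do not exist. -/
theorem s37RR_false [HasPrincipalDivisors K F]
    (hres : ∀ v : Place K F, Function.Bijective (algebraMap K v.ResidueField))
    (P₀ : Place K F) {x : F} {X : Divisor K F} (hX : 0 ≤ X) (hx : x ∈ riemannRochSpace X)
    (B : ℕ)
    (h : ∀ n : ℕ, ∃ (y : F) (Y : Divisor K F), 0 ≤ Y ∧ Divisor.degree Y ≤ B ∧
      y ∈ riemannRochSpace Y ∧
      ∀ J : ℕ, LinearIndependent K
        (fun ij : Fin (n + 1) × Fin (J + 1) => x ^ (ij.1 : ℕ) * y ^ (ij.2 : ℕ))) :
    False := by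
  obtain ⟨y, Y, hY, hYdeg, hy, hli⟩ := h B
  have hdX : 0 ≤ Divisor.degree X := degree_nonneg hX
  obtain ⟨d, hd⟩ := Int.eq_ofNat_of_zero_le hdX
  have h1 := s37RR_card_le hres P₀ hX hY hx hy B (B * d + 1) (hli (B * d + 1))
  rw [hd] at h1
  have h2 : ((B * d + 1 : ℕ) : ℤ) * Divisor.degree Y ≤ ((B * d + 1 : ℕ) : ℤ) * B :=
    mul_le_mul_of_nonneg_left hYdeg (Int.natCast_nonneg _)
  push_cast at h1 h2
  nlinarith

end RR

end Fermat.Agent.ES.G2
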