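import Fermat.Agent.ES.G2.S37PlanB
import Fermat.Agent.ES.G2.S37RR

/-!
# S37in, piece S37-RR: proofs of `StmtBddCount` and `StmtBddOfOp` (`S37PlanB.lean`)

* `stmtBddCount : StmtBddCount` — the count of the boundedness trick;
* `stmtBddOfOp  : StmtBddOfOp`  — Riemann representation ⇒ bounded approximability of `Θ D`;
* `bddApprox_zero`, `bddApprox_add`, `bddApprox_neg`, `bddApprox_sub`, `bddApprox_sum`,
  `bddApprox_of_principal` — closure properties of `BddApprox GC`.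
-/

set_option autoImplicit false

open AlgebraicCurve Module

namespace Fermat.Agent.ES.G2

open Fermat.Agent.ES.R

section Count

variable {K F : Type*} [Field K] [Field F] [Algebra K F]

theorem s37RR_ord_pow (v : Place K F) (f : F) (n : ℕ) : v.ord (f ^ n) = n * v.ord f := by
  have := v.ord_zpow f (n : ℤ)
  rwa [zpow_natCast] at this

/-- the pole divisor `m • (-E ⊔ 0)` of a function with divisor `m • E` -/
theorem s37RR_mem_pole {w : F} (m : ℕ) (E : Divisor K F)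
    (hw : ∀ v : Place K F, v.ord w = (m : ℤ) * E v) :
    w ∈ riemannRochSpace (m • ((-E) ⊔ 0)) := by
  rw [mem_riemannRochSpace_iff]
  intro v
  right
  rw [hw v, Finsupp.smul_apply, nsmul_eq_mul, Finsupp.sup_apply, Finsupp.neg_apply,
    Finsupp.zero_apply]
  have h1 : -E v ≤ max (-E v) 0 := le_max_left _ _
  have h2 : (m : ℤ) * (-E v) ≤ m * max (-E v) 0 :=
    mul_le_mul_of_nonneg_left h1 (Int.natCast_nonneg m)
  linarith

theorem s37RR_bddCount [HasPrincipalDivisors K F]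
    (hres : ∀ v : Place K F, Function.Bijective (algebraMap K v.ResidueField)) (P₀ : Place K F)
    (GC : F → Prop)
    (hinv : ∀ a : F, a ≠ 0 → GC a → GC a⁻¹)
    (hpow : ∀ (a : F) (k : ℕ), a ≠ 0 → GC a → GC (a ^ k))
    (hind : ∀ x y : F, x ≠ 0 → y ≠ 0 → ¬ GC x → ∀ n : ℕ, 0 < n → GC (y / x ^ n) →
        ∀ J : ℕ, LinearIndependent K
          (fun ij : Fin n × Fin J => x ^ (ij.1 : ℕ) * y ^ (ij.2 : ℕ)))
    (E : Divisor K F) (hE : BddApprox GC E) (m : ℕ) (_hm : 0 < m) (w : F) (hw0 : w ≠ 0)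
    (hw : ∀ v : Place K F, v.ord w = (m : ℤ) * E v) : GC w := by
  classical
  by_contra hGC
  obtain ⟨C, hC⟩ := hE
  have hX0 : (0 : Divisor K F) ≤ m • ((-E) ⊔ 0) := nsmul_nonneg le_sup_right m
  refine s37RR_false hres P₀ hX0 (s37RR_mem_pole m E hw) (m * C) ?_
  intro n
  obtain ⟨B, G, hB0, hBdeg, hG0, hGGC, hbd⟩ := hC (n + 1)
  have hGm0 : G ^ m ≠ 0 := pow_ne_zero _ hG0
  have hwn0 : w ^ (n + 1) ≠ 0 := pow_ne_zero _ hw0
  have hy0 : w ^ (n + 1) / G ^ m ≠ 0 := div_ne_zero hwn0 hGm0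
  refine ⟨w ^ (n + 1) / G ^ m, m • B, nsmul_nonneg hB0 m, ?_, ?_, ?_⟩
  · rw [map_nsmul, nsmul_eq_mul]
    push_cast
    exact mul_le_mul_of_nonneg_left hBdeg (Int.natCast_nonneg m)
  · rw [mem_riemannRochSpace_iff]
    intro v
    right
    have hord : v.ord (w ^ (n + 1) / G ^ m) =
        (m : ℤ) * (((n + 1 : ℕ) : ℤ) * E v - v.ord G) := by
      rw [div_eq_mul_inv, v.ord_mul hwn0 (inv_ne_zero hGm0), v.ord_inv]
      rw [s37RR_ord_pow, s37RR_ord_pow, hw v]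
      ring
    rw [hord, Finsupp.smul_apply, nsmul_eq_mul]
    have h3 := (hbd v).1
    have h4 : (m : ℤ) * (-B v) ≤ m * (((n + 1 : ℕ) : ℤ) * E v - v.ord G) :=
      mul_le_mul_of_nonneg_left h3 (Int.natCast_nonneg m)
    linarith
  · intro J
    refine hind w _ hw0 hy0 hGC (n + 1) (Nat.succ_pos n) ?_ (J + 1)
    have : w ^ (n + 1) / G ^ m / w ^ (n + 1) = (G ^ m)⁻¹ := by
      field_simp
    rw [this]
    exact hinv _ hGm0 (hpow G m hG0 hGGC)

end Count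

/-- piece `S37-RR` (count). -/
theorem stmtBddCount : StmtBddCount := by
  intro K F _ _ _ _ hres P₀ GC hinv hpow hind E hE m hm w hw0 hw
  exact s37RR_bddCount hres P₀ GC hinv hpow hind E hE m hm w hw0 hw

section OfOp

variable {K F : Type*} [Field K] [Field F] [Algebra K F]

theorem s37RR_bddOfOp [HasPrincipalDivisors K F]
    (hres : ∀ v : Place K F, Function.Bijective (algebraMap K v.ResidueField)) (P₀ : Place K F)
    (g : ℤ) (hR : ∀ D : Divisor K F,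
        Divisor.degree D + 1 - g ≤ (Module.finrank K ↥(riemannRochSpace D) : ℤ))
    (GC : F → Prop) (Θ : Divisor K F →+ Divisor K F) (Θm : F → F) (c : ℕ)
    (hΘm0 : ∀ f : F, f ≠ 0 → Θm f ≠ 0)
    (hΘdiv : ∀ (D : Divisor K F) (f : F), f ≠ 0 → (∀ v : Place K F, D v = v.ord f) →
        ∀ v : Place K F, Θ D v = v.ord (Θm f))
    (hΘGC : ∀ f : F, f ≠ 0 → GC (Θm f))
    (hΘbd : ∀ A : Divisor K F, 0 ≤ A → ∃ B : Divisor K F, 0 ≤ B ∧
        Divisor.degree B ≤ (c : ℤ) * Divisor.degree A ∧ -B ≤ Θ A ∧ Θ A ≤ B)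
    (D : Divisor K F) (hD : Divisor.degree D = 0) : BddApprox GC (Θ D) := by
  classical
  set g' : ℕ := g.toNat with hg'
  have hgg' : g ≤ g' := Int.self_le_toNat g
  have hP₀ : P₀.deg = 1 := place_deg_eq_one P₀ (hres P₀)
  -- the bound for `g' • P₀`
  have hP0eff : (0 : Divisor K F) ≤ Finsupp.single P₀ (g' : ℤ) := by
    rw [Finsupp.le_def]
    intro v
    rw [Finsupp.zero_apply, Finsupp.single_apply]
    split_ifs
    · exact Int.natCast_nonneg _
    · exact le_refl _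
  have hP0deg : Divisor.degree (Finsupp.single P₀ (g' : ℤ) : Divisor K F) = g' := by
    rw [Divisor.degree_single, hP₀]; simp
  obtain ⟨B₂, hB₂0, hB₂deg, hB₂l, hB₂u⟩ := hΘbd _ hP0eff
  rw [hP0deg] at hB₂deg
  refine ⟨2 * (c * g'), fun n => ?_⟩
  have hnD : Divisor.degree (n • D) = 0 := by rw [map_nsmul, hD, smul_zero]
  obtain ⟨A, f, hA0, hAdeg, hf0, hrep⟩ := s37RR_exists_repr g hR P₀ hP₀ g' hgg' (n • D) hnD
  obtain ⟨B₁, hB₁0, hB₁deg, hB₁l, hB₁u⟩ := hΘbd A hA0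
  rw [hAdeg] at hB₁deg
  obtain ⟨Z, hZ, -⟩ := HasPrincipalDivisors.exists_divisor (K := K) f hf0
  have hdiv : n • D = A - Finsupp.single P₀ (g' : ℤ) + Z := by
    ext v
    rw [hrep v, Finsupp.add_apply, Finsupp.sub_apply, hZ v]
  have hΘ : n • Θ D = Θ A - Θ (Finsupp.single P₀ (g' : ℤ)) + Θ Z := by
    rw [← map_nsmul, hdiv, map_add, map_sub]
  refine ⟨B₁ + B₂, Θm f, add_nonneg hB₁0 hB₂0, ?_, hΘm0 f hf0, hΘGC f hf0, fun v => ?_⟩
  · rw [map_add]
    push_cast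
    linarith
  · have h1 : (n : ℤ) * Θ D v - v.ord (Θm f) =
        Θ A v - Θ (Finsupp.single P₀ (g' : ℤ)) v := by
      have h2 := congrArg (fun X : Divisor K F => X v) hΘ
      simp only [Finsupp.smul_apply, nsmul_eq_mul, Finsupp.add_apply, Finsupp.sub_apply] at h2
      rw [h2, hΘdiv Z f hf0 hZ v]
      ring
    rw [h1, Finsupp.add_apply]
    have a1 := Finsupp.le_def.mp hB₁l v
    have a2 := Finsupp.le_def.mp hB₁u v
    have a3 := Finsupp.le_def.mp hB₂l v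
    have a4 := Finsupp.le_def.mp hB₂u v
    rw [Finsupp.neg_apply] at a1 a3
    constructor <;> linarith

end OfOp

/-- piece `S37-RR` (Riemann). -/
theorem stmtBddOfOp : StmtBddOfOp := by
  intro K F _ _ _ _ hres P₀ g hR GC Θ Θm c h1 h2 h3 h4 D hD
  exact s37RR_bddOfOp hres P₀ g hR GC Θ Θm c h1 h2 h3 h4 D hD

section Closure

variable {K F : Type*} [Field K] [Field F] [Algebra K F] {GC : F → Prop}

theorem bddApprox_zero (h1 : GC 1) : BddApprox GC (0 : Divisor K F) := by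
  refine ⟨0, fun n => ⟨0, 1, le_refl _, ?_, one_ne_zero, h1, fun v => ?_⟩⟩
  · simp
  · simp

theorem bddApprox_add (hmul : ∀ a b : F, a ≠ 0 → b ≠ 0 → GC a → GC b → GC (a * b))
    {E₁ E₂ : Divisor K F} (h₁ : BddApprox GC E₁) (h₂ : BddApprox GC E₂) :
    BddApprox GC (E₁ + E₂) := by
  obtain ⟨C₁, hC₁⟩ := h₁
  obtain ⟨C₂, hC₂⟩ := h₂
  refine ⟨C₁ + C₂, fun n => ?_⟩
  obtain ⟨B₁, G₁, hB₁, hd₁, hG₁, hGC₁, hb₁⟩ := hC₁ n
  obtain ⟨B₂, G₂, hB₂, hd₂, hG₂, hGC₂, hb₂⟩ := hC₂ n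
  refine ⟨B₁ + B₂, G₁ * G₂, add_nonneg hB₁ hB₂, ?_, mul_ne_zero hG₁ hG₂,
    hmul G₁ G₂ hG₁ hG₂ hGC₁ hGC₂, fun v => ?_⟩
  · rw [map_add]; push_cast; linarith
  · rw [v.ord_mul hG₁ hG₂, Finsupp.add_apply, Finsupp.add_apply]
    have a1 := hb₁ v
    have a2 := hb₂ v
    constructor <;> nlinarith [a1.1, a1.2, a2.1, a2.2]

theorem bddApprox_neg (hinv : ∀ a : F, a ≠ 0 → GC a → GC a⁻¹)
    {E : Divisor K F} (h : BddApprox GC E) : BddApprox GC (-E) := by
  obtain ⟨C, hC⟩ := h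
  refine ⟨C, fun n => ?_⟩
  obtain ⟨B, G, hB, hd, hG, hGC, hb⟩ := hC n
  refine ⟨B, G⁻¹, hB, hd, inv_ne_zero hG, hinv G hG hGC, fun v => ?_⟩
  rw [v.ord_inv, Finsupp.neg_apply]
  have a1 := hb v
  constructor <;> nlinarith [a1.1, a1.2]

theorem bddApprox_sub (hmul : ∀ a b : F, a ≠ 0 → b ≠ 0 → GC a → GC b → GC (a * b))
    (hinv : ∀ a : F, a ≠ 0 → GC a → GC a⁻¹)
    {E₁ E₂ : Divisor K F} (h₁ : BddApprox GC E₁) (h₂ : BddApprox GC E₂) :
    BddApprox GC (E₁ - E₂) := by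
  rw [sub_eq_add_neg]
  exact bddApprox_add hmul h₁ (bddApprox_neg hinv h₂)

theorem bddApprox_sum (h1 : GC 1)
    (hmul : ∀ a b : F, a ≠ 0 → b ≠ 0 → GC a → GC b → GC (a * b))
    {ι : Type*} (s : Finset ι) (E : ι → Divisor K F) (h : ∀ i ∈ s, BddApprox GC (E i)) :
    BddApprox GC (∑ i ∈ s, E i) := by
  classical
  induction s using Finset.induction_on with
  | empty => simpa using bddApprox_zero (K := K) h1
  | insert a s ha ih =>
    rw [Finset.sum_insert ha]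
    exact bddApprox_add hmul (h a (Finset.mem_insert_self a s))
      (ih fun i hi => h i (Finset.mem_insert_of_mem hi))

/-- the divisor of a `GC`-function is boundedly approximable (with `B = 0`) -/
theorem bddApprox_of_principal (hpow : ∀ (a : F) (k : ℕ), a ≠ 0 → GC a → GC (a ^ k))
    {E : Divisor K F} {G : F} (hG : G ≠ 0) (hGC : GC G)
    (hE : ∀ v : Place K F, E v = v.ord G) : BddApprox GC E := by
  refine ⟨0, fun n => ⟨0, G ^ n, le_refl _, by simp, pow_ne_zero _ hG, hpow G n hG hGC,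
    fun v => ?_⟩⟩
  rw [s37RR_ord_pow, hE v]
  simp

end Closure

end Fermat.Agent.ES.G2
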