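import Fermat.Prelude.Def_AlgebraicCurve_Correspondence

/-!
# S37-in, piece `S37-DEG`: Galois translates and correspondences preserve effectivity

GENERIC `F / K` (prelude `Place`, `Divisor`, `SemilinearAut`, `Divisor.correspondence`).

* `s37deg_smul_nonneg` : `0 ≤ A → 0 ≤ g • A` (degree: prelude `SemilinearAut.degree_smul`).
* `s37deg_pullbackAlong_nonneg`, `s37deg_pushforwardAlong_nonneg`,
  `s37deg_correspondence_nonneg` : `0 ≤ A → 0 ≤ ψ_* φ^* A`
  (degree: prelude `Divisor.degree_correspondence`).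
* monotonicity versions `s37deg_smul_mono`, `s37deg_correspondence_mono`.
* the two operators of the boundedness trick, as additive maps on divisors,
  `s37deg_opInertia g = g − 1` and `s37deg_opFrob g φ ψ hφ hψ ℓ = g² − (ψ_* φ^*) g + ℓ`,
  with their bounds `s37deg_opInertia_bdd` (`c = 2`) and `s37deg_opFrob_bdd`
  (`c = 1 + finrankAlong K φ + ℓ`) in exactly the shape `hbdd` of `StmtBddOfOp`
  (`ES/G2/S37PlanB.lean`).
-/

set_option autoImplicit false
set_option linter.style.haveILetI false

noncomputable section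

namespace Fermat.Agent.ES.G2

open AlgebraicCurve

/-! ### Galois translates -/

section Smul

variable {K F : Type*} [Field K] [Field F] [Algebra K F]

/-- a Galois translate of an effective divisor is effective -/
theorem s37deg_smul_nonneg (g : SemilinearAut K F) {A : Divisor K F} (hA : 0 ≤ A) :
    0 ≤ g • A := by
  intro w
  rw [SemilinearAut.divisor_smul_apply]
  exact hA _

/-- Galois translation is monotone on divisors -/
theorem s37deg_smul_mono (g : SemilinearAut K F) {A B : Divisor K F} (h : A ≤ B) :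
    g • A ≤ g • B := by
  intro w
  rw [SemilinearAut.divisor_smul_apply, SemilinearAut.divisor_smul_apply]
  exact h _

/-- Galois translation as an additive map on divisors -/
def s37deg_smulHom (g : SemilinearAut K F) : Divisor K F →+ Divisor K F :=
  DistribSMul.toAddMonoidHom (Divisor K F) g

@[simp]
theorem s37deg_smulHom_apply (g : SemilinearAut K F) (A : Divisor K F) :
    s37deg_smulHom g A = g • A := rfl

/-- the operator `g − 1` on divisors -/
def s37deg_opInertia (g : SemilinearAut K F) : Divisor K F →+ Divisor K F :=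
  s37deg_smulHom g - AddMonoidHom.id (Divisor K F)

theorem s37deg_opInertia_apply (g : SemilinearAut K F) (A : Divisor K F) :
    s37deg_opInertia g A = g • A - A := rfl

/-- the bound `hbdd` of `StmtBddOfOp` for `Θ = g − 1`, with `c = 2` and `B = A + g • A` -/
theorem s37deg_opInertia_bdd (g : SemilinearAut K F) (A : Divisor K F) (hA : 0 ≤ A) :
    ∃ B : Divisor K F, 0 ≤ B ∧ Divisor.degree B ≤ ((2 : ℕ) : ℤ) * Divisor.degree A ∧
      -B ≤ s37deg_opInertia g A ∧ s37deg_opInertia g A ≤ B := by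
  have hgA : 0 ≤ g • A := s37deg_smul_nonneg g hA
  refine ⟨A + g • A, add_nonneg hA hgA, ?_, ?_, ?_⟩
  · rw [map_add, SemilinearAut.degree_smul]
    push_cast
    omega
  · rw [s37deg_opInertia_apply]
    intro w
    have h1 := hA w
    have h2 := hgA w
    simp only [Finsupp.coe_neg, Finsupp.coe_add, Finsupp.coe_sub, Pi.neg_apply, Pi.add_apply,
      Pi.sub_apply, Finsupp.coe_zero, Pi.zero_apply] at h1 h2 ⊢
    omega
  · rw [s37deg_opInertia_apply]
    intro w
    have h1 := hA w
    have h2 := hgA w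
    simp only [Finsupp.coe_add, Finsupp.coe_sub, Pi.add_apply,
      Pi.sub_apply, Finsupp.coe_zero, Pi.zero_apply] at h1 h2 ⊢
    omega

end Smul

/-! ### Pull-back, push-forward, correspondence -/

section Corr

variable {K F F' : Type*} [Field K] [Field F] [Field F'] [Algebra K F] [Algebra K F']

/-- the pull-back of an effective divisor is effective -/
theorem s37deg_pullbackAlong_nonneg [HasPrincipalDivisors K F'] (φ : F →ₐ[K] F')
    (hφ : φ.toRingHom.IsIntegral) {A : Divisor K F} (hA : 0 ≤ A) :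
    0 ≤ Divisor.pullbackAlong φ hφ A := by
  letI := algebraAlong φ
  haveI := isScalarTower_along φ
  haveI := isIntegral_along φ hφ
  intro w
  show (0 : ℤ) ≤ Divisor.pullback F' A w
  rw [Divisor.pullback_apply]
  exact mul_nonneg (Int.natCast_nonneg _) (hA _)

/-- the push-forward of an effective divisor is effective -/
theorem s37deg_pushforwardAlong_nonneg (ψ : F →ₐ[K] F')
    (hψ : ψ.toRingHom.IsIntegral) {A : Divisor K F'} (hA : 0 ≤ A) :
    0 ≤ Divisor.pushforwardAlong ψ hψ A := by
  classical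
  letI := algebraAlong ψ
  haveI := isScalarTower_along ψ
  haveI := isIntegral_along ψ hψ
  intro v
  show (0 : ℤ) ≤ Divisor.pushforward F A v
  rw [Divisor.pushforward_apply]
  refine Finset.sum_nonneg fun w _ => ?_
  split_ifs
  · exact mul_nonneg (hA w) (Int.natCast_nonneg _)
  · exact le_rfl

/-- a correspondence `ψ_* φ^*` maps effective divisors to effective divisors -/
theorem s37deg_correspondence_nonneg [HasPrincipalDivisors K F'] (φ ψ : F →ₐ[K] F')
    (hφ : φ.toRingHom.IsIntegral) (hψ : ψ.toRingHom.IsIntegral) {A : Divisor K F}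
    (hA : 0 ≤ A) : 0 ≤ Divisor.correspondence φ ψ hφ hψ A := by
  rw [Divisor.correspondence_apply]
  exact s37deg_pushforwardAlong_nonneg ψ hψ (s37deg_pullbackAlong_nonneg φ hφ hA)

/-- a correspondence is monotone on divisors -/
theorem s37deg_correspondence_mono [HasPrincipalDivisors K F'] (φ ψ : F →ₐ[K] F')
    (hφ : φ.toRingHom.IsIntegral) (hψ : ψ.toRingHom.IsIntegral) {A B : Divisor K F}
    (h : A ≤ B) : Divisor.correspondence φ ψ hφ hψ A ≤ Divisor.correspondence φ ψ hφ hψ B := by
  have h1 : 0 ≤ Divisor.correspondence φ ψ hφ hψ (B - A) :=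
    s37deg_correspondence_nonneg φ ψ hφ hψ (sub_nonneg.mpr h)
  rw [map_sub] at h1
  exact sub_nonneg.mp h1

/-- the degree of the image of an effective divisor under a correspondence
(prelude `Divisor.degree_correspondence`, restated) -/
theorem s37deg_degree_correspondence [HasPrincipalDivisors K F'] (φ ψ : F →ₐ[K] F')
    (hφ : φ.toRingHom.IsIntegral) (hψ : ψ.toRingHom.IsIntegral)
    (hFI : FundamentalIdentityAlong K φ hφ) (A : Divisor K F) :
    Divisor.degree (Divisor.correspondence φ ψ hφ hψ A)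
      = (finrankAlong K φ : ℤ) * Divisor.degree A :=
  Divisor.degree_correspondence φ ψ hφ hψ hFI A

/-- the operator `g² − (ψ_* φ^*) g + ℓ` on divisors -/
def s37deg_opFrob [HasPrincipalDivisors K F'] (g : SemilinearAut K F) (φ ψ : F →ₐ[K] F')
    (hφ : φ.toRingHom.IsIntegral) (hψ : ψ.toRingHom.IsIntegral) (ℓ : ℕ) :
    Divisor K F →+ Divisor K F :=
  (s37deg_smulHom g).comp (s37deg_smulHom g)
    - (Divisor.correspondence φ ψ hφ hψ).comp (s37deg_smulHom g)
    + (ℓ : ℤ) • AddMonoidHom.id (Divisor K F)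

theorem s37deg_opFrob_apply [HasPrincipalDivisors K F'] (g : SemilinearAut K F)
    (φ ψ : F →ₐ[K] F') (hφ : φ.toRingHom.IsIntegral) (hψ : ψ.toRingHom.IsIntegral) (ℓ : ℕ)
    (A : Divisor K F) :
    s37deg_opFrob g φ ψ hφ hψ ℓ A
      = g • g • A - Divisor.correspondence φ ψ hφ hψ (g • A) + (ℓ : ℤ) • A := rfl

theorem s37deg_opFrob_apply_apply [HasPrincipalDivisors K F'] (g : SemilinearAut K F)
    (φ ψ : F →ₐ[K] F') (hφ : φ.toRingHom.IsIntegral) (hψ : ψ.toRingHom.IsIntegral) (ℓ : ℕ)
    (A : Divisor K F) (v : Place K F) :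
    s37deg_opFrob g φ ψ hφ hψ ℓ A v
      = (g • g • A) v - Divisor.correspondence φ ψ hφ hψ (g • A) v + (ℓ : ℤ) * A v := by
  rw [s37deg_opFrob_apply]
  simp only [Finsupp.coe_add, Finsupp.coe_sub, Pi.add_apply, Pi.sub_apply, Finsupp.coe_smul,
    Pi.smul_apply, smul_eq_mul]

/-- the bound `hbdd` of `StmtBddOfOp` for `Θ = g² − (ψ_* φ^*) g + ℓ`, with
`c = 1 + finrankAlong K φ + ℓ` and `B = g² A + (ψ_* φ^*) (g A) + ℓ A` -/
theorem s37deg_opFrob_bdd [HasPrincipalDivisors K F'] (g : SemilinearAut K F)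
    (φ ψ : F →ₐ[K] F') (hφ : φ.toRingHom.IsIntegral) (hψ : ψ.toRingHom.IsIntegral)
    (hFI : FundamentalIdentityAlong K φ hφ) (ℓ : ℕ) (A : Divisor K F) (hA : 0 ≤ A) :
    ∃ B : Divisor K F, 0 ≤ B ∧
      Divisor.degree B ≤ ((1 + finrankAlong K φ + ℓ : ℕ) : ℤ) * Divisor.degree A ∧
      -B ≤ s37deg_opFrob g φ ψ hφ hψ ℓ A ∧ s37deg_opFrob g φ ψ hφ hψ ℓ A ≤ B := by
  have hgA : 0 ≤ g • A := s37deg_smul_nonneg g hA
  have hggA : 0 ≤ g • g • A := s37deg_smul_nonneg g hgA
  have hT : 0 ≤ Divisor.correspondence φ ψ hφ hψ (g • A) :=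
    s37deg_correspondence_nonneg φ ψ hφ hψ hgA
  have hℓ : 0 ≤ (ℓ : ℤ) • A := smul_nonneg (Int.natCast_nonneg _) hA
  refine ⟨g • g • A + Divisor.correspondence φ ψ hφ hψ (g • A) + (ℓ : ℤ) • A,
    add_nonneg (add_nonneg hggA hT) hℓ, ?_, ?_, ?_⟩
  · rw [map_add, map_add, map_zsmul, SemilinearAut.degree_smul, SemilinearAut.degree_smul,
      Divisor.degree_correspondence φ ψ hφ hψ hFI, SemilinearAut.degree_smul]
    push_cast
    rw [smul_eq_mul]
    apply le_of_eq
    ring
  · rw [s37deg_opFrob_apply]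
    intro w
    have h1 := hggA w
    have h2 := hT w
    have h3 := hℓ w
    simp only [Finsupp.coe_neg, Finsupp.coe_add, Finsupp.coe_sub, Pi.neg_apply, Pi.add_apply,
      Pi.sub_apply, Finsupp.coe_zero, Pi.zero_apply] at h1 h2 h3 ⊢
    omega
  · rw [s37deg_opFrob_apply]
    intro w
    have h1 := hggA w
    have h2 := hT w
    have h3 := hℓ w
    simp only [Finsupp.coe_add, Finsupp.coe_sub, Pi.add_apply,
      Pi.sub_apply, Finsupp.coe_zero, Pi.zero_apply] at h1 h2 h3 ⊢
    omega

end Corr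

end Fermat.Agent.ES.G2
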