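import Fermat.Agent.ES.G2.Frob
import Fermat.Agent.ES.G2.S37Deg

/-!
# S37-in, piece `S37-DEG` (companions): `hne` and `hord` for the two operators

GENERIC `F / K`.  For the two additive operators of `S37Deg.lean`

* `Θ = s37deg_opInertia g` with `Θm f = (g • f) / f`,
* `Θ = s37deg_opFrob g φ ψ hφ hψ ℓ` with
  `Θm f = (g • g • f) * f ^ ℓ / FrobAux.frobNorm φ ψ (g • f)`,

the hypotheses `hne` (`f ≠ 0 → Θm f ≠ 0`) and `hord` (`div (Θm f) = Θ (div f)`) of
`StmtBddOfOp` (`ES/G2/S37PlanB.lean`), in exactly that shape.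
-/

set_option autoImplicit false
set_option linter.style.haveILetI false

noncomputable section

namespace Fermat.Agent.ES.G2

open AlgebraicCurve

section Inertia

variable {K F : Type*} [Field K] [Field F] [Algebra K F]

/-- the multiplicative companion of `g − 1` -/
def s37deg_mulInertia (g : SemilinearAut K F) (f : F) : F := (g • f) / f

theorem s37deg_mulInertia_apply (g : SemilinearAut K F) (f : F) :
    s37deg_mulInertia g f = (g • f) / f := rfl

/-- `hne` for `Θm = s37deg_mulInertia g` -/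
theorem s37deg_mulInertia_ne_zero (g : SemilinearAut K F) (f : F) (hf : f ≠ 0) :
    s37deg_mulInertia g f ≠ 0 := by
  have hgf : g • f ≠ 0 := by simpa using hf
  exact div_ne_zero hgf hf

/-- `hord` for `Θ = s37deg_opInertia g`, `Θm = s37deg_mulInertia g` -/
theorem s37deg_opInertia_ord (g : SemilinearAut K F) (D : Divisor K F) (f : F) (hf : f ≠ 0)
    (hD : ∀ v : Place K F, D v = v.ord f) (v : Place K F) :
    s37deg_opInertia g D v = v.ord (s37deg_mulInertia g f) := by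
  have hgf : g • f ≠ 0 := by simpa using hf
  rw [s37deg_opInertia_apply, s37deg_mulInertia_apply, Finsupp.sub_apply,
    FrobAux.smul_apply_of_ord g hD v, hD v, div_eq_mul_inv,
    v.ord_mul hgf (inv_ne_zero hf), v.ord_inv]
  ring

end Inertia

section Frob

variable {K F F' : Type*} [Field K] [Field F] [Field F'] [Algebra K F] [Algebra K F']

/-- the multiplicative companion of `g² − (ψ_* φ^*) g + ℓ` -/
def s37deg_mulFrob (g : SemilinearAut K F) (φ ψ : F →ₐ[K] F') (ℓ : ℕ) (f : F) : F :=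
  (g • g • f) * f ^ ℓ / FrobAux.frobNorm φ ψ (g • f)

theorem s37deg_mulFrob_apply (g : SemilinearAut K F) (φ ψ : F →ₐ[K] F') (ℓ : ℕ) (f : F) :
    s37deg_mulFrob g φ ψ ℓ f = (g • g • f) * f ^ ℓ / FrobAux.frobNorm φ ψ (g • f) := rfl

/-- `hne` for `Θm = s37deg_mulFrob g φ ψ ℓ` -/
theorem s37deg_mulFrob_ne_zero (g : SemilinearAut K F) (φ ψ : F →ₐ[K] F')
    (hfin : FiniteAlong K ψ) (ℓ : ℕ) (f : F) (hf : f ≠ 0) :
    s37deg_mulFrob g φ ψ ℓ f ≠ 0 :=
  FrobAux.frob_w_ne_zero g φ ψ hfin ℓ hf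

/-- `hord` for `Θ = s37deg_opFrob g φ ψ hφ hψ ℓ`, `Θm = s37deg_mulFrob g φ ψ ℓ` -/
theorem s37deg_opFrob_ord [HasPrincipalDivisors K F'] (g : SemilinearAut K F)
    (φ ψ : F →ₐ[K] F') (hφ : φ.toRingHom.IsIntegral) (hψ : ψ.toRingHom.IsIntegral)
    (hfin : FiniteAlong K ψ) (hN : NormFormulaAlong K ψ hfin) (ℓ : ℕ)
    (D : Divisor K F) (f : F) (hf : f ≠ 0)
    (hD : ∀ v : Place K F, D v = v.ord f) (v : Place K F) :
    s37deg_opFrob g φ ψ hφ hψ ℓ D v = v.ord (s37deg_mulFrob g φ ψ ℓ f) := by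
  have h := FrobAux.frob_ord_w g φ ψ hφ hψ hfin hN D 1 ℓ f hf
    (fun v => by rw [Nat.cast_one, one_mul, hD v]) v
  rw [Nat.cast_one, one_mul] at h
  rw [s37deg_opFrob_apply_apply, s37deg_mulFrob_apply, h]

end Frob

end Fermat.Agent.ES.G2
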