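import Fermat.Agent.ES.G2.Glue

/-!
# S37-in, piece GLUE2: the minimal kernel

Let `J` be a Hecke module with commuting Galois action, `A` a valuation ring of `L`, `φ` a Frobenius
at `A`.  Every specialization `sp` of `J` in the sense of the prelude kills
* `σ x − x` for `σ` in the inertia group `I` of `A`, and
* `Ψ x := φ² x − T_ℓ (φ x) + ℓ x`.
Let `K̄ = s37Ker` be the subgroup generated by these elements.  Then `J ⧸ K̄` with the endomorphism
induced by `φ` satisfies (R1), (R3) of `GlueInput`; so the glue inputs exist as soon as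

`(K4)`  `K̄ ∩ J[p^∞] = 0`.
-/

set_option autoImplicit false
set_option linter.unusedSectionVars false

noncomputable section

namespace Fermat.Agent.ES.G2

open ModularCurve

section Inertia

variable {K L : Type*} [Field K] [Field L] [Algebra K L]

theorem s37_mem_inertiaSubgroupIn_iff (A : ValuationSubring L) (σ : L ≃ₐ[K] L) :
    σ ∈ A.inertiaSubgroupIn K ↔ ∃ hσ : σ ∈ A.decompositionSubgroup K,
      ∀ x : IsLocalRing.ResidueField A, (⟨σ, hσ⟩ : A.decompositionSubgroup K) • x = x := by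
  unfold ValuationSubring.inertiaSubgroupIn
  rw [Subgroup.mem_map]
  constructor
  · rintro ⟨y, hy, rfl⟩
    refine ⟨y.2, fun x => ?_⟩
    have h1 : MulSemiringAction.toRingAut (A.decompositionSubgroup K)
        (IsLocalRing.ResidueField A) y = 1 := hy
    have h2 := congrArg (fun e : RingAut (IsLocalRing.ResidueField A) => e x) h1
    exact h2
  · rintro ⟨hσ, h⟩
    refine ⟨⟨σ, hσ⟩, ?_, rfl⟩
    show MulSemiringAction.toRingAut (A.decompositionSubgroup K)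
        (IsLocalRing.ResidueField A) ⟨σ, hσ⟩ = 1
    ext x
    exact h x

/-- two Frobenius elements at `A` differ by an element of the inertia group -/
theorem s37_frob_mul_inv_mem_inertia (A : ValuationSubring L) (ℓ : ℕ) {σ φ : L ≃ₐ[K] L}
    (hσ : A.IsFrobeniusAt σ ℓ) (hφ : A.IsFrobeniusAt φ ℓ) :
    σ * φ⁻¹ ∈ A.inertiaSubgroupIn K := by
  rw [s37_mem_inertiaSubgroupIn_iff]
  have hσd := hσ.mem_decompositionSubgroup
  have hφd := hφ.mem_decompositionSubgroup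
  refine ⟨(A.decompositionSubgroup K).mul_mem hσd ((A.decompositionSubgroup K).inv_mem hφd),
    fun x => ?_⟩
  have e : (⟨σ * φ⁻¹, (A.decompositionSubgroup K).mul_mem hσd
      ((A.decompositionSubgroup K).inv_mem hφd)⟩ : A.decompositionSubgroup K)
      = ⟨σ, hσd⟩ * (⟨φ, hφd⟩ : A.decompositionSubgroup K)⁻¹ := rfl
  rw [e, mul_smul]
  set y := (⟨φ, hφd⟩ : A.decompositionSubgroup K)⁻¹ • x with hy
  have hx : x = (⟨φ, hφd⟩ : A.decompositionSubgroup K) • y := by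
    rw [hy, smul_inv_smul]
  rw [hσ.smul_residue_eq y, hx, hφ.smul_residue_eq y]

/-- the inertia group is normalised by the decomposition group -/
theorem s37_conj_mem_inertia (A : ValuationSubring L) {σ φ : L ≃ₐ[K] L}
    (hσ : σ ∈ A.inertiaSubgroupIn K) (hφ : φ ∈ A.decompositionSubgroup K) :
    φ * σ * φ⁻¹ ∈ A.inertiaSubgroupIn K := by
  rw [s37_mem_inertiaSubgroupIn_iff] at hσ ⊢
  obtain ⟨hσd, hσ⟩ := hσ
  have hd : φ * σ * φ⁻¹ ∈ A.decompositionSubgroup K :=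
    (A.decompositionSubgroup K).mul_mem ((A.decompositionSubgroup K).mul_mem hφ hσd)
      ((A.decompositionSubgroup K).inv_mem hφ)
  refine ⟨hd, fun x => ?_⟩
  have e : (⟨φ * σ * φ⁻¹, hd⟩ : A.decompositionSubgroup K)
      = ⟨φ, hφ⟩ * ⟨σ, hσd⟩ * (⟨φ, hφ⟩ : A.decompositionSubgroup K)⁻¹ := rfl
  rw [e, mul_smul, mul_smul, hσ, smul_inv_smul]

end Inertia

section Kernel

variable {K L : Type*} [Field K] [Field L] [Algebra K L]
variable (p : ℕ) (J : Type) [AddCommGroup J] [Module HeckeAlg J]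
  [DistribMulAction (L ≃ₐ[K] L) J] [SMulCommClass (L ≃ₐ[K] L) HeckeAlg J]

/-- the operator `Ψ = φ² − T_ℓ φ + ℓ` -/
def s37Psi (ℓ : ℕ) (hℓ : ℓ.Prime) (φ : L ≃ₐ[K] L) (x : J) : J :=
  φ • φ • x - heckeGen ⟨ℓ, hℓ⟩ • (φ • x) + ℓ • x

/-- the generators of the minimal kernel -/
def s37Gen (A : ValuationSubring L) (ℓ : ℕ) (hℓ : ℓ.Prime) (φ : L ≃ₐ[K] L) : Set J :=
  {y | ∃ σ ∈ A.inertiaSubgroupIn K, ∃ x : J, y = σ • x - x} ∪
    {y | ∃ x : J, y = s37Psi J ℓ hℓ φ x}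

/-- the minimal kernel `K̄` -/
def s37Ker (A : ValuationSubring L) (ℓ : ℕ) (hℓ : ℓ.Prime) (φ : L ≃ₐ[K] L) : AddSubgroup J :=
  AddSubgroup.closure (s37Gen J A ℓ hℓ φ)

variable {J}

theorem s37_inertia_mem_ker (A : ValuationSubring L) (ℓ : ℕ) (hℓ : ℓ.Prime) (φ : L ≃ₐ[K] L)
    {σ : L ≃ₐ[K] L} (hσ : σ ∈ A.inertiaSubgroupIn K) (x : J) :
    σ • x - x ∈ s37Ker J A ℓ hℓ φ :=
  AddSubgroup.subset_closure (Or.inl ⟨σ, hσ, x, rfl⟩)

theorem s37_psi_mem_ker (A : ValuationSubring L) (ℓ : ℕ) (hℓ : ℓ.Prime) (φ : L ≃ₐ[K] L) (x : J) :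
    s37Psi J ℓ hℓ φ x ∈ s37Ker J A ℓ hℓ φ :=
  AddSubgroup.subset_closure (Or.inr ⟨x, rfl⟩)

theorem s37_smul_psi (ℓ : ℕ) (hℓ : ℓ.Prime) (φ : L ≃ₐ[K] L) (x : J) :
    φ • s37Psi J ℓ hℓ φ x = s37Psi J ℓ hℓ φ (φ • x) := by
  unfold s37Psi
  rw [smul_add, smul_sub, smul_comm φ (heckeGen ⟨ℓ, hℓ⟩) (φ • x), smul_comm φ ℓ x]

/-- `φ` preserves `K̄` -/
theorem s37_smul_mem_ker (A : ValuationSubring L) (ℓ : ℕ) (hℓ : ℓ.Prime) (φ : L ≃ₐ[K] L)
    (hφ : φ ∈ A.decompositionSubgroup K) {x : J} (hx : x ∈ s37Ker J A ℓ hℓ φ) :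
    φ • x ∈ s37Ker J A ℓ hℓ φ := by
  have hle : s37Ker J A ℓ hℓ φ ≤
      (s37Ker J A ℓ hℓ φ).comap (glueGal (K := K) (L := L) (J := J) φ) := by
    unfold s37Ker
    rw [AddSubgroup.closure_le]
    rintro y (⟨σ, hσ, x, rfl⟩ | ⟨x, rfl⟩)
    · show φ • (σ • x - x) ∈ AddSubgroup.closure (s37Gen J A ℓ hℓ φ)
      have e : φ • (σ • x - x) = (φ * σ * φ⁻¹) • (φ • x) - φ • x := by
        rw [smul_sub, mul_smul, mul_smul, inv_smul_smul]
      rw [e]
      exact AddSubgroup.subset_closure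
        (Or.inl ⟨φ * σ * φ⁻¹, s37_conj_mem_inertia A hσ hφ, φ • x, rfl⟩)
    · show φ • s37Psi J ℓ hℓ φ x ∈ AddSubgroup.closure (s37Gen J A ℓ hℓ φ)
      rw [s37_smul_psi]
      exact AddSubgroup.subset_closure (Or.inr ⟨φ • x, rfl⟩)
  exact hle hx

/-- **GLUE2.**  If the minimal kernel meets the `p`-power torsion trivially, the glue inputs
exist. -/
theorem glueInput_of_s37Ker (A : ValuationSubring L) (ℓ : ℕ) (hℓ : ℓ.Prime) (φ : L ≃ₐ[K] L)
    (hφ : A.IsFrobeniusAt φ ℓ)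
    (hK4 : ∀ x ∈ s37Ker J A ℓ hℓ φ, (∃ n : ℕ, p ^ n • x = 0) → x = 0) :
    ∃ (J'' : Type) (_ : AddCommGroup J'') (sp₀ : J →+ J'') (F₀ : J'' →+ J''),
      GlueInput (K := K) p J A ℓ hℓ sp₀ F₀ := by
  classical
  set Kb : AddSubgroup J := s37Ker J A ℓ hℓ φ with hKb
  have hφd := hφ.mem_decompositionSubgroup
  let Fq : (J ⧸ Kb) →+ (J ⧸ Kb) :=
    QuotientAddGroup.map Kb Kb (glueGal (K := K) (L := L) (J := J) φ)
      (fun x hx => s37_smul_mem_ker A ℓ hℓ φ hφd hx)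
  have hFq : ∀ x : J, Fq (QuotientAddGroup.mk' Kb x) = QuotientAddGroup.mk' Kb (φ • x) :=
    fun x => rfl
  have hmk : ∀ x y : J, x - y ∈ Kb → QuotientAddGroup.mk' Kb x = QuotientAddGroup.mk' Kb y := by
    intro x y h
    rw [← sub_eq_zero, ← map_sub]
    exact (QuotientAddGroup.eq_zero_iff _).mpr h
  refine ⟨J ⧸ Kb, inferInstance, QuotientAddGroup.mk' Kb, Fq, ⟨?_, ?_, ?_, ?_⟩⟩
  · -- inertia
    intro σ hσ x
    exact hmk _ _ (s37_inertia_mem_ker A ℓ hℓ φ hσ x)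
  · -- frobenius
    intro σ hσ x
    rw [hFq]
    apply hmk
    have e : σ • x - φ • x = (σ * φ⁻¹) • (φ • x) - φ • x := by
      rw [mul_smul, inv_smul_smul]
    rw [e]
    exact s37_inertia_mem_ker A ℓ hℓ φ (s37_frob_mul_inv_mem_inertia A ℓ hσ hφ) (φ • x)
  · -- injective on torsion
    intro x hx hsp
    have hxK : x ∈ Kb := (QuotientAddGroup.eq_zero_iff x).mp hsp
    exact hK4 x hxK hx
  · -- congruence
    intro x
    rw [hFq, hFq, hFq, ← map_nsmul, ← map_sub, ← map_add]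
    refine (QuotientAddGroup.eq_zero_iff _).mpr ?_
    have e : φ • φ • x - φ • (heckeGen ⟨ℓ, hℓ⟩ • x) + ℓ • x = s37Psi J ℓ hℓ φ x := by
      unfold s37Psi
      rw [smul_comm φ (heckeGen ⟨ℓ, hℓ⟩) x]
    rw [e]
    exact s37_psi_mem_ker A ℓ hℓ φ x

end Kernel

end Fermat.Agent.ES.G2
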