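import Fermat.Agent.ES.Kronecker

/-!
# S37, piece S37-INDEP (helper99's boundedness trick, step (c))

`A` a valuation subring of a field `L` with algebraically closed residue field `k`.
`x = c₀ · x₁ / x₂` with `x₁`, `x₂` primitive `A`-integral Laurent series, and
`y = c · xⁿ · (u₂ / u₁)^m` with `u₁ ≡ u₂` primitive (`y ≡ c · xⁿ` in the Gauss valuation).

* `s37_exists_congr_of_dependent` : if the `n J` elements `x^i y^j` (`i < n`, `j < J`) are
  linearly dependent over `L`, then `x₁ ≡ α x₂` modulo the maximal ideal of `A` for some `α ∈ A`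
  (`x` is Gauss-constant: its reduction `ξ = x̄₁ / x̄₂` lies in `k`).
* `s37_indep` : the contrapositive.
* `s37_indep_of_mem` : the same for elements of a subalgebra (e.g. the function field `F_N`).

Proof: a relation, cleared of denominators and scaled into `A` with one coefficient `1`, reduces
to `Σ b̄_ij ξ^(i + n j) = 0` with distinct exponents, so `ξ` is algebraic over `k`, hence in `k`.
-/

set_option autoImplicit false

noncomputable section

namespace Fermat.Agent.ES.G2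

open ModularCurve Fermat.Agent.ES Polynomial

section Indep

variable {L : Type*} [Field L] {A : ValuationSubring L}

/-- scaling a finite family, not all zero, into `A` with one coefficient equal to `1` -/
theorem s37i_exists_scale (A : ValuationSubring L) {ι : Type*} [Fintype ι] (b : ι → L) {p₀ : ι}
    (hp₀ : b p₀ ≠ 0) : ∃ (s : L) (p₁ : ι), s ≠ 0 ∧ (∀ p, s * b p ∈ A) ∧ s * b p₁ = 1 := by
  classical
  obtain ⟨p₁, -, hmax⟩ := Finset.exists_max_image Finset.univ (fun p => A.valuation (b p))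
    ⟨p₀, Finset.mem_univ _⟩
  have hb1 : b p₁ ≠ 0 := by
    intro h0
    have h1 := hmax p₀ (Finset.mem_univ _)
    simp only [h0, map_zero] at h1
    have h2 : A.valuation (b p₀) = 0 := le_antisymm h1 zero_le
    exact hp₀ ((map_eq_zero _).mp h2)
  refine ⟨(b p₁)⁻¹, p₁, inv_ne_zero hb1, fun p => ?_, inv_mul_cancel₀ hb1⟩
  rw [← ValuationSubring.valuation_le_one_iff, map_mul, map_inv₀]
  have h1 := hmax p (Finset.mem_univ _)
  have h2 : A.valuation (b p₁) ≠ 0 := by rwa [ne_eq, map_eq_zero]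
  rw [inv_mul_le_iff₀ (zero_lt_iff.mpr h2), mul_one]
  exact h1

theorem s37i_kronIncl_C (a : A) :
    kronIncl A (HahnSeries.C a) = HahnSeries.C (a : L) := by
  rw [HahnSeries.C_apply, coeffMap_single, HahnSeries.C_apply]
  rfl

theorem s37i_kronRed_C (a : A) :
    kronRed A (HahnSeries.C a) = HahnSeries.C (IsLocalRing.residue A a) := by
  rw [HahnSeries.C_apply, coeffMap_single, HahnSeries.C_apply]

/-- an element of `k((q))` satisfying a nontrivial polynomial relation with distinct exponents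
over the algebraically closed field `k` is a constant -/
theorem s37i_exists_const {k : Type*} [Field k] [IsAlgClosed k] {ι : Type*} [Fintype ι]
    (β : ι → k) (e : ι → ℕ) (he : Function.Injective e) {p₁ : ι} (hp₁ : β p₁ ≠ 0)
    (ξ : LaurentSeries k) (h : ∑ p, HahnSeries.C (β p) * ξ ^ e p = 0) :
    ∃ a : k, ξ = HahnSeries.C a := by
  classical
  set P : k[X] := ∑ p, monomial (e p) (β p) with hP
  have hP0 : P ≠ 0 := by
    intro h0
    have h1 : P.coeff (e p₁) = β p₁ := by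
      rw [hP, finsetSum_coeff]
      rw [Finset.sum_eq_single p₁]
      · rw [coeff_monomial, if_pos rfl]
      · intro p _ hp
        rw [coeff_monomial, if_neg]
        exact fun h => hp (he h)
      · intro h
        exact absurd (Finset.mem_univ _) h
    rw [h0, coeff_zero] at h1
    exact hp₁ h1.symm
  have haev : aeval ξ P = 0 := by
    rw [hP, map_sum, ← h]
    refine Finset.sum_congr rfl fun p _ => ?_
    rw [aeval_monomial, LaurentSeries.algebraMap_apply]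
  have halg : IsAlgebraic k ξ := ⟨P, hP0, haev⟩
  have hint : IsIntegral k ξ := halg.isIntegral
  have hdeg := IsAlgClosed.degree_eq_one_of_irreducible k (minpoly.irreducible hint)
  obtain ⟨a, ha⟩ := minpoly.mem_range_of_degree_eq_one k ξ hdeg
  rw [LaurentSeries.algebraMap_apply] at ha
  exact ⟨a, ha.symm⟩

/-- the exponent `i + n j` is injective on `Fin n × Fin J` -/
theorem s37i_exp_injective (n J : ℕ) :
    Function.Injective (fun p : Fin n × Fin J => (p.1 : ℕ) + n * (p.2 : ℕ)) := by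
  rintro ⟨i, j⟩ ⟨i', j'⟩ h
  simp only at h
  have hi := i.2
  have hi' := i'.2
  have hn : 0 < n := lt_of_le_of_lt (Nat.zero_le _) hi
  have h1 : ((i : ℕ) + n * (j : ℕ)) % n = ((i' : ℕ) + n * (j' : ℕ)) % n := by rw [h]
  rw [Nat.add_mul_mod_self_left, Nat.add_mul_mod_self_left, Nat.mod_eq_of_lt hi,
    Nat.mod_eq_of_lt hi'] at h1
  have h2 : n * (j : ℕ) = n * (j' : ℕ) := by omega
  have h3 : (j : ℕ) = (j' : ℕ) := Nat.eq_of_mul_eq_mul_left hn h2
  exact Prod.ext (Fin.ext h1) (Fin.ext h3)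

theorem s37i_exp_lt (n J : ℕ) (p : Fin n × Fin J) :
    (p.1 : ℕ) + n * (p.2 : ℕ) < n * J := by
  have hi := p.1.2
  have hj := p.2.2
  have h1 : n * ((p.2 : ℕ) + 1) ≤ n * J := Nat.mul_le_mul_left n hj
  rw [Nat.mul_succ] at h1
  omega

/-- clearing the denominators of `x^i y^j` -/
theorem s37i_clear {R : Type*} [CommRing R] {x y x₁ x₂ u₁ u₂ C₀ C : R} {n m : ℕ}
    (hx : x * x₂ = C₀ * x₁) (hy : y * u₁ ^ m = C * x ^ n * u₂ ^ m) (i j D J : ℕ)
    (hD : i + n * j ≤ D) (hJ : j ≤ J) :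
    x ^ i * y ^ j * (x₂ ^ D * u₁ ^ (m * J)) =
      C ^ j * C₀ ^ (i + n * j) *
        (x₁ ^ (i + n * j) * x₂ ^ (D - (i + n * j)) * (u₂ ^ (m * j) * u₁ ^ (m * (J - j)))) := by
  have h1 : y ^ j * u₁ ^ (m * j) = C ^ j * x ^ (n * j) * u₂ ^ (m * j) := by
    rw [pow_mul, ← mul_pow, hy, mul_pow, mul_pow, ← pow_mul, ← pow_mul]
  have h2 : x ^ i * x ^ (n * j) * x₂ ^ (i + n * j) = C₀ ^ (i + n * j) * x₁ ^ (i + n * j) := by
    rw [← pow_add, ← mul_pow, hx, mul_pow]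
  have h3 : x₂ ^ D = x₂ ^ (i + n * j) * x₂ ^ (D - (i + n * j)) := by
    rw [← pow_add, Nat.add_sub_cancel' hD]
  have h4 : u₁ ^ (m * J) = u₁ ^ (m * j) * u₁ ^ (m * (J - j)) := by
    rw [← pow_add, ← Nat.mul_add, Nat.add_sub_cancel' hJ]
  rw [h3, h4]
  linear_combination (x ^ i * x₂ ^ (i + n * j) * x₂ ^ (D - (i + n * j)) * u₁ ^ (m * (J - j))) * h1
    + (C ^ j * u₂ ^ (m * j) * x₂ ^ (D - (i + n * j)) * u₁ ^ (m * (J - j))) * h2

variable [IsAlgClosed (IsLocalRing.ResidueField A)]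

/-- **S37-INDEP, core.**  If the elements `x^i y^j` (`i < n`, `j < J`) are linearly dependent,
then `x = x₁ / x₂` is Gauss-constant: `x₁ ≡ α x₂` for some `α ∈ A`. -/
theorem s37_exists_congr_of_dependent {x₁ x₂ u₁ u₂ x y : LaurentSeries L} {c₀ c : L}
    {n m J : ℕ}
    (hx₁ : KronPrim A x₁) (hx₂ : KronPrim A x₂) (hu₁ : KronPrim A u₁) (hu₂ : KronPrim A u₂)
    (hu : KronCongr A u₁ u₂) (hc₀ : c₀ ≠ 0) (hc : c ≠ 0) (hx : x * x₂ = HahnSeries.C c₀ * x₁)
    (hy : y * u₁ ^ m = HahnSeries.C c * x ^ n * u₂ ^ m)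
    (hdep : ¬ LinearIndependent L
      (fun p : Fin n × Fin J => x ^ (p.1 : ℕ) * y ^ (p.2 : ℕ))) :
    ∃ α : A, KronCongr A x₁ (HahnSeries.C (α : L) * x₂) := by
  classical
  rw [Fintype.linearIndependent_iff] at hdep
  push Not at hdep
  obtain ⟨g, hg, p₀, hp₀⟩ := hdep
  -- lifts to `A`
  obtain ⟨X₁, rfl⟩ := hx₁.1.exists_lift
  obtain ⟨X₂, rfl⟩ := hx₂.1.exists_lift
  obtain ⟨U₁, rfl⟩ := hu₁.1.exists_lift
  obtain ⟨U₂, rfl⟩ := hu₂.1.exists_lift
  rw [kronPrim_kronIncl_iff] at hx₁ hx₂ hu₁ hu₂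
  rw [kronCongr_kronIncl_iff] at hu
  set D : ℕ := n * J with hD
  -- scaled coefficients
  have hb₀ : g p₀ * (c ^ (p₀.2 : ℕ) * c₀ ^ ((p₀.1 : ℕ) + n * (p₀.2 : ℕ))) ≠ 0 :=
    mul_ne_zero hp₀ (mul_ne_zero (pow_ne_zero _ hc) (pow_ne_zero _ hc₀))
  obtain ⟨s, p₁, hs, hsA, hs1⟩ :=
    s37i_exists_scale A (fun p : Fin n × Fin J =>
      g p * (c ^ (p.2 : ℕ) * c₀ ^ ((p.1 : ℕ) + n * (p.2 : ℕ)))) hb₀
  set B : Fin n × Fin J → A := fun p =>
    ⟨s * (g p * (c ^ (p.2 : ℕ) * c₀ ^ ((p.1 : ℕ) + n * (p.2 : ℕ)))), hsA p⟩ with hB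
  -- the relation over `A`
  have hrelA : ∑ p : Fin n × Fin J, HahnSeries.C (B p) *
      (X₁ ^ ((p.1 : ℕ) + n * (p.2 : ℕ)) * X₂ ^ (D - ((p.1 : ℕ) + n * (p.2 : ℕ))) *
        (U₂ ^ (m * (p.2 : ℕ)) * U₁ ^ (m * (J - (p.2 : ℕ))))) = 0 := by
    apply kronIncl_injective (A := A)
    rw [map_sum, map_zero]
    have h0 : (∑ p : Fin n × Fin J, g p • (x ^ (p.1 : ℕ) * y ^ (p.2 : ℕ))) *
        (HahnSeries.C s * (kronIncl A X₂ ^ D * kronIncl A U₁ ^ (m * J))) = 0 := by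
      rw [hg, zero_mul]
    rw [Finset.sum_mul] at h0
    rw [← h0]
    refine Finset.sum_congr rfl fun p _ => ?_
    have hcl := s37i_clear hx hy (p.1 : ℕ) (p.2 : ℕ) D J (s37i_exp_lt n J p).le p.2.2.le
    have hBp : kronIncl A (HahnSeries.C (B p)) =
        HahnSeries.C s * HahnSeries.C (g p) * (HahnSeries.C c ^ (p.2 : ℕ) *
          HahnSeries.C c₀ ^ ((p.1 : ℕ) + n * (p.2 : ℕ))) := by
      rw [s37i_kronIncl_C]
      show HahnSeries.C (s * (g p * (c ^ (p.2 : ℕ) * c₀ ^ ((p.1 : ℕ) + n * (p.2 : ℕ))))) = _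
      rw [map_mul, map_mul, map_mul, map_pow, map_pow, mul_assoc]
    rw [map_mul, hBp, ← HahnSeries.C_mul_eq_smul]
    simp only [map_mul, map_pow]
    linear_combination (-(HahnSeries.C s * HahnSeries.C (g p))) * hcl
  -- reduce
  have hrelk := congrArg (kronRed A) hrelA
  rw [map_sum, map_zero] at hrelk
  set ξ₁ := kronRed A X₁ with hξ₁
  set ξ₂ := kronRed A X₂ with hξ₂
  set υ := kronRed A U₁ with hυ
  have hrel : ∑ p : Fin n × Fin J, HahnSeries.C (IsLocalRing.residue A (B p)) *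
      (ξ₁ / ξ₂) ^ ((p.1 : ℕ) + n * (p.2 : ℕ)) = 0 := by
    have hne : ξ₂ ^ D * υ ^ (m * J) ≠ 0 := mul_ne_zero (pow_ne_zero _ hx₂) (pow_ne_zero _ hu₁)
    apply (mul_eq_zero.mp ?_).resolve_right hne
    rw [Finset.sum_mul, ← hrelk]
    refine Finset.sum_congr rfl fun p _ => ?_
    rw [map_mul, s37i_kronRed_C]
    simp only [map_mul, map_pow]
    rw [← hu, ← hξ₁, ← hξ₂, ← hυ]
    have hle : (p.1 : ℕ) + n * (p.2 : ℕ) ≤ D := (s37i_exp_lt n J p).le
    have hj : (p.2 : ℕ) ≤ J := p.2.2.le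
    have h3 : ξ₂ ^ D = ξ₂ ^ ((p.1 : ℕ) + n * (p.2 : ℕ)) *
        ξ₂ ^ (D - ((p.1 : ℕ) + n * (p.2 : ℕ))) := by
      rw [← pow_add, Nat.add_sub_cancel' hle]
    have h4 : υ ^ (m * J) = υ ^ (m * (p.2 : ℕ)) * υ ^ (m * (J - (p.2 : ℕ))) := by
      rw [← pow_add, ← Nat.mul_add, Nat.add_sub_cancel' hj]
    have h5 : (ξ₁ / ξ₂) ^ ((p.1 : ℕ) + n * (p.2 : ℕ)) * ξ₂ ^ ((p.1 : ℕ) + n * (p.2 : ℕ)) =
        ξ₁ ^ ((p.1 : ℕ) + n * (p.2 : ℕ)) := by
      rw [← mul_pow, div_mul_cancel₀ _ hx₂]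
    rw [h3, h4]
    linear_combination (HahnSeries.C (IsLocalRing.residue A (B p)) *
      ξ₂ ^ (D - ((p.1 : ℕ) + n * (p.2 : ℕ))) *
      (υ ^ (m * (p.2 : ℕ)) * υ ^ (m * (J - (p.2 : ℕ))))) * h5
  have hB1 : IsLocalRing.residue A (B p₁) ≠ 0 := by
    have : B p₁ = 1 := Subtype.ext hs1
    rw [this, map_one]
    exact one_ne_zero
  obtain ⟨a, ha⟩ := s37i_exists_const (fun p => IsLocalRing.residue A (B p))
    (fun p : Fin n × Fin J => (p.1 : ℕ) + n * (p.2 : ℕ))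
    (s37i_exp_injective n J) hB1 (ξ₁ / ξ₂) hrel
  obtain ⟨α, rfl⟩ := IsLocalRing.residue_surjective a
  refine ⟨α, ?_⟩
  rw [← s37i_kronIncl_C, ← map_mul, kronCongr_kronIncl_iff, map_mul, s37i_kronRed_C, ← ha,
    div_mul_cancel₀ _ hx₂]

/-- **S37-INDEP.**  If `x = x₁ / x₂` is not Gauss-constant, then the `n J` elements
`x^i y^j` (`i < n`, `j < J`), `y = c xⁿ (u₂/u₁)^m`, are linearly independent over `L`. -/
theorem s37_indep {x₁ x₂ u₁ u₂ x y : LaurentSeries L} {c₀ c : L} {n m : ℕ}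
    (hx₁ : KronPrim A x₁) (hx₂ : KronPrim A x₂) (hu₁ : KronPrim A u₁) (hu₂ : KronPrim A u₂)
    (hu : KronCongr A u₁ u₂) (hc₀ : c₀ ≠ 0) (hc : c ≠ 0) (hx : x * x₂ = HahnSeries.C c₀ * x₁)
    (hy : y * u₁ ^ m = HahnSeries.C c * x ^ n * u₂ ^ m)
    (hnc : ∀ α : A, ¬ KronCongr A x₁ (HahnSeries.C (α : L) * x₂)) (J : ℕ) :
    LinearIndependent L (fun p : Fin n × Fin J => x ^ (p.1 : ℕ) * y ^ (p.2 : ℕ)) := by
  by_contra hdep
  obtain ⟨α, hα⟩ := s37_exists_congr_of_dependent hx₁ hx₂ hu₁ hu₂ hu hc₀ hc hx hy hdep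
  exact hnc α hα

/-- **S37-INDEP**, for elements of an intermediate field `F ⊂ L((q))` (e.g. `F_N`). -/
theorem s37_indep_of_mem (F : IntermediateField L (LaurentSeries L))
    {x₁ x₂ u₁ u₂ : LaurentSeries L} {x y : F} {c₀ c : L} {n m : ℕ}
    (hx₁ : KronPrim A x₁) (hx₂ : KronPrim A x₂) (hu₁ : KronPrim A u₁) (hu₂ : KronPrim A u₂)
    (hu : KronCongr A u₁ u₂) (hc₀ : c₀ ≠ 0) (hc : c ≠ 0)
    (hx : (x : LaurentSeries L) * x₂ = HahnSeries.C c₀ * x₁)
    (hy : (y : LaurentSeries L) * u₁ ^ m = HahnSeries.C c * (x : LaurentSeries L) ^ n * u₂ ^ m)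
    (hnc : ∀ α : A, ¬ KronCongr A x₁ (HahnSeries.C (α : L) * x₂)) (J : ℕ) :
    LinearIndependent L (fun p : Fin n × Fin J => x ^ (p.1 : ℕ) * y ^ (p.2 : ℕ)) := by
  have h := s37_indep hx₁ hx₂ hu₁ hu₂ hu hc₀ hc hx hy hnc J
  rw [Fintype.linearIndependent_iff] at h ⊢
  intro g hg
  apply h g
  have h1 : ((∑ p : Fin n × Fin J, g p • (x ^ (p.1 : ℕ) * y ^ (p.2 : ℕ)) : F) :
      LaurentSeries L) = 0 := by
    rw [hg]
    rfl
  rw [← h1, AddSubmonoidClass.coe_finsetSum]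
  refine Finset.sum_congr rfl fun p _ => ?_
  rw [Algebra.smul_def, ← HahnSeries.C_mul_eq_smul, ← LaurentSeries.algebraMap_apply]
  rfl

omit [IsAlgClosed (IsLocalRing.ResidueField A)] in
/-- if `x₁ ≡ α x₂` with `x₁` primitive and `x₂` integral, then `α` is a unit of `A` and
`α x₂` is primitive: `x₁ / (α x₂)` reduces to one. -/
theorem s37i_unit_of_congr {x₁ x₂ : LaurentSeries L} (hx₁ : KronPrim A x₁) (hx₂ : KronInt A x₂)
    {α : A} (h : KronCongr A x₁ (HahnSeries.C (α : L) * x₂)) :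
    IsUnit α ∧ KronPrim A (HahnSeries.C (α : L) * x₂) := by
  obtain ⟨X₁, rfl⟩ := hx₁.1.exists_lift
  obtain ⟨X₂, rfl⟩ := hx₂.exists_lift
  rw [← s37i_kronIncl_C, ← map_mul, kronCongr_kronIncl_iff, map_mul, s37i_kronRed_C] at h
  rw [kronPrim_kronIncl_iff] at hx₁
  rw [← s37i_kronIncl_C, ← map_mul, kronPrim_kronIncl_iff, map_mul, s37i_kronRed_C, ← h]
  refine ⟨?_, hx₁⟩
  by_contra hα
  have h0 : IsLocalRing.residue A α = 0 := by
    rw [IsLocalRing.residue_eq_zero_iff]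
    exact hα
  rw [h0, map_zero, zero_mul] at h
  exact hx₁ h

end Indep

end Fermat.Agent.ES.G2
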