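import Fermat.Agent.ES.G2.S37Plan
import Fermat.Agent.ES.G2.S37Indep
import Fermat.Agent.RED.ResField

/-!
# S37, piece S37-INDEP: `stmtGCIndep : StmtGCIndep`

If `x ∈ F_N` is not Gauss-constant at `A` and `y ≡ c · x ^ n` (i.e. `y / x ^ n` is
Gauss-constant), then the `n J` functions `x ^ i y ^ j` (`i < n`, `j < J`) are linearly
independent over `ℚ̄`.  Generic core: `ES/G2/S37Indep.lean`.
-/

set_option autoImplicit false

noncomputable section

namespace Fermat.Agent.ES.G2

open ModularCurve AlgebraicCurve Fermat.Agent.ES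

/-- the coercion of a constant of `F_N` to `ℚ̄((q))` -/
theorem s37i_coe_algebraMap (N : ℕ) [NeZero N] (c : Qb) :
    ((algebraMap Qb (modularFunctionFieldBar N) c : modularFunctionFieldBar N) :
      LaurentSeries Qb) = HahnSeries.C c := by
  rw [← LaurentSeries.algebraMap_apply]
  rfl

/-- **S37-INDEP.** -/
theorem stmtGCIndep : StmtGCIndep := by
  intro hPrim N _ ℓ hℓ A hA x y hx0 hy0 hxnc n hn hy J
  have : IsAlgClosed (IsLocalRing.ResidueField A) := Fermat.Agent.RED.isAlgClosed_residueField A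
  obtain ⟨c₀, x₁, x₂, hc₀, hx₁m, hx₂m, hx₁, hx₂, hxeq⟩ := hPrim N ℓ hℓ A hA x hx0
  obtain ⟨c, hc, u₂, u₁, hu₂m, hu₁m, hu₂, hu₁, hu, hyeq⟩ := hy
  have hx0' : (x : LaurentSeries Qb) ≠ 0 := fun h => hx0 (Subtype.ext h)
  refine s37_indep_of_mem (modularFunctionFieldBar N) hx₁ hx₂ hu₁ hu₂ hu.symm hc₀
    (inv_ne_zero hc) hxeq (m := 1) (n := n) ?_ ?_ J
  · -- `y u₁ = c⁻¹ xⁿ u₂`
    rw [pow_one, pow_one]
    have h1 : ((algebraMap Qb (modularFunctionFieldBar N) c * (y / x ^ n) :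
        modularFunctionFieldBar N) : LaurentSeries Qb)
        = HahnSeries.C c * ((y : LaurentSeries Qb) / (x : LaurentSeries Qb) ^ n) := by
      rw [← s37i_coe_algebraMap N c]
      rfl
    rw [h1] at hyeq
    have hC : (HahnSeries.C c⁻¹ : LaurentSeries Qb) * HahnSeries.C c = 1 := by
      rw [← map_mul, inv_mul_cancel₀ hc, map_one]
    have hxn : (x : LaurentSeries Qb) ^ n ≠ 0 := pow_ne_zero n hx0'
    rw [← hyeq]
    calc (y : LaurentSeries Qb) * u₁
        = (HahnSeries.C c⁻¹ * HahnSeries.C c) *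
            ((y : LaurentSeries Qb) / (x : LaurentSeries Qb) ^ n * (x : LaurentSeries Qb) ^ n) *
              u₁ := by
          rw [hC, one_mul, div_mul_cancel₀ _ hxn]
      _ = HahnSeries.C c⁻¹ * (x : LaurentSeries Qb) ^ n *
            (HahnSeries.C c * ((y : LaurentSeries Qb) / (x : LaurentSeries Qb) ^ n) * u₁) := by
          ring
  · -- `x` is not Gauss-constant
    intro α hα
    apply hxnc
    obtain ⟨hαu, hαp⟩ := s37i_unit_of_congr hx₁ hx₂.1 hα
    have hα0 : (α : Qb) ≠ 0 := by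
      intro h0
      have : α = 0 := Subtype.ext h0
      rw [this] at hαu
      exact not_isUnit_zero hαu
    refine ⟨((α : Qb) * c₀)⁻¹, inv_ne_zero (mul_ne_zero hα0 hc₀), x₁,
      HahnSeries.C (α : Qb) * x₂, hx₁m, ?_, hx₁, hαp, hα, ?_⟩
    · rw [← s37i_coe_algebraMap N (α : Qb)]
      exact mul_mem (SetLike.coe_mem _) hx₂m
    · have h1 : ((algebraMap Qb (modularFunctionFieldBar N) ((α : Qb) * c₀)⁻¹ * x :
          modularFunctionFieldBar N) : LaurentSeries Qb)
          = HahnSeries.C ((α : Qb) * c₀)⁻¹ * (x : LaurentSeries Qb) := by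
        rw [← s37i_coe_algebraMap N ((α : Qb) * c₀)⁻¹]
        rfl
      rw [h1]
      have hC : (HahnSeries.C ((α : Qb) * c₀)⁻¹ : LaurentSeries Qb) *
          (HahnSeries.C (α : Qb) * HahnSeries.C c₀) = 1 := by
        rw [← map_mul, ← map_mul, inv_mul_cancel₀ (mul_ne_zero hα0 hc₀), map_one]
      calc HahnSeries.C ((α : Qb) * c₀)⁻¹ * (x : LaurentSeries Qb) *
            (HahnSeries.C (α : Qb) * x₂)
          = HahnSeries.C ((α : Qb) * c₀)⁻¹ * HahnSeries.C (α : Qb) *
              ((x : LaurentSeries Qb) * x₂) := by ring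
        _ = (HahnSeries.C ((α : Qb) * c₀)⁻¹ * (HahnSeries.C (α : Qb) * HahnSeries.C c₀)) *
              x₁ := by rw [hxeq]; ring
        _ = x₁ := by rw [hC, one_mul]

end Fermat.Agent.ES.G2
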