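import Fermat.Agent.ES.G2.S37Plan

/-!
# ES / G2 (item 37), piece `S37-KRON`: Kronecker's congruences for ARBITRARY functions

For every `f ∈ F_N^×` (no hypothesis on its divisor):

* `stmtGCInertia : StmtGCInertia` : `σ f / f` is Gauss-constant for `σ` in the inertia group of `A`;
* `stmtGCFrob : StmtGCFrob` : `Ψ^mult f := τ² f · f^ℓ / N_α(β(τ f))` is Gauss-constant for every
  Frobenius element `τ` at `A` (`ℓ ∤ N`).

Also the calculus `ReducesToOne.one/.mul/.inv/.div/.pow/.ne_zero`,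
`GaussConst.of_reducesToOne/.const/.one/.mul/.inv/.div/.pow/.ne_zero/.const_mul/.list_prod`,
`gaussConst_iff`, and the multiplicativity of the operators `gcInertiaOp`, `gcFrobOp`.
These are step (a) of the boundedness trick (helper99) for S37.
-/

set_option autoImplicit false
set_option linter.style.haveILetI false

noncomputable section

namespace Fermat.Agent.ES.G2

open ModularCurve AlgebraicCurve Fermat.Agent.ES HahnSeries FrobAux

/-- the constant series `1` is primitive -/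
theorem s37Kron_kronPrim_one {L : Type*} [Field L] {A : ValuationSubring L} :
    KronPrim A (1 : LaurentSeries L) := by
  have h := (kronPrim_kronIncl_iff (A := A) (1 : LaurentSeries A)).mpr
    (by rw [map_one]; exact one_ne_zero)
  rwa [map_one] at h

section Calculus

variable {A : ValuationSubring Qb} {N : ℕ} [NeZero N]

theorem ReducesToOne.one : ReducesToOne A N (1 : modularFunctionFieldBar N) :=
  ⟨1, 1, one_mem _, one_mem _, s37Kron_kronPrim_one, s37Kron_kronPrim_one, KronCongr.refl _,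
    by
      show (1 : LaurentSeries Qb) * 1 = 1
      rw [mul_one]⟩

theorem ReducesToOne.ne_zero {u : modularFunctionFieldBar N} (hu : ReducesToOne A N u) :
    u ≠ 0 := by
  obtain ⟨y₁, y₂, -, -, hp₁, -, -, he⟩ := hu
  rintro rfl
  apply frob_ne_zero_of_kronPrim hp₁
  rw [← he]
  show (0 : LaurentSeries Qb) * y₂ = 0
  rw [zero_mul]

theorem ReducesToOne.mul {u v : modularFunctionFieldBar N} (hu : ReducesToOne A N u)
    (hv : ReducesToOne A N v) : ReducesToOne A N (u * v) := by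
  obtain ⟨y₁, y₂, hy₁, hy₂, hp₁, hp₂, hc, he⟩ := hu
  obtain ⟨z₁, z₂, hz₁, hz₂, hq₁, hq₂, hd, hf⟩ := hv
  refine ⟨y₁ * z₁, y₂ * z₂, mul_mem hy₁ hz₁, mul_mem hy₂ hz₂, hp₁.mul hq₁, hp₂.mul hq₂,
    KronCongr.mul hp₁.1 hp₂.1 hq₁.1 hq₂.1 hc hd, ?_⟩
  show ((u : LaurentSeries Qb) * (v : LaurentSeries Qb)) * (y₂ * z₂) = y₁ * z₁
  rw [← he, ← hf]
  ring

theorem ReducesToOne.inv {u : modularFunctionFieldBar N} (hu : ReducesToOne A N u) :
    ReducesToOne A N u⁻¹ := by
  have hu0 := hu.ne_zero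
  obtain ⟨y₁, y₂, hy₁, hy₂, hp₁, hp₂, hc, he⟩ := hu
  refine ⟨y₂, y₁, hy₂, hy₁, hp₂, hp₁, hc.symm, ?_⟩
  have e : u * (⟨y₂, hy₂⟩ : modularFunctionFieldBar N) = ⟨y₁, hy₁⟩ := Subtype.ext he
  have e' : u⁻¹ * (⟨y₁, hy₁⟩ : modularFunctionFieldBar N) = ⟨y₂, hy₂⟩ := by
    rw [← e, ← mul_assoc, inv_mul_cancel₀ hu0, one_mul]
  exact congrArg Subtype.val e'

theorem ReducesToOne.div {u v : modularFunctionFieldBar N} (hu : ReducesToOne A N u)
    (hv : ReducesToOne A N v) : ReducesToOne A N (u / v) := by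
  rw [div_eq_mul_inv]
  exact hu.mul hv.inv

theorem ReducesToOne.pow {u : modularFunctionFieldBar N} (hu : ReducesToOne A N u) (n : ℕ) :
    ReducesToOne A N (u ^ n) := by
  induction n with
  | zero => rw [pow_zero]; exact ReducesToOne.one
  | succ n ih => rw [pow_succ]; exact ih.mul hu

/-- `GaussConst` in the form `u = c · u₁`, `u₁ ≡ 1` -/
theorem gaussConst_iff {u : modularFunctionFieldBar N} :
    GaussConst A N u ↔ ∃ (c : Qb) (u₁ : modularFunctionFieldBar N), c ≠ 0 ∧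
      ReducesToOne A N u₁ ∧ u = algebraMap Qb (modularFunctionFieldBar N) c * u₁ := by
  constructor
  · rintro ⟨c, hc, h⟩
    refine ⟨c⁻¹, _, inv_ne_zero hc, h, ?_⟩
    rw [← mul_assoc, ← map_mul, inv_mul_cancel₀ hc, map_one, one_mul]
  · rintro ⟨c, u₁, hc, h, rfl⟩
    refine ⟨c⁻¹, inv_ne_zero hc, ?_⟩
    rw [← mul_assoc, ← map_mul, inv_mul_cancel₀ hc, map_one, one_mul]
    exact h

theorem GaussConst.of_reducesToOne {u : modularFunctionFieldBar N} (h : ReducesToOne A N u) :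
    GaussConst A N u :=
  ⟨1, one_ne_zero, by rw [map_one, one_mul]; exact h⟩

theorem GaussConst.const {c : Qb} (hc : c ≠ 0) :
    GaussConst A N (algebraMap Qb (modularFunctionFieldBar N) c) :=
  ⟨c⁻¹, inv_ne_zero hc, by
    rw [← map_mul, inv_mul_cancel₀ hc, map_one]
    exact ReducesToOne.one⟩

theorem GaussConst.one : GaussConst A N (1 : modularFunctionFieldBar N) :=
  GaussConst.of_reducesToOne ReducesToOne.one

theorem GaussConst.ne_zero {u : modularFunctionFieldBar N} (hu : GaussConst A N u) : u ≠ 0 := by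
  obtain ⟨c, -, h⟩ := hu
  exact right_ne_zero_of_mul h.ne_zero

theorem GaussConst.mul {u v : modularFunctionFieldBar N} (hu : GaussConst A N u)
    (hv : GaussConst A N v) : GaussConst A N (u * v) := by
  obtain ⟨c, hc, h⟩ := hu
  obtain ⟨d, hd, h'⟩ := hv
  refine ⟨c * d, mul_ne_zero hc hd, ?_⟩
  have e : algebraMap Qb (modularFunctionFieldBar N) (c * d) * (u * v) =
      (algebraMap Qb (modularFunctionFieldBar N) c * u) *
        (algebraMap Qb (modularFunctionFieldBar N) d * v) := by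
    rw [map_mul]; ring
  rw [e]
  exact h.mul h'

theorem GaussConst.inv {u : modularFunctionFieldBar N} (hu : GaussConst A N u) :
    GaussConst A N u⁻¹ := by
  obtain ⟨c, hc, h⟩ := hu
  refine ⟨c⁻¹, inv_ne_zero hc, ?_⟩
  have e : algebraMap Qb (modularFunctionFieldBar N) c⁻¹ * u⁻¹ =
      (algebraMap Qb (modularFunctionFieldBar N) c * u)⁻¹ := by
    rw [map_inv₀, mul_inv]
  rw [e]
  exact h.inv

theorem GaussConst.div {u v : modularFunctionFieldBar N} (hu : GaussConst A N u)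
    (hv : GaussConst A N v) : GaussConst A N (u / v) := by
  rw [div_eq_mul_inv]
  exact hu.mul hv.inv

theorem GaussConst.pow {u : modularFunctionFieldBar N} (hu : GaussConst A N u) (n : ℕ) :
    GaussConst A N (u ^ n) := by
  induction n with
  | zero => rw [pow_zero]; exact GaussConst.one
  | succ n ih => rw [pow_succ]; exact ih.mul hu

theorem GaussConst.const_mul {c : Qb} (hc : c ≠ 0) {u : modularFunctionFieldBar N}
    (hu : GaussConst A N u) :
    GaussConst A N (algebraMap Qb (modularFunctionFieldBar N) c * u) :=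
  (GaussConst.const hc).mul hu

theorem GaussConst.list_prod {l : List (modularFunctionFieldBar N)}
    (h : ∀ u ∈ l, GaussConst A N u) : GaussConst A N l.prod := by
  induction l with
  | nil => rw [List.prod_nil]; exact GaussConst.one
  | cons a l ih =>
    rw [List.prod_cons]
    exact (h a (List.mem_cons_self)).mul (ih fun u hu => h u (List.mem_cons_of_mem _ hu))

theorem GaussConst.finset_prod {ι : Type*} (s : Finset ι) (u : ι → modularFunctionFieldBar N)
    (h : ∀ i ∈ s, GaussConst A N (u i)) : GaussConst A N (∏ i ∈ s, u i) := by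
  classical
  induction s using Finset.induction_on with
  | empty => rw [Finset.prod_empty]; exact GaussConst.one
  | insert a s ha ih =>
    rw [Finset.prod_insert ha]
    exact (h a (Finset.mem_insert_self a s)).mul
      (ih fun i hi => h i (Finset.mem_insert_of_mem hi))

end Calculus

/-! ### The operators are multiplicative -/

section Generic

variable {K F F' : Type*} [Field K] [Field F] [Field F'] [Algebra K F] [Algebra K F']

/-- the norm along `ψ` of a constant -/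
theorem s37Kron_frobNorm_algebraMap (φ ψ : F →ₐ[K] F') (c : K) :
    frobNorm φ ψ (algebraMap K F c) =
      algebraMap K F c ^ (letI := ψ.toRingHom.toAlgebra; Module.finrank F F') := by
  letI := ψ.toRingHom.toAlgebra
  show Algebra.norm F (φ (algebraMap K F c)) = _
  have h : φ (algebraMap K F c) = algebraMap F F' (algebraMap K F c) := by
    rw [AlgHom.commutes]
    exact (ψ.commutes c).symm
  rw [h, Algebra.norm_algebraMap]

/-- `Ψ^mult` is multiplicative -/
theorem s37Kron_w_mul (g : SemilinearAut K F) (φ ψ : F →ₐ[K] F') (ℓ : ℕ) (a b : F) :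
    (g • g • (a * b)) * (a * b) ^ ℓ / frobNorm φ ψ (g • (a * b)) =
      ((g • g • a) * a ^ ℓ / frobNorm φ ψ (g • a)) *
        ((g • g • b) * b ^ ℓ / frobNorm φ ψ (g • b)) := by
  have h1 : g • (a * b) = g • a * g • b := smul_mul' g a b
  have h2 : g • g • (a * b) = (g • g • a) * (g • g • b) := by
    rw [h1]
    exact smul_mul' g _ _
  have h3 : frobNorm φ ψ (g • (a * b)) = frobNorm φ ψ (g • a) * frobNorm φ ψ (g • b) := by
    rw [h1]
    exact frobNorm_mul _ _ _ _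
  rw [h3, h2, mul_pow, mul_mul_mul_comm, mul_div_mul_comm]

/-- `Ψ^mult` of a constant is a constant -/
theorem s37Kron_w_algebraMap (g : SemilinearAut K F) (φ ψ : F →ₐ[K] F') (ℓ : ℕ) (c : K) :
    ∃ d : K, (g • g • algebraMap K F c) * algebraMap K F c ^ ℓ /
        frobNorm φ ψ (g • algebraMap K F c) = algebraMap K F d ∧ (c ≠ 0 → d ≠ 0) := by
  obtain ⟨b, hb⟩ : ∃ b : K ≃+* K, b = SemilinearAut.baseAut g := ⟨_, rfl⟩
  obtain ⟨e, he⟩ : ∃ e : ℕ, e = (letI := ψ.toRingHom.toAlgebra; Module.finrank F F') :=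
    ⟨_, rfl⟩
  have h1 : g • algebraMap K F c = algebraMap K F (b c) := by
    rw [hb]
    exact SemilinearAut.smul_algebraMap g c
  have h2 : g • g • algebraMap K F c = algebraMap K F (b (b c)) := by
    rw [h1, hb]
    exact SemilinearAut.smul_algebraMap g _
  have h3 : frobNorm φ ψ (algebraMap K F (b c)) = algebraMap K F (b c) ^ e := by
    rw [he]
    exact s37Kron_frobNorm_algebraMap φ ψ (b c)
  refine ⟨b (b c) * c ^ ℓ / (b c) ^ e, ?_, ?_⟩
  · rw [h2, h1, h3, map_div₀, map_mul, map_pow, map_pow]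
  · intro hc
    have hbc : b c ≠ 0 := (map_ne_zero _).mpr hc
    exact div_ne_zero (mul_ne_zero ((map_ne_zero _).mpr hbc) (pow_ne_zero _ hc))
      (pow_ne_zero _ hbc)

/-- `σ f / f` is multiplicative -/
theorem s37Kron_i_mul (g : SemilinearAut K F) (a b : F) :
    (g • (a * b)) / (a * b) = ((g • a) / a) * ((g • b) / b) := by
  rw [smul_mul', mul_div_mul_comm]

/-- `σ c / c` is a constant -/
theorem s37Kron_i_algebraMap (g : SemilinearAut K F) (c : K) :
    ∃ d : K, (g • algebraMap K F c) / algebraMap K F c = algebraMap K F d ∧ (c ≠ 0 → d ≠ 0) := by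
  refine ⟨SemilinearAut.baseAut g c / c, ?_, ?_⟩
  · rw [SemilinearAut.smul_algebraMap, map_div₀]
  · intro hc
    exact div_ne_zero ((map_ne_zero _).mpr hc) hc

end Generic

section Ops

variable {N : ℕ} [NeZero N]

theorem gcInertiaOp_mul (σ : Qb ≃ₐ[ℚ] Qb) (a b : modularFunctionFieldBar N) :
    gcInertiaOp N σ (a * b) = gcInertiaOp N σ a * gcInertiaOp N σ b :=
  s37Kron_i_mul (arithmeticGalois (modularFunctionFieldFull N) σ) a b

theorem gcInertiaOp_algebraMap (σ : Qb ≃ₐ[ℚ] Qb) (c : Qb) :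
    ∃ d : Qb, gcInertiaOp N σ (algebraMap Qb (modularFunctionFieldBar N) c) =
      algebraMap Qb (modularFunctionFieldBar N) d ∧ (c ≠ 0 → d ≠ 0) :=
  s37Kron_i_algebraMap (arithmeticGalois (modularFunctionFieldFull N) σ) c

theorem gcFrobOp_mul (ℓ : ℕ) [NeZero ℓ] (τ : Qb ≃ₐ[ℚ] Qb) (a b : modularFunctionFieldBar N) :
    gcFrobOp N ℓ τ (a * b) = gcFrobOp N ℓ τ a * gcFrobOp N ℓ τ b :=
  s37Kron_w_mul (arithmeticGalois (modularFunctionFieldFull N) τ)
    (heckeBetaBar Qb N ℓ) (heckeAlphaBar Qb N ℓ) ℓ a b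

theorem gcFrobOp_algebraMap (ℓ : ℕ) [NeZero ℓ] (τ : Qb ≃ₐ[ℚ] Qb) (c : Qb) :
    ∃ d : Qb, gcFrobOp N ℓ τ (algebraMap Qb (modularFunctionFieldBar N) c) =
      algebraMap Qb (modularFunctionFieldBar N) d ∧ (c ≠ 0 → d ≠ 0) :=
  s37Kron_w_algebraMap (arithmeticGalois (modularFunctionFieldFull N) τ)
    (heckeBetaBar Qb N ℓ) (heckeAlphaBar Qb N ℓ) ℓ c

end Ops

/-! ### The two Kronecker congruences -/

section Main

variable {N : ℕ} [NeZero N] {A : ValuationSubring Qb}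

/-- a multiplicative operator which maps constants to constants and primitive series to
functions reducing to one maps every nonzero function to a Gauss-constant function -/
theorem s37Kron_gaussConst_of_mul (hPrim : StmtPrim) {ℓ : ℕ} (hℓ : ℓ.Prime)
    (hA : A.LiesOverPrime ℓ)
    (Op : modularFunctionFieldBar N → modularFunctionFieldBar N)
    (hmul : ∀ a b, Op (a * b) = Op a * Op b)
    (hconst : ∀ c : Qb, ∃ d : Qb, Op (algebraMap Qb (modularFunctionFieldBar N) c) =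
      algebraMap Qb (modularFunctionFieldBar N) d ∧ (c ≠ 0 → d ≠ 0))
    (hprim : ∀ (y : LaurentSeries Qb) (hy : y ∈ modularFunctionFieldBar N), KronPrim A y →
      ReducesToOne A N (Op ⟨y, hy⟩))
    (f : modularFunctionFieldBar N) (hf : f ≠ 0) : GaussConst A N (Op f) := by
  obtain ⟨c, y₁, y₂, hc, hy₁, hy₂, hP₁, hP₂, he⟩ := hPrim N ℓ hℓ A hA f hf
  have h1 := hprim y₁ hy₁ hP₁
  have h2 := hprim y₂ hy₂ hP₂
  obtain ⟨Y₁, hY₁⟩ : ∃ Y₁ : modularFunctionFieldBar N, Y₁ = ⟨y₁, hy₁⟩ := ⟨_, rfl⟩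
  obtain ⟨Y₂, hY₂⟩ : ∃ Y₂ : modularFunctionFieldBar N, Y₂ = ⟨y₂, hy₂⟩ := ⟨_, rfl⟩
  rw [← hY₁] at h1
  rw [← hY₂] at h2
  have heF : f * Y₂ = algebraMap Qb (modularFunctionFieldBar N) c * Y₁ := by
    apply Subtype.ext
    show (f : LaurentSeries Qb) * (Y₂ : LaurentSeries Qb)
      = algebraMap Qb (LaurentSeries Qb) c * (Y₁ : LaurentSeries Qb)
    rw [hY₁, hY₂]
    show (f : LaurentSeries Qb) * y₂ = algebraMap Qb (LaurentSeries Qb) c * y₁
    rw [he, ModularCurve.algebraMap_laurentSeries_eq_single]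
    rfl
  obtain ⟨d, hd, hd0⟩ := hconst c
  have hm : Op f * Op Y₂ = algebraMap Qb (modularFunctionFieldBar N) d * Op Y₁ := by
    rw [← hmul, heF, hmul, hd]
  have hfin : Op f = algebraMap Qb (modularFunctionFieldBar N) d * (Op Y₁ / Op Y₂) := by
    rw [mul_div_assoc', ← hm, mul_div_cancel_right₀ _ h2.ne_zero]
  rw [hfin]
  exact GaussConst.const_mul (hd0 hc) (GaussConst.of_reducesToOne (h1.div h2))

/-- inertia: `σ Y / Y ≡ 1` for a primitive `Y` -/
theorem s37Kron_inertia_prim {σ : Qb ≃ₐ[ℚ] Qb} (hσ : σ ∈ A.inertiaSubgroupIn ℚ)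
    {y : LaurentSeries Qb} (hy : y ∈ modularFunctionFieldBar N) (hP : KronPrim A y) :
    ReducesToOne A N (gcInertiaOp N σ ⟨y, hy⟩) := by
  have hσdec : σ ∈ A.decompositionSubgroup ℚ := kron_mem_decomposition_of_mem_inertia hσ
  have hY0 : (⟨y, hy⟩ : modularFunctionFieldBar N) ≠ 0 :=
    fun h => frob_ne_zero_of_kronPrim hP (congrArg Subtype.val h)
  refine ⟨coeffMap (σ : Qb →+* Qb) y, y, coeffMap_mem_laurentBaseChange σ hy, hy,
    hP.coeffMap_of_mem_decomposition σ hσdec, hP, kron_inertia_congr hσ hP.1, ?_⟩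
  have e : gcInertiaOp N σ ⟨y, hy⟩ * (⟨y, hy⟩ : modularFunctionFieldBar N) =
      arithmeticGalois (modularFunctionFieldFull N) σ • (⟨y, hy⟩ : modularFunctionFieldBar N) :=
    div_mul_cancel₀ _ hY0
  exact congrArg Subtype.val e

/-- **piece `S37-KRON (a)`.** -/
theorem stmtGCInertia : StmtGCInertia := by
  intro hPrim N _ ℓ hℓ A hA σ hσ f hf
  exact s37Kron_gaussConst_of_mul hPrim hℓ hA (gcInertiaOp N σ) (gcInertiaOp_mul σ)
    (gcInertiaOp_algebraMap σ) (fun y hy hP => s37Kron_inertia_prim hσ hy hP) f hf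

/-- Frobenius: `τ² Y · Y^ℓ / N_α(β(τ Y)) ≡ 1` for a primitive `Y` -/
theorem s37Kron_frob_prim (hHN : StmtHeckeNorm) {ℓ : ℕ} [NeZero ℓ] (hℓ : ℓ.Prime)
    (hℓN : ¬ ℓ ∣ N) (hA : A.LiesOverPrime ℓ) {τ : Qb ≃ₐ[ℚ] Qb} (hτ : A.IsFrobeniusAt τ ℓ)
    {y : LaurentSeries Qb} (hy : y ∈ modularFunctionFieldBar N) (hP : KronPrim A y) :
    ReducesToOne A N (gcFrobOp N ℓ τ ⟨y, hy⟩) := by
  obtain ⟨ζ, hζ⟩ := frob_exists_primitiveRoot ℓ hℓ.ne_zero
  have hζ1 : ζ ^ ℓ = 1 := hζ.pow_eq_one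
  obtain ⟨Y, hYs⟩ : ∃ Y : modularFunctionFieldBar N, (Y : LaurentSeries Qb) = y :=
    ⟨⟨y, hy⟩, rfl⟩
  have hYe : (⟨y, hy⟩ : modularFunctionFieldBar N) = Y := Subtype.ext hYs.symm
  rw [hYe]
  have hY0 : Y ≠ 0 := by
    intro h
    apply frob_ne_zero_of_kronPrim hP
    rw [← hYs, h]
    rfl
  obtain ⟨g, hg⟩ : ∃ g : SemilinearAut Qb (modularFunctionFieldBar N),
      g = arithmeticGalois (modularFunctionFieldFull N) τ := ⟨_, rfl⟩
  have hgs : ∀ v : modularFunctionFieldBar N,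
      ((g • v : modularFunctionFieldBar N) : LaurentSeries Qb)
        = coeffMap (τ : Qb →+* Qb) (v : LaurentSeries Qb) := by
    intro v
    rw [hg]
    rfl
  have hHN' : ∀ v : modularFunctionFieldBar N,
      ((frobNorm (heckeBetaBar Qb N ℓ) (heckeAlphaBar Qb N ℓ) v : modularFunctionFieldBar N) :
        LaurentSeries Qb) = kronHecke ℓ ζ (v : LaurentSeries Qb) :=
    fun v => hHN N ℓ hℓ hℓN ζ hζ v
  obtain ⟨n₁, hn₁⟩ : ∃ n₁ : modularFunctionFieldBar N,
      n₁ = frobNorm (heckeBetaBar Qb N ℓ) (heckeAlphaBar Qb N ℓ) (g • Y) := ⟨_, rfl⟩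
  have hn₁s : (n₁ : LaurentSeries Qb) = kronHecke ℓ ζ (coeffMap (τ : Qb →+* Qb) y) := by
    rw [hn₁, hHN', hgs, hYs]
  have hn₁0 : n₁ ≠ 0 :=
    hn₁ ▸ frobNorm_ne_zero _ _ (Fermat.Agent.ES.H.finiteAlong_heckeAlphaBar N ℓ)
      (by simpa using hY0)
  obtain ⟨a₁, ha₁⟩ : ∃ a₁ : modularFunctionFieldBar N, a₁ = g • g • Y := ⟨_, rfl⟩
  have ha₁s : (a₁ : LaurentSeries Qb)
      = coeffMap (τ : Qb →+* Qb) (coeffMap (τ : Qb →+* Qb) y) := by
    rw [ha₁, hgs, hgs, hYs]
  have hw : gcFrobOp N ℓ τ Y = a₁ * Y ^ ℓ / n₁ := by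
    rw [ha₁, hn₁, hg]
    rfl
  have hwmul : gcFrobOp N ℓ τ Y * n₁ = Y ^ ℓ * a₁ := by
    rw [hw, div_mul_cancel₀ _ hn₁0, mul_comm]
  have hwmuls : ((gcFrobOp N ℓ τ Y : modularFunctionFieldBar N) : LaurentSeries Qb) *
      (n₁ : LaurentSeries Qb) = (Y : LaurentSeries Qb) ^ ℓ * (a₁ : LaurentSeries Qb) :=
    congrArg Subtype.val hwmul
  rw [hn₁s, ha₁s, hYs] at hwmuls
  refine ⟨y ^ ℓ * coeffMap (τ : Qb →+* Qb) (coeffMap (τ : Qb →+* Qb) y),
    kronHecke ℓ ζ (coeffMap (τ : Qb →+* Qb) y), ?_, ?_, kronPrim_frob_rhs τ hτ hP,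
    kronPrim_kronHecke_frob hℓ hA ζ hζ1 τ hτ hP,
    (kronHecke_frob_congr hℓ hA ζ hζ1 τ hτ hP.1).symm, hwmuls⟩
  · rw [← ha₁s]
    exact mul_mem (pow_mem hy ℓ) a₁.2
  · rw [← hn₁s]
    exact n₁.2

/-- **piece `S37-KRON (b)`.** -/
theorem stmtGCFrob : StmtGCFrob := by
  intro hPrim hHN N _ ℓ _ hℓ hℓN A hA τ hτ f hf
  exact s37Kron_gaussConst_of_mul hPrim hℓ hA (gcFrobOp N ℓ τ) (gcFrobOp_mul ℓ τ)
    (gcFrobOp_algebraMap ℓ τ) (fun y hy hP => s37Kron_frob_prim hHN hℓ hℓN hA hτ hy hP) f hf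

end Main

end Fermat.Agent.ES.G2
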