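import Fermat.Agent.ES.G2.S37K4
import Fermat.Agent.ES.G2.S37Kron
import Fermat.Agent.ES.G2.S37Deg
import Fermat.Agent.ES.G2.S37Glue2
import Fermat.Agent.ES.G2.S37IndepStmt
import Fermat.Agent.ES.G2.Prim
import Fermat.Agent.ES.G2.HeckeNorm
import Fermat.Agent.ES.Riemann

/-!
# S37-in: the glue inputs of S37 from (INJ), by the boundedness trick

`stmtS37In_of : StmtInj → (places exist) → StmtS37In`, i.e. for every `N`, `p`, if the Hecke
operators commute then `GlueInputsJZero N p`.

The kernel `K̄` of `S37Glue2.lean` consists of bounded classes (`S37K4.lean`): its generators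
`σ x − x` and `Ψ x` are the classes of `(g_σ − 1) D` and `Ψ D`, which are boundedly approximable by
Riemann's inequality (`s37RR_bddOfOp`), Kronecker's congruences (`stmtGCInertia`, `stmtGCFrob`) and
the degree bounds (`S37Deg.lean`).  A bounded class killed by `p ^ n` is zero by the count
(`s37RR_bddCount`, using `stmtGCIndep`) and (INJ).
-/

set_option autoImplicit false
set_option linter.style.haveILetI false
set_option linter.unusedSectionVars false

noncomputable section

namespace Fermat.Agent.ES.G2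

open ModularCurve AlgebraicCurve Fermat.Agent.ES FrobAux

section Concrete

variable (N : ℕ) [NeZero N]

/-- `hord` for the operator `g − 1` -/
theorem s37In_ord_inertia (σ : Qb ≃ₐ[ℚ] Qb) (D : Divisor Qb (modularFunctionFieldBar N))
    (f : modularFunctionFieldBar N) (hf : f ≠ 0)
    (hD : ∀ v : Place Qb (modularFunctionFieldBar N), D v = v.ord f)
    (v : Place Qb (modularFunctionFieldBar N)) :
    s37deg_opInertia (arithmeticGalois (modularFunctionFieldFull N) σ) D v
      = v.ord (gcInertiaOp N σ f) := by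
  set g := arithmeticGalois (modularFunctionFieldFull N) σ with hg
  have hgf : g • f ≠ 0 := by simpa using hf
  rw [s37deg_opInertia_apply, Finsupp.sub_apply, smul_apply_of_ord g hD v, hD v]
  unfold gcInertiaOp
  rw [unram_ord_div v hgf hf]

/-- `hord` for the operator `Ψ` -/
theorem s37In_ord_frob (ℓ : ℕ) [NeZero ℓ] (τ : Qb ≃ₐ[ℚ] Qb)
    (D : Divisor Qb (modularFunctionFieldBar N))
    (f : modularFunctionFieldBar N) (hf : f ≠ 0)
    (hD : ∀ v : Place Qb (modularFunctionFieldBar N), D v = v.ord f)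
    (v : Place Qb (modularFunctionFieldBar N)) :
    haveI := Fermat.Agent.ES.H.hasPrincipalDivisors_FF (N * ℓ)
    s37deg_opFrob (arithmeticGalois (modularFunctionFieldFull N) τ)
      (heckeBetaBar Qb N ℓ) (heckeAlphaBar Qb N ℓ)
      (Fermat.Agent.ES.H.heckeBetaBarIntegral N ℓ) (Fermat.Agent.ES.H.heckeAlphaBarIntegral N ℓ)
      ℓ D v = v.ord (gcFrobOp N ℓ τ f) := by
  haveI := Fermat.Agent.ES.H.hasPrincipalDivisors_FF (N * ℓ)
  have h := frob_ord_w (arithmeticGalois (modularFunctionFieldFull N) τ)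
    (heckeBetaBar Qb N ℓ) (heckeAlphaBar Qb N ℓ)
    (Fermat.Agent.ES.H.heckeBetaBarIntegral N ℓ) (Fermat.Agent.ES.H.heckeAlphaBarIntegral N ℓ)
    (Fermat.Agent.ES.H.finiteAlong_heckeAlphaBar N ℓ)
    (Fermat.Agent.ES.H.normFormulaAlong_heckeAlphaBar N ℓ) D 1 ℓ f hf
    (fun v => by rw [Nat.cast_one, one_mul, hD v]) v
  rw [s37deg_opFrob_apply_apply]
  unfold gcFrobOp
  rw [h, Nat.cast_one, one_mul]

end Concrete

/-- **S37-in** from (INJ). -/
theorem stmtS37In_of (hInj : StmtInj)
    (hP₀ : ∀ (N : ℕ) [NeZero N], Nonempty (Place Qb (modularFunctionFieldBar N))) :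
    StmtS37In := by
  intro N p _ hcomm
  letI := heckeModuleBar N
  intro hsmul ℓ hℓ hℓNp A hA
  haveI : NeZero ℓ := ⟨hℓ.ne_zero⟩
  haveI := Fermat.Agent.ES.H.hasPrincipalDivisors_FF N
  haveI := Fermat.Agent.ES.H.hasPrincipalDivisors_FF (N * ℓ)
  have hℓN : ¬ ℓ ∣ N := fun h => hℓNp (dvd_mul_of_dvd_left h p)
  have hp0 : p ≠ 0 := by
    rintro rfl
    exact hℓNp (by simp)
  obtain ⟨P₀⟩ := hP₀ N
  have hres := Fermat.Agent.ES.H.residue_bijective_FF N
  obtain ⟨φ, hφ⟩ := Fermat.Agent.Common.exists_isFrobeniusAt_of_liesOverPrime ℓ hℓ A hA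
  refine glueInput_of_s37Ker p A ℓ hℓ φ hφ ?_
  rintro x hx ⟨n, hn⟩
  -- the closure properties of `GaussConst`
  have h1 : GaussConst A N (1 : modularFunctionFieldBar N) := GaussConst.one
  have hmul : ∀ a b : modularFunctionFieldBar N, a ≠ 0 → b ≠ 0 → GaussConst A N a →
      GaussConst A N b → GaussConst A N (a * b) := fun a b _ _ ha hb => ha.mul hb
  have hinv : ∀ a : modularFunctionFieldBar N, a ≠ 0 → GaussConst A N a →
      GaussConst A N a⁻¹ := fun a _ ha => ha.inv
  have hpow : ∀ (a : modularFunctionFieldBar N) (k : ℕ), a ≠ 0 → GaussConst A N a →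
      GaussConst A N (a ^ k) := fun a k _ ha => ha.pow k
  -- `x` is a bounded class
  have hbdd : S37BddClass (GaussConst A N) x := by
    refine s37BddClass_of_mem_closure h1 hmul hinv ?_ hx
    rintro y (⟨σ, hσ, z, rfl⟩ | ⟨z, rfl⟩)
    · -- inertia
      obtain ⟨D, rfl⟩ := Pic0.mk_surjective z
      obtain ⟨g, hg⟩ : ∃ g : SemilinearAut Qb (modularFunctionFieldBar N),
          g = arithmeticGalois (modularFunctionFieldFull N) σ := ⟨_, rfl⟩
      have hgx : σ • Pic0.mk D = g • Pic0.mk D := by rw [hg]; rfl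
      refine ⟨SemilinearAut.degZeroSMulHom g D - D, ?_, ?_⟩
      · rw [hgx, SemilinearAut.pic0_smul_mk]
        rfl
      · have hB := s37RR_bddOfOp hres P₀ _ (Fermat.Agent.ES.R.riemann_inequality N) (GaussConst A N)
          (s37deg_opInertia g) (gcInertiaOp N σ) 2
          (fun f hf => (stmtGCInertia stmtPrim N ℓ hℓ A hA σ hσ f hf).ne_zero)
          (fun D f hf hD v => by rw [hg]; exact s37In_ord_inertia N σ D f hf hD v)
          (fun f hf => stmtGCInertia stmtPrim N ℓ hℓ A hA σ hσ f hf)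
          (fun B hB => s37deg_opInertia_bdd g B hB)
          (D : Divisor Qb (modularFunctionFieldBar N)) D.2
        rw [s37deg_opInertia_apply] at hB
        rw [AddSubgroup.coe_sub, SemilinearAut.coe_degZeroSMulHom]
        exact hB
    · -- Frobenius
      obtain ⟨D, rfl⟩ := Pic0.mk_surjective z
      obtain ⟨g, hg⟩ : ∃ g : SemilinearAut Qb (modularFunctionFieldBar N),
          g = arithmeticGalois (modularFunctionFieldFull N) φ := ⟨_, rfl⟩
      have hgx : ∀ z : JZero N, φ • z = g • z := by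
        intro z
        rw [hg]
        rfl
      have hT : ∀ y : JZero N, heckeGen ⟨ℓ, hℓ⟩ • y =
          Pic0.correspondence (heckeBetaBar Qb N ℓ) (heckeAlphaBar Qb N ℓ)
            (Fermat.Agent.ES.H.heckeBetaBarIntegral N ℓ)
            (Fermat.Agent.ES.H.heckeAlphaBarIntegral N ℓ)
            (Fermat.Agent.ES.H.fundamentalIdentityAlong_heckeBetaBar N ℓ)
            (Fermat.Agent.ES.H.finiteAlong_heckeAlphaBar N ℓ)
            (Fermat.Agent.ES.H.normFormulaAlong_heckeAlphaBar N ℓ) y := by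
        intro y
        rw [heckeModuleBar_heckeGen_smul hcomm ⟨ℓ, hℓ⟩ y]
        exact frob_heckeOperatorBar_eq N ℓ hℓ y
      refine ⟨SemilinearAut.degZeroSMulHom g (SemilinearAut.degZeroSMulHom g D)
          - Pic0.degZeroCorrespondence (heckeBetaBar Qb N ℓ) (heckeAlphaBar Qb N ℓ)
            (Fermat.Agent.ES.H.heckeBetaBarIntegral N ℓ)
            (Fermat.Agent.ES.H.heckeAlphaBarIntegral N ℓ)
            (Fermat.Agent.ES.H.fundamentalIdentityAlong_heckeBetaBar N ℓ)
            (SemilinearAut.degZeroSMulHom g D)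
          + ℓ • D, ?_, ?_⟩
      · unfold s37Psi
        rw [hT, hgx, hgx, SemilinearAut.pic0_smul_mk, SemilinearAut.pic0_smul_mk,
          Pic0.correspondence_mk]
        rfl
      · have hB := s37RR_bddOfOp hres P₀ _ (Fermat.Agent.ES.R.riemann_inequality N) (GaussConst A N)
          (s37deg_opFrob g (heckeBetaBar Qb N ℓ) (heckeAlphaBar Qb N ℓ)
            (Fermat.Agent.ES.H.heckeBetaBarIntegral N ℓ)
            (Fermat.Agent.ES.H.heckeAlphaBarIntegral N ℓ) ℓ)
          (gcFrobOp N ℓ φ) (1 + finrankAlong Qb (heckeBetaBar Qb N ℓ) + ℓ)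
          (fun f hf => (stmtGCFrob stmtPrim stmtHeckeNorm N ℓ hℓ hℓN A hA φ hφ f hf).ne_zero)
          (fun D f hf hD v => by rw [hg]; exact s37In_ord_frob N ℓ φ D f hf hD v)
          (fun f hf => stmtGCFrob stmtPrim stmtHeckeNorm N ℓ hℓ hℓN A hA φ hφ f hf)
          (fun B hB => s37deg_opFrob_bdd g _ _ _ _
            (Fermat.Agent.ES.H.fundamentalIdentityAlong_heckeBetaBar N ℓ) ℓ B hB)
          (D : Divisor Qb (modularFunctionFieldBar N)) D.2
        rw [s37deg_opFrob_apply] at hB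
        rw [AddSubgroup.coe_add, AddSubgroup.coe_sub, SemilinearAut.coe_degZeroSMulHom,
          SemilinearAut.coe_degZeroSMulHom, Pic0.coe_degZeroCorrespondence,
          SemilinearAut.coe_degZeroSMulHom, AddSubgroup.coe_nsmul, ← natCast_zsmul]
        exact hB
  -- the count and (INJ)
  have hℓpn : ¬ ℓ ∣ p ^ n := fun h => hℓNp (dvd_mul_of_dvd_right (hℓ.dvd_of_dvd_pow h) N)
  refine s37_eq_zero_of_bddClass (GC := GaussConst A N)
    (fun E hE m hm w hw hdiv => s37RR_bddCount hres P₀ (GaussConst A N) hinv hpow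
      (stmtGCIndep stmtPrim N ℓ hℓ A hA) E hE m hm w hw hdiv)
    (p ^ n) (pow_pos (Nat.pos_of_ne_zero hp0) n) ?_ hbdd hn
  intro w hw ⟨c, hc, hred⟩ hdvd
  have hcF : algebraMap Qb (modularFunctionFieldBar N) c ≠ 0 := by rwa [Ne, map_eq_zero]
  obtain ⟨h, hh⟩ := hInj N ℓ hℓ hℓN A hA (p ^ n) hℓpn _ (mul_ne_zero hcF hw) hred
    (fun P => by
      rw [P.ord_mul hcF hw, unram_ord_algebraMap P hc, zero_add]
      exact hdvd P)
  refine ⟨c⁻¹, h, inv_ne_zero hc, ?_⟩
  rw [hh, map_inv₀, inv_mul_cancel_left₀ hcF]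

end Fermat.Agent.ES.G2
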