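import Fermat.Agent.ES.G2.S37Bdd
import Fermat.Agent.ES.G2.Unram

/-!
# S37-in, piece K4 (generic part): bounded classes have no torsion

`F / K` a function field, `GC : F → Prop`.  A class `x ∈ Pic⁰(F)` is *bounded* if it has a
boundedly approximable representative (`BddApprox GC`, `S37PlanB.lean`).  Bounded classes form a
subgroup, and a bounded class killed by `m` vanishes as soon as

* (count) a function whose divisor is `m` times a boundedly approximable divisor is `GC`
  (`stmtBddCount`), and
* (inj) a `GC`-function whose divisor is divisible by `m` is a constant times an `m`-th power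
  (`StmtInj`).
-/

set_option autoImplicit false

noncomputable section

namespace Fermat.Agent.ES.G2

open AlgebraicCurve

section Generic

variable {K F : Type*} [Field K] [Field F] [Algebra K F] {GC : F → Prop}

/-- a class with a boundedly approximable representative -/
def S37BddClass (GC : F → Prop) (x : Pic0 K F) : Prop :=
  ∃ D : Divisor.degZero (K := K) (F := F), Pic0.mk D = x ∧ BddApprox GC (D : Divisor K F)

theorem s37BddClass_zero (h1 : GC 1) : S37BddClass GC (0 : Pic0 K F) :=
  ⟨0, rfl, by simpa using bddApprox_zero (K := K) (F := F) h1⟩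

theorem s37BddClass_add (hmul : ∀ a b : F, a ≠ 0 → b ≠ 0 → GC a → GC b → GC (a * b))
    {x y : Pic0 K F} (hx : S37BddClass GC x) (hy : S37BddClass GC y) :
    S37BddClass GC (x + y) := by
  obtain ⟨D, rfl, hD⟩ := hx
  obtain ⟨E, rfl, hE⟩ := hy
  refine ⟨D + E, rfl, ?_⟩
  rw [AddSubgroup.coe_add]
  exact bddApprox_add hmul hD hE

theorem s37BddClass_neg (hinv : ∀ a : F, a ≠ 0 → GC a → GC a⁻¹)
    {x : Pic0 K F} (hx : S37BddClass GC x) : S37BddClass GC (-x) := by
  obtain ⟨D, rfl, hD⟩ := hx
  refine ⟨-D, rfl, ?_⟩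
  rw [AddSubgroup.coe_neg]
  exact bddApprox_neg hinv hD

/-- the subgroup generated by bounded classes consists of bounded classes -/
theorem s37BddClass_of_mem_closure (h1 : GC 1)
    (hmul : ∀ a b : F, a ≠ 0 → b ≠ 0 → GC a → GC b → GC (a * b))
    (hinv : ∀ a : F, a ≠ 0 → GC a → GC a⁻¹)
    {S : Set (Pic0 K F)} (hS : ∀ x ∈ S, S37BddClass GC x) {x : Pic0 K F}
    (hx : x ∈ AddSubgroup.closure S) : S37BddClass GC x := by
  induction hx using AddSubgroup.closure_induction with
  | mem x hx => exact hS x hx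
  | zero => exact s37BddClass_zero h1
  | add x y _ _ hx hy => exact s37BddClass_add hmul hx hy
  | neg x _ hx => exact s37BddClass_neg hinv hx

/-- **(K4), generic form.**  A bounded class killed by `m` is zero. -/
theorem s37_eq_zero_of_bddClass
    (hcount : ∀ E : Divisor K F, BddApprox GC E → ∀ m : ℕ, 0 < m → ∀ w : F, w ≠ 0 →
      (∀ v : Place K F, v.ord w = (m : ℤ) * E v) → GC w)
    (m : ℕ) (hm : 0 < m)
    (hinj : ∀ w : F, w ≠ 0 → GC w → (∀ v : Place K F, (m : ℤ) ∣ v.ord w) →
      ∃ (c : K) (h : F), c ≠ 0 ∧ w = algebraMap K F c * h ^ m)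
    {x : Pic0 K F} (hx : S37BddClass GC x) (hmx : m • x = 0) : x = 0 := by
  obtain ⟨D, rfl, hD⟩ := hx
  have hm' : (m : ℤ) ≠ 0 := by exact_mod_cast hm.ne'
  -- `m D` is principal
  have hprinc : (m • D) ∈
      (Divisor.principal (K := K) (F := F)).addSubgroupOf
        (Divisor.degZero (K := K) (F := F)) := by
    have h1 : Pic0.mk (m • D) = 0 := hmx
    exact (QuotientAddGroup.eq_zero_iff _).mp h1
  rw [AddSubgroup.mem_addSubgroupOf] at hprinc
  obtain ⟨w, hw0, hwD⟩ := hprinc
  have hwD' : ∀ v : Place K F, v.ord w = (m : ℤ) * (D : Divisor K F) v := by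
    intro v
    rw [← hwD v]
    simp [Finsupp.smul_apply]
  have hGCw : GC w := hcount _ hD m hm w hw0 hwD'
  obtain ⟨c, h, hc, hwh⟩ := hinj w hw0 hGCw (fun v => ⟨_, hwD' v⟩)
  have hh0 : h ≠ 0 := by
    rintro rfl
    rw [zero_pow hm.ne', mul_zero] at hwh
    exact hw0 hwh
  have hcF : algebraMap K F c ≠ 0 := by rwa [Ne, map_eq_zero]
  have hord : ∀ v : Place K F, (D : Divisor K F) v = v.ord h := by
    intro v
    have h1 := hwD' v
    rw [hwh, v.ord_mul hcF (pow_ne_zero m hh0), unram_ord_algebraMap v hc, zero_add,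
      unram_ord_pow] at h1
    exact (mul_left_cancel₀ hm' h1).symm
  refine (QuotientAddGroup.eq_zero_iff _).mpr ?_
  rw [AddSubgroup.mem_addSubgroupOf]
  exact ⟨h, hh0, hord⟩

end Generic

end Fermat.Agent.ES.G2
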