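import Fermat.Agent.INJ.BGConstJ
import Fermat.Agent.INJ.NFEmb

/-!
# S37: the function field `F_N / ℚ̄` has a place (the cusp `∞`)

`s37_nonempty_place N : Nonempty (Place ℚ̄ (modularFunctionFieldBar N))`, with a light closure
(the `q`-adic valuation on `F_N ⊂ ℚ̄((q))`; `j = q⁻¹ + …` has order `-1`).
-/

set_option autoImplicit false

noncomputable section

namespace Fermat.Agent.ES.G2

open ModularCurve AlgebraicCurve Fermat.Agent.INJ

/-- `j` as an element of `F_N = modularFunctionFieldBar N` -/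
def s37PlaceJ (N : ℕ) [NeZero N] : modularFunctionFieldBar N :=
  ⟨jqModC (AlgebraicClosure ℚ), nf_fullC_le_bar N (jqModC_mem_full (AlgebraicClosure ℚ) N)⟩

/-- the cusp `∞` of `F_N / ℚ̄`: a place whose order function is the `q`-adic order -/
theorem s37_exists_cusp_place (N : ℕ) [NeZero N] :
    ∃ P₀ : Place (AlgebraicClosure ℚ) (modularFunctionFieldBar N),
      (∀ x : modularFunctionFieldBar N, x ≠ 0 →
        P₀.ord x = (x : LaurentSeries (AlgebraicClosure ℚ)).order) ∧
      P₀.ord (s37PlaceJ N) = -1 := by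
  obtain ⟨P₀, h1, h2, -⟩ := bgConst_exists_place (modularFunctionFieldBar N) (s37PlaceJ N)
    (bgConst_order_jqModC (AlgebraicClosure ℚ))
  exact ⟨P₀, h1, h2⟩

/-- `F_N / ℚ̄` has a place. -/
theorem s37_nonempty_place (N : ℕ) [NeZero N] :
    Nonempty (Place (AlgebraicClosure ℚ) (modularFunctionFieldBar N)) := by
  obtain ⟨P₀, -⟩ := s37_exists_cusp_place N
  exact ⟨P₀⟩

end Fermat.Agent.ES.G2
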