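import Fermat.Agent.ES.G2.S37In
import Fermat.Agent.ES.G2.S37Place
import Fermat.Agent.ES.G2.Main

/-!
# S37 from (INJ)

`s37_of_stmtINJAll : INJ.StmtINJAll → (the statement of S37)`.
So `Fermat/Agent/S37.lean` is `s37_of_stmtINJAll <the INJ theorem> N p hcomm`.
-/

set_option autoImplicit false
set_option linter.style.haveILetI false

noncomputable section

namespace Fermat.Agent.ES.G2

open ModularCurve AlgebraicCurve

/-- the glue inputs of S37 from (INJ) -/
theorem stmtS37In_of_stmtINJAll (h : Fermat.Agent.INJ.StmtINJAll) : StmtS37In :=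
  stmtS37In_of (stmtInj_of_stmtInjPrime (stmtInjPrime_of_stmtINJAll h))
    (fun N _ => s37_nonempty_place N)

/-- **S37** from (INJ). -/
theorem s37_of_stmtINJAll (h : Fermat.Agent.INJ.StmtINJAll) (N p : ℕ) [NeZero N]
    (hcomm : ModularCurve.HeckeOperatorsCommuteBar N) :
    letI := ModularCurve.heckeModuleBar N
    ∀ (_ : SMulCommClass (AlgebraicClosure ℚ ≃ₐ[ℚ] AlgebraicClosure ℚ) ModularCurve.HeckeAlg
        (ModularCurve.JZero N)),
      ModularCurve.SpecializationExists (K := ℚ) (L := AlgebraicClosure ℚ) N p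
        (ModularCurve.JZero N) :=
  specializationExists_JZero_of_glueInputs N p (stmtS37In_of_stmtINJAll h N p hcomm)

end Fermat.Agent.ES.G2
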