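import Fermat.Agent.ES.G2.Frob
import Fermat.Agent.ES.G2.Unram

/-!
# S37-in by the BOUNDEDNESS TRICK (no reduction of places): interface

`F = F_N ⊂ ℚ̄((q))`, `A ⊂ ℚ̄` a valuation ring over `ℓ ∤ N p`, `I` its inertia group, `φ` a Frobenius,
`T = heckeOperatorBar N ℓ`, `Ψ = φ² − T φ + ℓ`.

* S37 ⇔ `(K4)`: the subgroup `K̄ = ⟨(σ − 1) x, Ψ x⟩ ⊂ J₀(N)` meets `J₀(N)[p^∞]` trivially
  (`ES/G2/S37Glue2.lean`).
* `(K4)` ⇐ `StmtInj` + `[CONG]`: if `div w = m E` with `E = Σ (σ_i − 1) D_i + Ψ D_z`, then `w` is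
  Gauss-constant.
* `[CONG]`: Riemann gives `n D = A_n − g P₀ + div f_n` with `A_n ≥ 0` of degree `g`, so
  `y_n := w ^ n / G_n ^ m` (`G_n` Gauss-constant by Kronecker) has at most `m C` poles, `C`
  independent of `n`, whereas `y_n ≡ c · w ^ n`.  If `w` is not Gauss-constant the `n (J + 1)`
  functions `w ^ i y_n ^ j` are linearly independent (`StmtGCIndep`) and lie in a Riemann–Roch
  space of dimension `≤ (n − 1) d + J m C + 1`: contradiction for `n = m C + 1`, `J` large.

This file fixes the predicate `GaussConst` and the statements of the three concrete inputs: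
`StmtGCInertia`, `StmtGCFrob` (Kronecker, extracted from `Unram.lean` / `Frob.lean`) and
`StmtGCIndep` (linear independence from the reduction).
-/

set_option autoImplicit false

noncomputable section

namespace Fermat.Agent.ES.G2

open ModularCurve AlgebraicCurve Fermat.Agent.ES

/-- `u` is a nonzero constant times a function which reduces to one at `A`
("the Gauss reduction of `u` is a constant"). -/
def GaussConst (A : ValuationSubring Qb) (N : ℕ) [NeZero N]
    (u : modularFunctionFieldBar N) : Prop :=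
  ∃ c : Qb, c ≠ 0 ∧ ReducesToOne A N (algebraMap Qb (modularFunctionFieldBar N) c * u)

/-- the multiplicative operator attached to `σ − 1` -/
def gcInertiaOp (N : ℕ) [NeZero N] (σ : Qb ≃ₐ[ℚ] Qb) (f : modularFunctionFieldBar N) :
    modularFunctionFieldBar N :=
  (arithmeticGalois (modularFunctionFieldFull N) σ • f) / f

/-- the multiplicative operator attached to `Ψ = τ² − T_ℓ τ + ℓ`
(the function `w` of `Frob.lean`) -/
def gcFrobOp (N : ℕ) [NeZero N] (ℓ : ℕ) [NeZero ℓ] (τ : Qb ≃ₐ[ℚ] Qb)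
    (f : modularFunctionFieldBar N) : modularFunctionFieldBar N :=
  (arithmeticGalois (modularFunctionFieldFull N) τ •
      arithmeticGalois (modularFunctionFieldFull N) τ • f) * f ^ ℓ /
    FrobAux.frobNorm (heckeBetaBar Qb N ℓ) (heckeAlphaBar Qb N ℓ)
      (arithmeticGalois (modularFunctionFieldFull N) τ • f)

/-- piece `S37-KRON (a)`: `σ f / f` is Gauss-constant for `σ` in the inertia group. -/
def StmtGCInertia : Prop :=
  StmtPrim → ∀ (N : ℕ) [NeZero N] (ℓ : ℕ), ℓ.Prime →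
    ∀ A : ValuationSubring Qb, A.LiesOverPrime ℓ →
      ∀ σ ∈ A.inertiaSubgroupIn ℚ, ∀ f : modularFunctionFieldBar N, f ≠ 0 →
        GaussConst A N (gcInertiaOp N σ f)

/-- piece `S37-KRON (b)`: `τ² f · f^ℓ / N_α(β(τ f))` is Gauss-constant for a Frobenius `τ`. -/
def StmtGCFrob : Prop :=
  StmtPrim → StmtHeckeNorm → ∀ (N : ℕ) [NeZero N] (ℓ : ℕ) [NeZero ℓ], ℓ.Prime → ¬ ℓ ∣ N →
    ∀ A : ValuationSubring Qb, A.LiesOverPrime ℓ →
      ∀ τ : Qb ≃ₐ[ℚ] Qb, A.IsFrobeniusAt τ ℓ → ∀ f : modularFunctionFieldBar N, f ≠ 0 →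
        GaussConst A N (gcFrobOp N ℓ τ f)

/-- piece `S37-INDEP`: if `x` is not Gauss-constant and `y ≡ c · x ^ n`, then the functions
`x ^ i y ^ j` (`i < n`, `j < J`) are linearly independent over `ℚ̄`. -/
def StmtGCIndep : Prop :=
  StmtPrim → ∀ (N : ℕ) [NeZero N] (ℓ : ℕ), ℓ.Prime →
    ∀ A : ValuationSubring Qb, A.LiesOverPrime ℓ →
      ∀ x y : modularFunctionFieldBar N, x ≠ 0 → y ≠ 0 → ¬ GaussConst A N x →
        ∀ n : ℕ, 0 < n → GaussConst A N (y / x ^ n) →
          ∀ J : ℕ, LinearIndependent Qb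
            (fun ij : Fin n × Fin J => x ^ (ij.1 : ℕ) * y ^ (ij.2 : ℕ))

/-- the target of S37-in: for every `N`, `p` the glue inputs exist when the Hecke operators
commute. -/
def StmtS37In : Prop :=
  ∀ (N p : ℕ) [NeZero N], HeckeOperatorsCommuteBar N → GlueInputsJZero N p

end Fermat.Agent.ES.G2
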