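import Fermat.Prelude.Def_AlgebraicCurve_Repartitions
import Fermat.Prelude.Def_AlgebraicCurve_BaseChangeGalois

/-!
# S37-in by the boundedness trick: the GENERIC part (statements)

`F / K` a function field (prelude `Place`, `Divisor`, `riemannRochSpace`), `GC : F → Prop` a
predicate ("Gauss-constant").

* `BddApprox GC E` : there is `C` such that for every `n` the divisor `n E` is, up to the divisor
  of a `GC`-function `G`, bounded by an effective divisor of degree `≤ C`.
* `StmtBddCount` (piece S37-RR, the count): if `E` is boundedly approximable and `div w = m E`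
  then `w` is `GC`, provided `GC` satisfies the independence property `(c)`.
* `StmtBddOfOp` (piece S37-RR, Riemann): if `Θ` is an additive operator on divisors with a
  multiplicative companion `Θm` on functions (`div (Θm f) = Θ (div f)`, `Θm f` always `GC`) and
  `Θ` is bounded on effective divisors, then `Θ D` is boundedly approximable for `deg D = 0`.
-/

set_option autoImplicit false

noncomputable section

namespace Fermat.Agent.ES.G2

open AlgebraicCurve

/-- `E` is boundedly approximable: for every `n`, `n E = E' + div G` with `G` a `GC`-function and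
`-B ≤ E' ≤ B`, `B ≥ 0` of degree `≤ C` (`C` independent of `n`). -/
def BddApprox {K F : Type*} [Field K] [Field F] [Algebra K F] (GC : F → Prop)
    (E : Divisor K F) : Prop :=
  ∃ C : ℕ, ∀ n : ℕ, ∃ (B : Divisor K F) (G : F), 0 ≤ B ∧ Divisor.degree B ≤ (C : ℤ) ∧ G ≠ 0 ∧
    GC G ∧ ∀ v : Place K F, -B v ≤ (n : ℤ) * E v - v.ord G ∧ (n : ℤ) * E v - v.ord G ≤ B v

/-- piece `S37-RR` (count): a function whose divisor is `m` times a boundedly approximable divisor
is `GC`. -/
def StmtBddCount : Prop :=
  ∀ (K F : Type) [Field K] [Field F] [Algebra K F] [HasPrincipalDivisors K F],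
    (∀ v : Place K F, Function.Bijective (algebraMap K v.ResidueField)) → Place K F →
    ∀ GC : F → Prop,
      (∀ a : F, a ≠ 0 → GC a → GC a⁻¹) →
      (∀ (a : F) (k : ℕ), a ≠ 0 → GC a → GC (a ^ k)) →
      (∀ x y : F, x ≠ 0 → y ≠ 0 → ¬ GC x → ∀ n : ℕ, 0 < n → GC (y / x ^ n) →
        ∀ J : ℕ, LinearIndependent K
          (fun ij : Fin n × Fin J => x ^ (ij.1 : ℕ) * y ^ (ij.2 : ℕ))) →
      ∀ E : Divisor K F, BddApprox GC E → ∀ m : ℕ, 0 < m → ∀ w : F, w ≠ 0 →
        (∀ v : Place K F, v.ord w = (m : ℤ) * E v) → GC w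

/-- piece `S37-RR` (Riemann): the image of a degree-zero divisor under a bounded operator with a
`GC`-valued multiplicative companion is boundedly approximable. -/
def StmtBddOfOp : Prop :=
  ∀ (K F : Type) [Field K] [Field F] [Algebra K F] [HasPrincipalDivisors K F],
    (∀ v : Place K F, Function.Bijective (algebraMap K v.ResidueField)) → Place K F →
    ∀ g : ℤ, (∀ D : Divisor K F,
        Divisor.degree D + 1 - g ≤ (Module.finrank K ↥(riemannRochSpace D) : ℤ)) →
    ∀ (GC : F → Prop) (Θ : Divisor K F →+ Divisor K F) (Θm : F → F) (c : ℕ),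
      (∀ f : F, f ≠ 0 → Θm f ≠ 0) →
      (∀ (D : Divisor K F) (f : F), f ≠ 0 → (∀ v : Place K F, D v = v.ord f) →
        ∀ v : Place K F, Θ D v = v.ord (Θm f)) →
      (∀ f : F, f ≠ 0 → GC (Θm f)) →
      (∀ A : Divisor K F, 0 ≤ A → ∃ B : Divisor K F, 0 ≤ B ∧
        Divisor.degree B ≤ (c : ℤ) * Divisor.degree A ∧ -B ≤ Θ A ∧ Θ A ≤ B) →
      ∀ D : Divisor K F, Divisor.degree D = 0 → BddApprox GC (Θ D)

end Fermat.Agent.ES.G2
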