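import Fermat.Agent.S24.Bridge

/-!
# ES / G2, piece HN, part SWAP (analytic half): the Atkin–Lehner substitution

For `a ℓ - b N = 1` put `γ₁ = [[a, b], [N, ℓ]] ∈ SL₂(ℤ)` and `W τ = γ₁ • (ℓ τ)`.  Then for `d ∣ N`

* `swap_Jdm_W` : `J(d m · W τ) = J(d m' τ)` for `m m' = ℓ`
  (`m = 1`: `J(d · W τ) = J(d ℓ τ)`; `m = ℓ`: `J(d ℓ · W τ) = J(d τ)`).
-/

set_option autoImplicit false

noncomputable section

namespace Fermat.Agent.ES.G2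

open UpperHalfPlane Fermat.Agent.S24
open scoped MatrixGroups

/-- The matrix `[[a, b], [c, d]]` of determinant one. -/
def swapMat (a b c d : ℤ) (h : a * d - b * c = 1) : SL(2, ℤ) :=
  ⟨!![a, b; c, d], by rw [Matrix.det_fin_two_of]; exact h⟩

theorem coe_swapMat_smul (a b c d : ℤ) (h : a * d - b * c = 1) (z : ℍ) :
    ((swapMat a b c d h • z : ℍ) : ℂ) = ((a : ℂ) * z + b) / ((c : ℂ) * z + d) := by
  rw [coe_specialLinearGroup_apply]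
  simp [swapMat]

/-- `τ ↦ d τ` on `ℍ` (through the prelude's `heckeDiagMatrix`). -/
theorem swap_coe_diag {d : ℕ} (hd : d ≠ 0) (τ : ℍ) :
    ((ModularForm.heckeDiagMatrix d • τ : ℍ) : ℂ) = (d : ℂ) * (τ : ℂ) :=
  ModularForm.coe_heckeDiagMatrix_smul hd τ

theorem swap_Jd_eq {d : ℕ} (hd : d ≠ 0) (τ w : ℍ) (hw : (w : ℂ) = (d : ℂ) * (τ : ℂ)) :
    Jd d τ = Jfun w := by
  have : ModularForm.heckeDiagMatrix d • τ = w := by
    apply UpperHalfPlane.ext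
    rw [swap_coe_diag hd, hw]
  simp only [Jd, Jcomp, this]

/-- The Atkin–Lehner substitution `W τ = γ₁ • (ℓ τ)`, `γ₁ = [[a, b], [N, ℓ]]`. -/
def swapW (N ℓ : ℕ) (a b : ℤ) (h : a * (ℓ : ℤ) - b * (N : ℤ) = 1) (τ : ℍ) : ℍ :=
  swapMat a b N ℓ h • (ModularForm.heckeDiagMatrix ℓ • τ)

theorem coe_swapW {N ℓ : ℕ} (hℓ : ℓ ≠ 0) (a b : ℤ) (h : a * (ℓ : ℤ) - b * (N : ℤ) = 1) (τ : ℍ) :
    ((swapW N ℓ a b h τ : ℍ) : ℂ) =
      ((a : ℂ) * ((ℓ : ℂ) * τ) + b) / ((N : ℂ) * ((ℓ : ℂ) * τ) + ℓ) := by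
  rw [swapW, coe_swapMat_smul, swap_coe_diag hℓ]
  push_cast
  rfl

theorem swap_denom_ne_zero {N : ℕ} (hN : N ≠ 0) (τ : ℍ) : (N : ℂ) * (τ : ℂ) + 1 ≠ 0 := by
  intro h0
  have h1 := congrArg Complex.im h0
  simp only [Complex.add_im, Complex.mul_im, Complex.natCast_re, Complex.natCast_im,
    Complex.one_im, Complex.zero_im, zero_mul, add_zero, coe_im] at h1
  rcases mul_eq_zero.mp h1 with h2 | h2
  · exact hN (by exact_mod_cast h2)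
  · exact τ.im_pos.ne' h2

/-- `J(d m · W τ) = J(d m' τ)` for `d ∣ N`, `m m' = ℓ`. -/
theorem swap_Jdm_W {N ℓ : ℕ} (hN : N ≠ 0) (hℓ : ℓ ≠ 0) (a b : ℤ)
    (h : a * (ℓ : ℤ) - b * (N : ℤ) = 1) {d m m' : ℕ} (hd : d ∣ N) (hm : m * m' = ℓ) (τ : ℍ) :
    Jd (d * m) (swapW N ℓ a b h τ) = Jd (d * m') τ := by
  obtain ⟨e, rfl⟩ := hd
  subst hm
  have hd0 : d ≠ 0 := fun h0 => hN (by rw [h0, zero_mul])
  have hm0 : m ≠ 0 := fun h0 => hℓ (by rw [h0, zero_mul])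
  have hm'0 : m' ≠ 0 := fun h0 => hℓ (by rw [h0, mul_zero])
  have hdet : ((m : ℤ) * a) * (m' : ℤ) - ((d : ℤ) * b) * (e : ℤ) = 1 := by
    push_cast at h ⊢; linear_combination h
  -- `γ'' = [[m a, d b], [e, m']]`
  set z : ℍ := ModularForm.heckeDiagMatrix (d * m') • τ with hz
  have hzc : (z : ℂ) = ((d * m' : ℕ) : ℂ) * τ := swap_coe_diag (Nat.mul_ne_zero hd0 hm'0) τ
  rw [swap_Jd_eq (Nat.mul_ne_zero hd0 hm0) (swapW (d * e) (m * m') a b h τ)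
    (swapMat ((m : ℤ) * a) ((d : ℤ) * b) e m' hdet • z)]
  · rw [Jfun_smul_SL]
    simp only [Jd, Jcomp, hz]
  · rw [coe_swapMat_smul, coe_swapW hℓ, hzc]
    have hmC : (m : ℂ) ≠ 0 := Nat.cast_ne_zero.mpr hm0
    have hm'C : (m' : ℂ) ≠ 0 := Nat.cast_ne_zero.mpr hm'0
    have hden := swap_denom_ne_zero hN τ
    push_cast at hden ⊢
    have hden2 : (e : ℂ) * ((d : ℂ) * (m' : ℂ) * (τ : ℂ)) + (m' : ℂ) ≠ 0 := by
      intro h0
      apply hden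
      have : (m' : ℂ) * ((d : ℂ) * (e : ℂ) * (τ : ℂ) + 1) = 0 := by rw [← h0]; ring
      exact (mul_eq_zero.mp this).resolve_left hm'C
    have hden3 : (d : ℂ) * (e : ℂ) * ((m : ℂ) * (m' : ℂ) * (τ : ℂ)) + (m : ℂ) * (m' : ℂ) ≠ 0 := by
      intro h0
      apply hden
      have : ((m : ℂ) * (m' : ℂ)) * ((d : ℂ) * (e : ℂ) * (τ : ℂ) + 1) = 0 := by
        rw [← h0]; ring
      exact (mul_eq_zero.mp this).resolve_left (mul_ne_zero hmC hm'C)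
    rw [mul_div_assoc', div_eq_div_iff hden2 hden3]
    ring

end Fermat.Agent.ES.G2
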